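import Fermat.Agent.LinnikPrime.Near
import Fermat.Agent.PrimesMinusOne.BrunTitchmarsh
import Mathlib.Analysis.SpecialFunctions.Gaussian.FourierTransform
import Mathlib.NumberTheory.DirichletCharacter.Orthogonality

/-!
# A mean value over the characters of one modulus

With the weight `exp (- t ^ 2)` orthogonality leaves the pairs `n ≡ m`, damped by
`exp (- (log n - log m) ^ 2 / 4)`, and the inequality of Brun and Titchmarsh in windows of `log m` of
length one bounds the sum over `m` for the coefficients `Λ(m) (log m) ^ k / k! m ^ (- 1 - r)`,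
`m > q ^ 4`, by `O (r ^ (- k) / φ(q))`.
-/

set_option autoImplicit false
set_option linter.unusedSectionVars false

noncomputable section

open Complex Finset MeasureTheory
open FA.LMO (powC powC_nonneg sum_nonprime_le)
open scoped Nat Real ComplexConjugate ArithmeticFunction.vonMangoldt

namespace FA.LinnikPrime

variable {q : ℕ} [NeZero q]

/-- Orthogonality as needed. -/
theorem sum_mul_star (n m : ZMod q) :
    ∑ χ : DirichletCharacter ℂ q, χ n * conj (χ m) =
      if IsUnit m ∧ m = n then (q.totient : ℂ) else 0 := by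
  simp only [starRingEnd_apply, MulChar.star_apply']
  by_cases hm : IsUnit m
  · have e : ∀ χ : DirichletCharacter ℂ q, χ n * χ⁻¹ m = χ m⁻¹ * χ n := fun χ => by
      rw [MulChar.inv_apply_eq_inv', mul_comm]
      congr 1
      refine inv_eq_of_mul_eq_one_right ?_
      rw [← map_mul, ZMod.mul_inv_of_unit m hm, map_one]
    rw [Finset.sum_congr rfl fun χ _ => e χ, DirichletCharacter.sum_char_inv_mul_char_eq ℂ hm]
    simp only [hm, true_and]
  · rw [if_neg fun h => hm h.1]
    exact Finset.sum_eq_zero fun χ _ => by rw [MulChar.map_nonunit _ hm, mul_zero]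

theorem chTerm_mul_conj (χ : DirichletCharacter ℂ q) (t : ℝ) {n m : ℕ} (hn : n ≠ 0) (hm : m ≠ 0) :
    chTerm χ t n * conj (chTerm χ t m) = χ n * conj (χ m) *
      Complex.exp (I * ((Real.log m - Real.log n : ℝ) : ℂ) * (t : ℂ)) := by
  rw [chTerm, chTerm, map_mul, cpow_def_of_ne_zero (Nat.cast_ne_zero.2 hn),
    cpow_def_of_ne_zero (Nat.cast_ne_zero.2 hm), ← Complex.exp_conj, map_mul, map_neg, map_mul, conj_I,
    conj_ofReal, ← Complex.natCast_log, ← Complex.natCast_log, conj_ofReal, mul_mul_mul_comm,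
    ← Complex.exp_add]
  congr 2
  push_cast
  ring

/-- `∫ cos (u t) exp (- t ^ 2) = √π exp (- u ^ 2 / 4)`, in complex form. -/
theorem integral_gauss (u : ℝ) :
    ∫ t : ℝ, Complex.exp (I * (u : ℂ) * (t : ℂ)) * ((Real.exp (-t ^ 2) : ℝ) : ℂ) =
      ((√π * Real.exp (-u ^ 2 / 4) : ℝ) : ℂ) := by
  have h := fourierIntegral_gaussian (b := 1) (by simp) (u : ℂ)
  simp only [div_one, mul_one] at h
  rw [ofReal_mul, Real.sqrt_eq_rpow, ofReal_cpow Real.pi_pos.le, ofReal_exp]
  push_cast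
  rw [← h]
  refine integral_congr_ae (Filter.Eventually.of_forall fun t => ?_)
  simp only [neg_one_mul]

theorem integrable_mul_gauss {f : ℝ → ℂ} (hf : Continuous f) {C : ℝ} (hC : ∀ t, ‖f t‖ ≤ C) :
    Integrable fun t : ℝ => f t * ((Real.exp (-t ^ 2) : ℝ) : ℂ) := by
  have hg : Integrable fun t : ℝ => Real.exp (-t ^ 2) := by
    simpa using integrable_exp_neg_mul_sq one_pos
  exact Integrable.bdd_mul hg.ofReal hf.aestronglyMeasurable (Filter.Eventually.of_forall hC)

theorem continuous_chTerm (χ : DirichletCharacter ℂ q) {n : ℕ} (hn : n ≠ 0) :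
    Continuous fun t : ℝ => chTerm χ t n := by
  simp only [chTerm]
  refine continuous_const.mul ?_
  exact Continuous.const_cpow (by fun_prop) (Or.inl (Nat.cast_ne_zero.2 hn))

/-- A finite sum with a character. -/
def partSum (a : ℕ → ℝ) (I : Finset ℕ) (χ : DirichletCharacter ℂ q) (t : ℝ) : ℂ :=
  ∑ n ∈ I, (a n : ℂ) * chTerm χ t n

theorem continuous_partSum {a : ℕ → ℝ} {I : Finset ℕ} (hI : ∀ n ∈ I, n ≠ 0)
    (χ : DirichletCharacter ℂ q) : Continuous (partSum a I χ) :=
  continuous_finsetSum _ fun n hn => continuous_const.mul (continuous_chTerm χ (hI n hn))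

theorem norm_partSum_le {a : ℕ → ℝ} (ha : ∀ n, 0 ≤ a n) (I : Finset ℕ) (χ : DirichletCharacter ℂ q)
    (t : ℝ) : ‖partSum a I χ t‖ ≤ ∑ n ∈ I, a n :=
  (norm_sum_le _ _).trans (Finset.sum_le_sum fun n _ => by
    rw [norm_mul, norm_real, Real.norm_of_nonneg (ha n)]
    exact mul_le_of_le_one_right (ha n) (norm_chTerm_le χ t n))

theorem integrable_normSq_gauss {a : ℕ → ℝ} (ha : ∀ n, 0 ≤ a n) {I : Finset ℕ}
    (hI : ∀ n ∈ I, n ≠ 0) (χ : DirichletCharacter ℂ q) :
    Integrable fun t : ℝ => ‖partSum a I χ t‖ ^ 2 * Real.exp (-t ^ 2) := by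
  have hg : Integrable fun t : ℝ => Real.exp (-t ^ 2) := by
    simpa using integrable_exp_neg_mul_sq one_pos
  refine Integrable.bdd_mul hg ((continuous_partSum hI χ).norm.pow 2).aestronglyMeasurable
    (c := (∑ n ∈ I, a n) ^ 2) (Filter.Eventually.of_forall fun t => ?_)
  rw [norm_pow, norm_norm]
  exact pow_le_pow_left₀ (norm_nonneg _) (norm_partSum_le ha I χ t) 2

/-- **The mean value over all characters.** -/
theorem sum_integral_normSq_le {a : ℕ → ℝ} (ha : ∀ n, 0 ≤ a n) {I : Finset ℕ} (hI : ∀ n ∈ I, n ≠ 0) :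
    ∑ χ : DirichletCharacter ℂ q, ∫ t : ℝ, ‖partSum a I χ t‖ ^ 2 * Real.exp (-t ^ 2) ≤
      √π * q.totient * ∑ n ∈ I, a n * ∑ m ∈ I, (if (m : ZMod q) = (n : ZMod q) then
        a m * Real.exp (-(Real.log m - Real.log n) ^ 2 / 4) else 0) := by
  obtain ⟨E, hE⟩ : ∃ E : ℕ → ℕ → ℝ → ℂ, E = fun (n m : ℕ) (t : ℝ) =>
      Complex.exp (Complex.I * ((Real.log m - Real.log n : ℝ) : ℂ) * (t : ℂ)) *
        ((Real.exp (-t ^ 2) : ℝ) : ℂ) := ⟨_, rfl⟩
  have hEint : ∀ n m, Integrable (E n m) := fun n m => hE ▸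
    integrable_mul_gauss (by fun_prop) (C := 1) fun t => by
      rw [show Complex.I * ((Real.log m - Real.log n : ℝ) : ℂ) * (t : ℂ) =
        (((Real.log m - Real.log n) * t : ℝ) : ℂ) * Complex.I by push_cast; ring, Complex.norm_exp_ofReal_mul_I]
  have hexp : ∀ (χ : DirichletCharacter ℂ q) (t : ℝ),
      ((‖partSum a I χ t‖ ^ 2 * Real.exp (-t ^ 2) : ℝ) : ℂ) =
        ∑ n ∈ I, ∑ m ∈ I, ((a n * a m : ℝ) : ℂ) * (χ n * conj (χ m)) * E n m t := fun χ t => by
    rw [ofReal_mul, ← normSq_eq_norm_sq, ← mul_conj, partSum, map_sum, Finset.sum_mul_sum,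
      Finset.sum_mul]
    refine Finset.sum_congr rfl fun n hn => ?_
    rw [Finset.sum_mul]
    refine Finset.sum_congr rfl fun m hm => ?_
    rw [map_mul, conj_ofReal, mul_mul_mul_comm, chTerm_mul_conj χ t (hI n hn) (hI m hm), hE]
    push_cast
    ring
  have key : ((∑ χ : DirichletCharacter ℂ q, ∫ t : ℝ, ‖partSum a I χ t‖ ^ 2 * Real.exp (-t ^ 2) : ℝ) : ℂ) =
      ∑ n ∈ I, ∑ m ∈ I, ((a n * a m * (√π * Real.exp (-(Real.log m - Real.log n) ^ 2 / 4)) : ℝ) : ℂ) *
        (if IsUnit (m : ZMod q) ∧ (m : ZMod q) = (n : ZMod q) then (q.totient : ℂ) else 0) := by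
    rw [ofReal_sum]
    calc ∑ χ : DirichletCharacter ℂ q,
          ((∫ t : ℝ, ‖partSum a I χ t‖ ^ 2 * Real.exp (-t ^ 2) : ℝ) : ℂ)
        = ∑ χ : DirichletCharacter ℂ q, ∑ n ∈ I, ∑ m ∈ I,
            ((a n * a m : ℝ) : ℂ) * (χ n * conj (χ m)) * ∫ t, E n m t := by
          refine Finset.sum_congr rfl fun χ _ => ?_
          rw [← integral_complex_ofReal, integral_congr_ae (Filter.Eventually.of_forall (hexp χ)),
            integral_finsetSum _ fun n _ => integrable_finsetSum _ fun m _ => (hEint n m).const_mul _]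
          refine Finset.sum_congr rfl fun n _ => ?_
          rw [integral_finsetSum _ fun m _ => (hEint n m).const_mul _]
          exact Finset.sum_congr rfl fun m _ => integral_const_mul _ _
      _ = _ := by
          rw [Finset.sum_comm]
          refine Finset.sum_congr rfl fun n _ => ?_
          rw [Finset.sum_comm]
          refine Finset.sum_congr rfl fun m _ => ?_
          rw [← Finset.sum_mul, ← Finset.mul_sum, sum_mul_star, hE, integral_gauss]
          push_cast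
          ring
  have hre := congrArg Complex.re key
  rw [ofReal_re, Complex.re_sum] at hre
  rw [hre, mul_assoc, Finset.mul_sum, Finset.mul_sum]
  refine Finset.sum_le_sum fun n _ => ?_
  rw [Complex.re_sum, Finset.mul_sum, Finset.mul_sum, Finset.mul_sum]
  refine Finset.sum_le_sum fun m _ => ?_
  have h0 : 0 ≤ a n * a m * (√π * Real.exp (-(Real.log m - Real.log n) ^ 2 / 4)) :=
    mul_nonneg (mul_nonneg (ha n) (ha m)) (by positivity)
  rw [re_ofReal_mul]
  by_cases hm : (m : ZMod q) = (n : ZMod q)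
  · rw [if_pos hm]
    split_ifs
    · rw [natCast_re]
      exact le_of_eq (by ring)
    · rw [zero_re, mul_zero]
      exact mul_nonneg (Real.sqrt_nonneg _) (mul_nonneg (Nat.cast_nonneg _)
        (mul_nonneg (ha n) (mul_nonneg (ha m) (Real.exp_pos _).le)))
  · rw [if_neg hm, if_neg fun h => hm h.2]
    simp

/-- **Brun and Titchmarsh for `Λ`.** -/
theorem sum_vonMangoldt_class_le {N : ℕ} (hN : (q : ℝ) ^ 4 ≤ N) (hN2 : 2 ≤ N) (c : ℕ) :
    ∑ m ∈ (Icc 1 N).filter (fun m => m ≡ c [MOD q]), Λ m ≤ (32 + powC) * N / q.totient := by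
  have hq : 0 < q := Nat.pos_of_ne_zero (NeZero.ne q)
  have hq1 : (1 : ℝ) ≤ q := Nat.one_le_cast.2 hq
  have hqN : q < N := by
    rcases (Nat.lt_or_ge q 2) with h | h
    · omega
    · have h1 : ((q ^ 4 : ℕ) : ℝ) ≤ N := by exact_mod_cast hN
      have h2 : q ^ 4 ≤ N := by exact_mod_cast h1
      calc q = q ^ 1 := (pow_one q).symm
        _ < q ^ 4 := Nat.pow_lt_pow_right h (by norm_num)
        _ ≤ N := h2
  have hN0 : (0 : ℝ) < N := by exact_mod_cast (by omega : 0 < N)
  have hlN : 0 < Real.log N := Real.log_pos (by exact_mod_cast (by omega : 1 < N))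
  have hlq : 4 * Real.log q ≤ Real.log N := by
    have := Real.log_le_log (by positivity) hN
    rwa [Real.log_pow] at this
  have hφ : (0 : ℝ) < (q.totient : ℕ) := Nat.cast_pos.2 (Nat.totient_pos.2 hq)
  -- the primes
  have hprime : ∑ m ∈ ((Icc 1 N).filter fun p => p.Prime ∧ p ≡ c [MOD q]), Λ m ≤ 32 * N / q.totient := by
    refine (Finset.sum_le_card_nsmul _ _ (Real.log N) fun m hm => ?_).trans ?_
    · obtain ⟨hm1, hp, -⟩ := Finset.mem_filter.1 hm
      rw [ArithmeticFunction.vonMangoldt_apply_prime hp]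
      exact Real.log_le_log (Nat.cast_pos.2 hp.pos) (Nat.cast_le.2 (mem_Icc.1 hm1).2)
    rw [nsmul_eq_mul]
    refine (mul_le_mul_of_nonneg_right (FA.PrimesMinusOne.brunTitchmarsh hq hqN) hlN.le).trans ?_
    rw [Real.log_div hN0.ne' (by linarith), div_mul_eq_mul_div,
      div_le_div_iff₀ (mul_pos hφ (by linarith)) hφ]
    have := mul_le_mul_of_nonneg_left (show 3 / 4 * Real.log N ≤ Real.log N - Real.log q by linarith)
      (show 0 ≤ 32 * (N : ℝ) * (q.totient : ℕ) by positivity)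
    linarith
  -- the rest
  have hrest : ∑ m ∈ ((Icc 1 N).filter fun m => m ≡ c [MOD q]).filter (fun m => ¬ m.Prime), Λ m ≤
      powC * N / q.totient := by
    refine le_trans ?_ (div_le_div_of_nonneg_left (mul_nonneg powC_nonneg hN0.le) hφ
      (Nat.cast_le.2 (Nat.totient_le q)))
    have hpt : ∀ m ∈ ((Icc 1 N).filter fun m => m ≡ c [MOD q]).filter (fun m => ¬ m.Prime),
        Λ m ≤ (N : ℝ) ^ (3 / 4 : ℝ) * (if m.Prime then 0 else Λ m * (m : ℝ) ^ (-(3 / 4) : ℝ)) := by
      intro m hm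
      obtain ⟨hm1, hp⟩ := Finset.mem_filter.1 hm
      obtain ⟨hm2, hm3⟩ := mem_Icc.1 (Finset.mem_filter.1 hm1).1
      have hm0 : (0 : ℝ) < m := Nat.cast_pos.2 hm2
      rw [if_neg hp, mul_left_comm]
      refine le_mul_of_one_le_right ArithmeticFunction.vonMangoldt_nonneg ?_
      rw [Real.rpow_neg hm0.le, ← div_eq_mul_inv, one_le_div (by positivity)]
      exact Real.rpow_le_rpow hm0.le (Nat.cast_le.2 hm3) (by norm_num)
    refine (Finset.sum_le_sum hpt).trans ?_
    rw [← Finset.mul_sum]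
    refine (mul_le_mul_of_nonneg_left ((Finset.sum_le_sum_of_subset_of_nonneg (fun m hm => ?_)
      fun m _ _ => ?_).trans (sum_nonprime_le N)) (Real.rpow_nonneg hN0.le _)).trans ?_
    · have h1 := (Finset.mem_filter.1 (Finset.mem_filter.1 hm).1).1
      have := (mem_Icc.1 h1).2
      exact Finset.mem_range.2 (by omega)
    · split_ifs
      · exact le_rfl
      · exact mul_nonneg ArithmeticFunction.vonMangoldt_nonneg (Real.rpow_nonneg (Nat.cast_nonneg m) _)
    rw [mul_comm powC, le_div_iff₀ (by linarith), mul_right_comm]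
    refine mul_le_mul_of_nonneg_right ?_ powC_nonneg
    have h1 : (q : ℝ) ≤ (N : ℝ) ^ (1 / 4 : ℝ) := by
      refine le_trans (le_of_eq ?_) (Real.rpow_le_rpow (by positivity) hN (by norm_num))
      rw [← Real.rpow_natCast, ← Real.rpow_mul (by linarith)]
      norm_num
    refine (mul_le_mul_of_nonneg_left h1 (Real.rpow_nonneg hN0.le _)).trans (le_of_eq ?_)
    rw [← Real.rpow_add hN0]
    norm_num
  rw [add_mul, add_div]
  refine le_trans (le_of_eq ?_) (add_le_add hprime hrest)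
  rw [← Finset.sum_filter_add_sum_filter_not ((Icc 1 N).filter fun m => m ≡ c [MOD q]) Nat.Prime,
    Finset.filter_filter]
  simp only [and_comm]

theorem sum_half_pow_dist_le (c : ℕ) :
    ∀ M : ℕ, ∑ i ∈ range M, (1 / 2 : ℝ) ^ Nat.dist c i ≤ 4 - 2 * (1 / 2) ^ c := by
  induction c with
  | zero =>
    intro M
    simp only [Nat.dist, Nat.zero_sub, Nat.sub_zero, zero_add, pow_zero]
    have := geom_sum_mul (1 / 2 : ℝ) M
    have h0 : (0 : ℝ) ≤ (1 / 2 : ℝ) ^ M := by positivity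
    linarith
  | succ c ih =>
    intro M
    rcases M with _ | M
    · have : (1 / 2 : ℝ) ^ (c + 1) ≤ 1 := pow_le_one₀ (by norm_num) (by norm_num)
      simp only [Finset.range_zero, Finset.sum_empty]
      linarith
    rw [Finset.sum_range_succ', show Nat.dist (c + 1) 0 = c + 1 by simp [Nat.dist],
      Finset.sum_congr rfl fun i _ => show (1 / 2 : ℝ) ^ Nat.dist (c + 1) (i + 1) =
        (1 / 2 : ℝ) ^ Nat.dist c i by simp [Nat.dist]]
    have h1 := ih M
    rw [pow_succ (1 / 2 : ℝ) c]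
    have h2 : (0 : ℝ) ≤ (1 / 2 : ℝ) ^ c := by positivity
    linarith

/-- Gauss's function over the integers has bounded sum. -/
theorem sum_gauss_le {v : ℝ} (hv : 0 ≤ v) (M : ℕ) :
    ∑ i ∈ range M, Real.exp (-(v - i) ^ 2 / 8) ≤ 4 * Real.exp 3 := by
  have hterm : ∀ i ∈ range M, Real.exp (-(v - i) ^ 2 / 8) ≤
      Real.exp 3 * (1 / 2 : ℝ) ^ Nat.dist ⌊v⌋₊ i := fun i _ => by
    obtain ⟨c, hc⟩ : ∃ c, c = ⌊v⌋₊ := ⟨_, rfl⟩
    have hc1 : (c : ℝ) ≤ v := hc ▸ Nat.floor_le hv
    have hc2 : v < c + 1 := hc ▸ Nat.lt_floor_add_one v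
    rw [← hc]
    have hd : (Nat.dist c i : ℝ) ≤ |v - i| + 1 := by
      rcases le_total c i with h | h
      · rw [Nat.dist_eq_sub_of_le h, Nat.cast_sub h]
        linarith [neg_le_abs (v - (i : ℝ))]
      · rw [Nat.dist_eq_sub_of_le_right h, Nat.cast_sub h]
        linarith [le_abs_self (v - (i : ℝ))]
    refine le_trans (Real.exp_le_exp.2 (show -(v - i) ^ 2 / 8 ≤ 3 + (Nat.dist c i : ℝ) * (-1) by
      nlinarith [sq_nonneg (|v - (i : ℝ)| - 4), sq_abs (v - (i : ℝ))])) ?_
    rw [Real.exp_add, Real.exp_nat_mul]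
    refine mul_le_mul_of_nonneg_left (pow_le_pow_left₀ (Real.exp_pos _).le ?_ _) (Real.exp_pos _).le
    rw [Real.exp_neg, one_div]
    exact inv_anti₀ two_pos (by linarith [Real.add_one_le_exp (1 : ℝ)])
  refine (Finset.sum_le_sum hterm).trans ?_
  rw [← Finset.mul_sum, mul_comm]
  refine mul_le_mul_of_nonneg_right ((sum_half_pow_dist_le _ M).trans ?_) (Real.exp_pos _).le
  have : (0 : ℝ) ≤ (1 / 2 : ℝ) ^ ⌊v⌋₊ := by positivity
  linarith

/-- The constant of the window sums. -/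
def windowC : ℝ := 4 * Real.exp 3 * (Real.exp (1 / 4) * (Real.exp 2 * (32 + powC)))

theorem windowC_nonneg : 0 ≤ windowC := by
  have := powC_nonneg
  rw [windowC]; positivity

/-- **The sum over one class, damped.** -/
theorem sum_class_damped_le (k : ℕ) {r : ℝ} (hr : 0 < r) (hr1 : r ≤ 1) {I : Finset ℕ}
    (hI : ∀ m ∈ I, 4 * lg q ≤ Real.log m) (n : ℕ) :
    ∑ m ∈ I, (if (m : ZMod q) = (n : ZMod q) then
        coef k r m * Real.exp (-(Real.log m - Real.log n) ^ 2 / 4) else 0) ≤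
      windowC / (r ^ k * q.totient) := by
  have hφ : (0 : ℝ) < (q.totient : ℕ) := Nat.cast_pos.2 (Nat.totient_pos.2 (Nat.pos_of_ne_zero (NeZero.ne q)))
  have h4 := four_le_lg q
  obtain ⟨W, hW⟩ : ∃ W : ℝ, W = Real.exp (1 / 4) * (Real.exp 2 * (32 + powC)) / (r ^ k * q.totient) :=
    ⟨_, rfl⟩
  have hW0 : 0 ≤ W := by
    have := powC_nonneg
    rw [hW]; positivity
  obtain ⟨M, hM⟩ : ∃ M : ℕ, M = (I.sup fun m => ⌊Real.log m⌋₊) + 1 := ⟨_, rfl⟩
  have hmap : ∀ m ∈ I, ⌊Real.log m⌋₊ ∈ range M := fun m hm => Finset.mem_range.2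
    (hM ▸ Nat.lt_succ_of_le (Finset.le_sup (f := fun m : ℕ => ⌊Real.log m⌋₊) hm))
  rw [← Finset.sum_fiberwise_of_maps_to hmap]
  have hwin : ∀ i ∈ range M, ∑ m ∈ I.filter (fun m : ℕ => ⌊Real.log m⌋₊ = i), (if (m : ZMod q) = (n : ZMod q) then
      coef k r m * Real.exp (-(Real.log m - Real.log n) ^ 2 / 4) else 0) ≤
        W * Real.exp (-(Real.log n - i) ^ 2 / 8) := fun i _ => by
    rw [← Finset.sum_filter, Finset.filter_filter]
    obtain ⟨J, hJ⟩ : ∃ J, J = I.filter fun m : ℕ => ⌊Real.log m⌋₊ = i ∧ (m : ZMod q) = (n : ZMod q) :=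
      ⟨_, rfl⟩
    rw [← hJ]
    rcases J.eq_empty_or_nonempty with hJe | ⟨m₀, hm₀⟩
    · rw [hJe, Finset.sum_empty]
      exact mul_nonneg hW0 (Real.exp_pos _).le
    have hmem : ∀ m ∈ J, 4 * lg q ≤ Real.log m ∧ (i : ℝ) ≤ Real.log m ∧ Real.log m < i + 1 ∧
        m ≡ n [MOD q] := fun m hm => by
      rw [hJ, Finset.mem_filter] at hm
      obtain ⟨hmI, hi, hmn⟩ := hm
      refine ⟨hI m hmI, ?_, ?_, (ZMod.natCast_eq_natCast_iff _ _ _).1 hmn⟩
      · rw [← hi]; exact Nat.floor_le (by linarith [hI m hmI])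
      · rw [← hi]; exact Nat.lt_floor_add_one _
    have hi4 : 4 * Real.log q + 15 ≤ i := by
      obtain ⟨a1, -, a3, -⟩ := hmem m₀ hm₀
      rw [lg] at a1
      linarith
    obtain ⟨N, hN⟩ : ∃ N : ℕ, N = ⌊Real.exp (i + 1)⌋₊ := ⟨_, rfl⟩
    have hNle : (N : ℝ) ≤ Real.exp (i + 1) := hN ▸ Nat.floor_le (Real.exp_pos _).le
    have hNge : Real.exp i ≤ N := by
      have h1 := Nat.lt_floor_add_one (Real.exp ((i : ℝ) + 1))
      rw [← hN] at h1
      rw [Real.exp_add] at h1
      have h2 : 1 ≤ Real.exp i * (Real.exp 1 - 1) := one_le_mul_of_one_le_of_one_le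
        (Real.one_le_exp (Nat.cast_nonneg i)) (by linarith [Real.add_one_le_exp (1 : ℝ)])
      linarith
    have hq4 : (q : ℝ) ^ 4 ≤ N := by
      refine le_trans ?_ hNge
      rw [← Real.log_le_iff_le_exp (pow_pos (Nat.cast_pos.2 (Nat.pos_of_ne_zero (NeZero.ne q))) 4),
        Real.log_pow]
      push_cast
      linarith
    have hN2 : 2 ≤ N := by
      have h1 : (2 : ℝ) ≤ N := le_trans (by linarith [Real.add_one_le_exp (i : ℝ), Real.log_natCast_nonneg q])
        hNge
      exact_mod_cast h1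
    obtain ⟨P, hP⟩ : ∃ P : ℝ, P = ((i : ℝ) + 1) ^ k / k ! * (Real.exp (-((i : ℝ) * (1 + r))) *
        (Real.exp (1 / 4) * Real.exp (-(Real.log n - i) ^ 2 / 8))) := ⟨_, rfl⟩
    have hP0 : 0 ≤ P := by rw [hP]; positivity
    have hpt : ∀ m ∈ J, coef k r m * Real.exp (-(Real.log m - Real.log n) ^ 2 / 4) ≤ P * Λ m := fun m hm => by
      obtain ⟨-, a2, a3, -⟩ := hmem m hm
      have hl0 : 0 ≤ Real.log m := Real.log_natCast_nonneg m
      have hm0 : (0 : ℝ) < m := by
        rcases Nat.eq_zero_or_pos m with rfl | h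
        · rw [Nat.cast_zero, Real.log_zero] at a2
          linarith [Real.log_natCast_nonneg q]
        · exact Nat.cast_pos.2 h
      rw [coef, FA.LMO.wgt, mul_right_comm]
      refine mul_le_mul_of_nonneg_right ?_ ArithmeticFunction.vonMangoldt_nonneg
      rw [hP, mul_assoc]
      refine mul_le_mul ?_ ?_ (by positivity) (by positivity)
      · exact div_le_div_of_nonneg_right (pow_le_pow_left₀ hl0 a3.le k) (Nat.cast_nonneg _)
      · rw [Real.rpow_def_of_pos hm0, ← Real.exp_add (1 / 4)]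
        refine mul_le_mul (Real.exp_le_exp.2 ?_) (Real.exp_le_exp.2 ?_) (Real.exp_pos _).le (Real.exp_pos _).le
        · nlinarith
        · have h1 : (Real.log n - i) ^ 2 ≤ 2 * (Real.log m - Real.log n) ^ 2 + 2 := by
            have h2 : (Real.log m - i) ^ 2 ≤ 1 := by nlinarith
            nlinarith [sq_nonneg (2 * Real.log m - Real.log n - i)]
          linarith
    refine (Finset.sum_le_sum hpt).trans ?_
    rw [← Finset.mul_sum]
    refine (mul_le_mul_of_nonneg_left ((Finset.sum_le_sum_of_subset_of_nonneg (fun m hm => ?_)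
      fun m _ _ => ArithmeticFunction.vonMangoldt_nonneg).trans (sum_vonMangoldt_class_le hq4 hN2 n))
      hP0).trans ?_
    · obtain ⟨-, a2, a3, a4⟩ := hmem m hm
      have hm0 : 1 ≤ m := by
        by_contra h
        rw [show m = 0 by omega, Nat.cast_zero, Real.log_zero] at a2
        linarith [Real.log_natCast_nonneg q]
      refine Finset.mem_filter.2 ⟨mem_Icc.2 ⟨hm0, hN ▸ Nat.le_floor ?_⟩, a4⟩
      rw [← Real.log_le_iff_le_exp (Nat.cast_pos.2 hm0)]
      exact a3.le
    have hexp : ((i : ℝ) + 1) ^ k / k ! * Real.exp (-((i : ℝ) * (1 + r))) * Real.exp ((i : ℝ) + 1) ≤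
        Real.exp 2 / r ^ k := by
      have h1 := Real.pow_div_factorial_le_exp (x := r * ((i : ℝ) + 1)) (by positivity) k
      rw [mul_pow, mul_div_assoc] at h1
      rw [le_div_iff₀ (pow_pos hr k), mul_assoc (_ / _) (Real.exp _), ← Real.exp_add]
      calc ((i : ℝ) + 1) ^ k / k ! * Real.exp (-((i : ℝ) * (1 + r)) + ((i : ℝ) + 1)) * r ^ k =
            r ^ k * (((i : ℝ) + 1) ^ k / k !) * Real.exp (1 - i * r) := by
              rw [show -((i : ℝ) * (1 + r)) + ((i : ℝ) + 1) = 1 - i * r by ring]; ring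
        _ ≤ Real.exp (r * ((i : ℝ) + 1)) * Real.exp (1 - i * r) :=
              mul_le_mul_of_nonneg_right h1 (Real.exp_pos _).le
        _ ≤ Real.exp 2 := by rw [← Real.exp_add, Real.exp_le_exp]; linarith
    have hc : 0 ≤ (32 + powC) / (q.totient : ℕ) := div_nonneg (by linarith [powC_nonneg]) hφ.le
    calc P * ((32 + powC) * N / (q.totient : ℕ)) ≤ P * Real.exp ((i : ℝ) + 1) *
          ((32 + powC) / (q.totient : ℕ)) := by
          rw [show (32 + powC) * (N : ℝ) / (q.totient : ℕ) = N * ((32 + powC) / (q.totient : ℕ)) by ring,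
            mul_assoc P]
          exact mul_le_mul_of_nonneg_left (mul_le_mul_of_nonneg_right hNle hc) hP0
      _ = (((i : ℝ) + 1) ^ k / k ! * Real.exp (-((i : ℝ) * (1 + r))) * Real.exp ((i : ℝ) + 1)) *
          (Real.exp (1 / 4) * Real.exp (-(Real.log n - i) ^ 2 / 8) * ((32 + powC) / (q.totient : ℕ))) := by
          rw [hP]; ring
      _ ≤ Real.exp 2 / r ^ k *
          (Real.exp (1 / 4) * Real.exp (-(Real.log n - i) ^ 2 / 8) * ((32 + powC) / (q.totient : ℕ))) :=
          mul_le_mul_of_nonneg_right hexp (mul_nonneg (by positivity) hc)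
      _ = _ := by rw [hW]; field_simp
  refine (Finset.sum_le_sum hwin).trans ?_
  rw [← Finset.mul_sum]
  refine (mul_le_mul_of_nonneg_left (sum_gauss_le (Real.log_natCast_nonneg n) M) hW0).trans (le_of_eq ?_)
  rw [hW, windowC]
  ring

/-- **The mean value of the smoothed sums.** -/
theorem sum_integral_coef_le (k : ℕ) {r : ℝ} (hr : 0 < r) (hr' : r ≤ 1 / 128) {I : Finset ℕ}
    (hI : ∀ m ∈ I, 4 * lg q ≤ Real.log m) :
    ∑ χ : DirichletCharacter ℂ q, ∫ t : ℝ, ‖partSum (coef k r) I χ t‖ ^ 2 * Real.exp (-t ^ 2) ≤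
      √π * windowC * momC / r ^ (2 * k + 1) := by
  have hI0 : ∀ n ∈ I, n ≠ 0 := fun n hn h => by
    have := hI n hn
    rw [h, Nat.cast_zero, Real.log_zero] at this
    linarith [four_le_lg q]
  refine (sum_integral_normSq_le (coef_nonneg k r) hI0).trans ?_
  have hφ : (0 : ℝ) < (q.totient : ℕ) := Nat.cast_pos.2 (Nat.totient_pos.2 (Nat.pos_of_ne_zero (NeZero.ne q)))
  refine (mul_le_mul_of_nonneg_left (Finset.sum_le_sum fun n _ =>
    mul_le_mul_of_nonneg_left (sum_class_damped_le k hr (by linarith) hI n) (coef_nonneg k r n))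
    (by positivity)).trans ?_
  rw [← Finset.sum_mul]
  have h1 : (∑ n ∈ I, coef k r n) ≤ momC / r ^ (k + 1) :=
    ((summable_coef k hr).sum_le_tsum I fun n _ => coef_nonneg k r n).trans
      ((le_div_iff₀ (pow_pos hr _)).2 (zmom_le k hr hr'))
  refine (mul_le_mul_of_nonneg_left (mul_le_mul_of_nonneg_right h1
    (div_nonneg windowC_nonneg (by positivity))) (by positivity)).trans (le_of_eq ?_)
  rw [show 2 * k + 1 = (k + 1) + k by ring, pow_add r (k + 1) k]
  field_simp

end FA.LinnikPrime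

end
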