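import Fermat.Agent.LinnikPrime.Cleared
import Fermat.Agent.Tau.SiegelCore
import Fermat.Agent.Tau.SiegelPositive
import Mathlib.Analysis.SpecialFunctions.Exponential
import Mathlib.Analysis.Calculus.MeanValue

/-!
# An effective lower bound for `L(1, χ)`, `χ` real

The coefficients of `ζ(s) L(s, χ)` are at least `1` at squares, so the Taylor coefficients at `2` of the
regular part exceed `∑ j ^ (- 4) (2 log j) ^ m / m! - L(1, χ)`, while Cauchy's bound on `|s - 2| = 15 / 8`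
makes them `O (q (8 / 15) ^ m)`. Hence `L(1, χ)` and the distance of any real zero from `1` are at
least `exp (- G lg q)`.
-/

set_option autoImplicit false
set_option linter.unusedSectionVars false

noncomputable section

open Complex Metric Filter Topology Finset
open DirichletCharacter (LFunction zetaMul)
open scoped Nat Real ComplexOrder

namespace FA.LinnikPrime

variable {q : ℕ} [NeZero q]

/-- A geometric sum of a value of a real character over an odd range. -/
theorem exists_one_le_geom {ε : ℂ} (hε : ε = 0 ∨ ε = 1 ∨ ε = -1) (e : ℕ) :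
    ∃ r : ℝ, 1 ≤ r ∧ ∑ i ∈ range (2 * e + 1), ε ^ i = r := by
  rcases hε with h | h | h
  · refine ⟨1, le_rfl, ?_⟩
    rw [h, Finset.sum_range_succ']
    simp
  · refine ⟨2 * e + 1, by linarith [(Nat.cast_nonneg e : (0 : ℝ) ≤ e)], ?_⟩
    simp [h]
  · refine ⟨1, le_rfl, ?_⟩
    rw [h, neg_one_geom_sum, if_neg (Nat.not_even_iff_odd.2 ⟨e, rfl⟩)]
    simp

/-- The coefficient of `ζ L(χ)` at a square is at least `1`. -/
theorem one_le_re_zetaMul_sq {χ : DirichletCharacter ℂ q} (h2 : χ ^ 2 = 1) {j : ℕ} (hj : j ≠ 0) :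
    1 ≤ (zetaMul χ (j ^ 2)).re := by
  have hj2 : j ^ 2 ≠ 0 := pow_ne_zero _ hj
  rw [(DirichletCharacter.isMultiplicative_zetaMul χ).multiplicative_factorization _ hj2,
    Nat.factorization_pow]
  suffices h : ∀ s : Finset ℕ, (∀ p ∈ s, p.Prime) →
      ∃ r : ℝ, 1 ≤ r ∧ ∏ p ∈ s, zetaMul χ (p ^ ((2 • j.factorization) p)) = r by
    obtain ⟨r, hr, he⟩ := h (2 • j.factorization).support fun p hp => by
      rw [Finsupp.mem_support_iff, Finsupp.smul_apply, smul_eq_mul, mul_ne_zero_iff] at hp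
      exact Nat.prime_of_mem_primeFactors (Nat.support_factorization j ▸ Finsupp.mem_support_iff.2 hp.2)
    rw [Finsupp.prod, he, ofReal_re]
    exact hr
  intro s hs
  induction s using Finset.induction_on with
  | empty => exact ⟨1, le_rfl, by simp⟩
  | insert p s hp ih =>
    obtain ⟨r, hr, he⟩ := ih fun x hx => hs x (Finset.mem_insert_of_mem hx)
    have hpp := hs p (Finset.mem_insert_self p s)
    have hval : zetaMul χ (p ^ ((2 • j.factorization) p)) =
        ∑ i ∈ range (2 * j.factorization p + 1), χ (p : ZMod q) ^ i := by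
      rw [Finsupp.smul_apply, smul_eq_mul]
      simp only [DirichletCharacter.zetaMul, toArithmeticFunction, ArithmeticFunction.coe_zeta_mul_apply,
        ArithmeticFunction.coe_mk, Nat.sum_divisors_prime_pow hpp, pow_eq_zero_iff', hpp.ne_zero,
        ne_eq, false_and, ↓reduceIte, Nat.cast_pow, map_pow]
    obtain ⟨u, hu, hue⟩ := exists_one_le_geom (MulChar.isQuadratic_iff_sq_eq_one.2 h2 (p : ZMod q))
      (j.factorization p)
    refine ⟨u * r, one_le_mul_of_one_le_of_one_le hu hr, ?_⟩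
    rw [Finset.prod_insert hp, he, hval, hue, ofReal_mul]

/-- Half of the exponential comes before the index `4 x + 1`. -/
theorem half_exp_le_sum {x : ℝ} (hx : 0 ≤ x) {K : ℕ} (hK : 4 * x + 1 ≤ K) :
    Real.exp x / 2 ≤ ∑ m ∈ range K, x ^ m / m ! := by
  obtain ⟨l, rfl⟩ : ∃ l, K = l + 1 := ⟨K - 1, by
    have : (1 : ℝ) ≤ K := by linarith
    have : 1 ≤ K := by exact_mod_cast this
    omega⟩
  push_cast at hK
  have h := Real.exp_eq_exp_ℝ ▸ NormedSpace.expSeries_div_hasSum_exp x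
  have h2 := (hasSum_nat_add_iff' (l + 1)).2 h
  have hgeo : HasSum (fun i : ℕ => Real.exp (4 * x) / 4 ^ (l + 1) * (1 / 4 : ℝ) ^ i)
      (Real.exp (4 * x) / 4 ^ (l + 1) * (1 - 1 / 4)⁻¹) :=
    (hasSum_geometric_of_lt_one (by norm_num) (by norm_num)).mul_left _
  have htail := hasSum_le (fun i => ?_) h2 hgeo
  swap
  · have h4 := Real.pow_div_factorial_le_exp (x := 4 * x) (by positivity) (i + (l + 1))
    rw [mul_pow, mul_div_assoc] at h4
    rw [div_pow, one_pow, div_mul_div_comm, mul_one, ← pow_add, le_div_iff₀ (by positivity),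
      add_comm (l + 1) i]
    linarith
  have hsmall : Real.exp (4 * x) / 4 ^ (l + 1) * (1 - 1 / 4)⁻¹ ≤ 1 / 3 := by
    have h1 : Real.exp (4 * x) ≤ (4 : ℝ) ^ l := by
      refine (Real.exp_le_exp.2 (show 4 * x ≤ (l : ℝ) * 1 by linarith)).trans ?_
      rw [Real.exp_nat_mul]
      exact pow_le_pow_left₀ (Real.exp_pos 1).le (by linarith [Real.exp_one_lt_d9]) l
    rw [pow_succ, div_mul_eq_mul_div, div_le_iff₀ (by positivity)]
    norm_num
    linarith
  linarith [Real.one_le_exp hx]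

/-- The constant of the sphere `|z - 2| = 15 / 8`. -/
theorem exists_zeta_ball : ∃ A : ℝ, 1 ≤ A ∧ ∀ z ∈ closedBall (2 : ℂ) (15 / 8), ‖riemannZeta₁ z‖ ≤ A := by
  obtain ⟨A, hA⟩ := (isCompact_closedBall (2 : ℂ) (15 / 8)).exists_bound_of_continuousOn
    differentiable_riemannZeta₁.continuous.continuousOn
  exact ⟨max A 1, le_max_right _ _, fun z hz => (hA z hz).trans (le_max_left _ _)⟩

/-- The squares against Cauchy's bound. -/
theorem le_re_add_of_squares {χ : DirichletCharacter ℂ q} (hχ : χ ≠ 1) (h2 : χ ^ 2 = 1) {A : ℝ}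
    (hA1 : 1 ≤ A) (hA : ∀ z ∈ closedBall (2 : ℂ) (15 / 8), ‖riemannZeta₁ z‖ ≤ A) {J K : ℕ}
    (hJ : 1 ≤ J) (hK : 14 * Real.log J + 1 ≤ K) :
    Real.sqrt J / 2 ≤ 45 * (31 * A * q) + (LFunction χ 1).re * 2 ^ (K + 1) := by
  obtain ⟨G, hG⟩ : ∃ G : ℂ → ℂ, G = fun s => riemannZeta₁ s * LFunction χ s := ⟨_, rfl⟩
  have hGd : Differentiable ℂ G :=
    hG ▸ differentiable_riemannZeta₁.mul (DirichletCharacter.differentiable_LFunction hχ)
  obtain ⟨a, ha⟩ : ∃ a : ℕ → ℂ, a = fun n => zetaMul χ n := ⟨_, rfl⟩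
  have hF : ∀ s : ℂ, 1 < s.re → LSeries a s = G s * (s - 1)⁻¹ := fun s hs => by
    rw [ha, hG, FA.Siegel.lseries_zetaMul χ hs, ← DirichletCharacter.LFunction_eq_LSeries χ hs,
      riemannZeta_eq_inv_sub_mul (fun e => by simp [e] at hs)]
    ring
  have habs : LSeries.abscissaOfAbsConv a < ((2 : ℂ).re : EReal) := by
    have h := (DirichletCharacter.LSeriesSummable_zetaMul χ
      (s := ((3 / 2 : ℝ) : ℂ)) (by norm_num)).abscissaOfAbsConv_le
    rw [ha]
    refine lt_of_le_of_lt h ?_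
    rw [ofReal_re, show (2 : ℂ).re = 2 by simp]
    exact EReal.coe_lt_coe_iff.2 (by norm_num)
  obtain ⟨l, hl⟩ : ∃ l : ℝ, l = (LFunction χ 1).re := ⟨_, rfl⟩
  have hG1 : (G 1).re = l := by simp [hG, hl]
  rw [← hl]
  -- the squares
  have hlow : ∀ m : ℕ, ∑ j ∈ Finset.Icc 1 J, (2 * Real.log j) ^ m / m ! / (j : ℝ) ^ 4 ≤
      (FA.Siegel.regCoeff G m).re + l := fun m => by
    have hterm : ∀ n, LSeries.term (LSeries.logMul^[m] a) 2 n =
        ((Real.log n ^ m * (a n).re / (n : ℝ) ^ 2 : ℝ) : ℂ) := fun n => by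
      rcases eq_or_ne n 0 with rfl | hn
      · simp
      have him : a n = ((a n).re : ℂ) := by
        have h0 : 0 ≤ a n := by rw [ha]; exact DirichletCharacter.zetaMul_nonneg h2 n
        exact Complex.ext rfl (by rw [ofReal_im]; exact (Complex.nonneg_iff.1 h0).2.symm)
      rw [LSeries.term_of_ne_zero hn, iterate_logMul, show (n : ℂ) ^ (2 : ℂ) = (n : ℂ) ^ (2 : ℕ) by
        rw [← cpow_natCast]; norm_num]
      nth_rw 1 [him]
      push_cast
      ring
    have hsum : LSeriesSummable (LSeries.logMul^[m] a) 2 :=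
      LSeriesSummable_of_abscissaOfAbsConv_lt_re (by rwa [LSeries.absicssaOfAbsConv_logPowMul])
    have hreg : (FA.Siegel.regCoeff G m).re + l =
        (∑' n : ℕ, Real.log n ^ m * (a n).re / (n : ℝ) ^ 2) / m ! := by
      rw [FA.Siegel.regCoeff_eq hGd hF, sub_re, hG1, sub_add_cancel, LSeries_iteratedDeriv m habs,
        ← mul_assoc, ← mul_pow, neg_one_mul, neg_neg, one_pow, one_mul, LSeries, tsum_congr hterm,
        ← Complex.ofReal_tsum, ← ofReal_natCast, ← ofReal_inv, ← ofReal_mul, ofReal_re, div_eq_mul_inv]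
    have hsr : Summable fun n : ℕ => Real.log n ^ m * (a n).re / (n : ℝ) ^ 2 :=
      Complex.summable_ofReal.1 (hsum.congr hterm)
    rw [hreg, le_div_iff₀ (by positivity), Finset.sum_mul]
    refine le_trans ?_ (hsr.sum_le_tsum ((Finset.Icc 1 J).image fun j : ℕ => j ^ 2) fun n _ => ?_)
    · rw [Finset.sum_image fun x _ y _ h => Nat.pow_left_injective two_ne_zero h]
      refine Finset.sum_le_sum fun j hj => ?_
      have hj0 : j ≠ 0 := by simp at hj; omega
      rw [Nat.cast_pow, Real.log_pow, div_right_comm, div_mul_cancel₀ _ (by positivity),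
        show ((j : ℝ) ^ 2) ^ 2 = (j : ℝ) ^ 4 by ring, ha]
      push_cast
      refine div_le_div_of_nonneg_right (le_mul_of_one_le_right ?_ (one_le_re_zetaMul_sq h2 hj0)) (by positivity)
      have := Real.log_natCast_nonneg j
      positivity
    · have h1 : 0 ≤ a n := by rw [ha]; exact DirichletCharacter.zetaMul_nonneg h2 n
      exact div_nonneg (mul_nonneg (pow_nonneg (Real.log_natCast_nonneg n) m)
        (Complex.nonneg_iff.1 h1).1) (by positivity)
  -- Cauchy's bound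
  have hup : ∀ m : ℕ, (FA.Siegel.regCoeff G m).re * (7 / 4) ^ m ≤ 3 * (31 * A * q) * (14 / 15) ^ m :=
      fun m => by
    have hq1 : (1 : ℝ) ≤ q := by exact_mod_cast NeZero.one_le
    have hbG : ∀ z ∈ closedBall (2 : ℂ) (15 / 8), ‖G z‖ ≤ 31 * A * q := fun z hz => by
      have hz' : ‖z - 2‖ ≤ 15 / 8 := mem_closedBall_iff_norm.1 hz
      have hre : 1 / 8 ≤ z.re := by
        have := abs_le.1 ((abs_re_le_norm (z - 2)).trans hz')
        rw [sub_re, show (2 : ℂ).re = 2 by simp] at this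
        linarith
      have hn : ‖z‖ ≤ 31 / 8 := by
        have := norm_add_le (z - 2) 2
        rw [sub_add_cancel, RCLike.norm_ofNat] at this
        linarith
      rw [hG, norm_mul, show 31 * A * (q : ℝ) = A * (31 / 8 * ((q : ℝ) / (1 / 8))) by ring]
      refine mul_le_mul (hA z hz) ((FA.Siegel.norm_LFunction_le hχ (by linarith)).trans ?_)
        (norm_nonneg _) (by linarith)
      exact mul_le_mul hn (div_le_div_of_nonneg_left (by linarith) (by norm_num) hre)
        (div_nonneg (by linarith) (by linarith)) (by norm_num)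
    have hb : ∀ z ∈ sphere (2 : ℂ) (15 / 8), ‖dslope G 1 z‖ ≤ 3 * (31 * A * q) := fun z hz => by
      have hz' : ‖z - 2‖ = 15 / 8 := mem_sphere_iff_norm.1 hz
      have hdist : 7 / 8 ≤ ‖z - 1‖ := by
        have := norm_sub_norm_le (z - 2) (-1)
        rw [norm_neg, norm_one, show z - 2 - -1 = z - 1 by ring] at this
        linarith
      have hz1 : z ≠ 1 := fun h => by rw [h, sub_self, norm_zero] at hdist; linarith
      rw [FA.Siegel.dslope_apply_of_ne hz1, norm_mul, norm_inv]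
      have h1 : ‖G 1‖ ≤ 31 * A * q := hbG 1 (mem_closedBall_iff_norm.2 (by norm_num))
      calc ‖G z - G 1‖ * ‖z - 1‖⁻¹ ≤ (31 * A * q + 31 * A * q) * (3 / 2) := by
            refine mul_le_mul ((norm_sub_le _ _).trans (add_le_add
              (hbG z (sphere_subset_closedBall hz)) h1)) ?_ (by positivity) (by positivity)
            rw [inv_le_iff_one_le_mul₀ (by linarith)]
            linarith
        _ = 3 * (31 * A * q) := by ring
    have h := Complex.norm_iteratedDeriv_le_of_forall_mem_sphere_norm_le m (by norm_num : (0 : ℝ) < 15 / 8)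
      (FA.Siegel.differentiable_regPart hGd).diffContOnCl hb
    have h' : (FA.Siegel.regCoeff G m).re ≤ 3 * (31 * A * q) / (15 / 8) ^ m := by
      refine (le_abs_self _).trans ((abs_re_le_norm _).trans ?_)
      rw [FA.Siegel.regCoeff, norm_mul, norm_pow, norm_neg, norm_one, one_pow, one_mul, norm_mul,
        norm_inv, Complex.norm_natCast]
      refine (mul_le_mul_of_nonneg_left h (by positivity)).trans (le_of_eq ?_)
      field_simp
    refine (mul_le_mul_of_nonneg_right h' (by positivity)).trans (le_of_eq ?_)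
    rw [div_mul_eq_mul_div, mul_div_assoc, ← div_pow]
    norm_num
  -- sum both over `m < K`
  have hl0 : 0 ≤ l := hl ▸ (FA.Siegel.LFunction_one_re_pos hχ h2).le
  have hgeo1 : ∑ m ∈ range K, (14 / 15 : ℝ) ^ m ≤ 15 := by
    have := geom_sum_mul (14 / 15 : ℝ) K
    have h0 : (0 : ℝ) ≤ (14 / 15 : ℝ) ^ K := by positivity
    linarith
  have hgeo2 : ∑ m ∈ range K, (7 / 4 : ℝ) ^ m ≤ 2 ^ (K + 1) := by
    have := geom_sum_mul (7 / 4 : ℝ) K
    have h0 : (7 / 4 : ℝ) ^ K ≤ 2 ^ K := pow_le_pow_left₀ (by norm_num) (by norm_num) K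
    rw [pow_succ]
    linarith [one_le_pow₀ (one_le_two (α := ℝ)) (n := K)]
  have htop : ∑ m ∈ range K, ((FA.Siegel.regCoeff G m).re + l) * (7 / 4 : ℝ) ^ m ≤
      45 * (31 * A * q) + l * 2 ^ (K + 1) := by
    simp only [add_mul, Finset.sum_add_distrib, ← Finset.mul_sum]
    refine add_le_add ((Finset.sum_le_sum fun m _ => hup m).trans ?_) (mul_le_mul_of_nonneg_left hgeo2 hl0)
    rw [← Finset.mul_sum]
    have := mul_le_mul_of_nonneg_left hgeo1 (show 0 ≤ 3 * (31 * A * (q : ℝ)) by positivity)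
    linarith
  refine le_trans ?_ htop
  refine le_trans ?_ (Finset.sum_le_sum fun m _ => mul_le_mul_of_nonneg_right (hlow m) (by positivity))
  simp only [Finset.sum_mul]
  rw [Finset.sum_comm]
  have hJ0 : (0 : ℝ) < J := Nat.cast_pos.2 hJ
  have hsq : Real.sqrt J / 2 = ∑ j ∈ Finset.Icc 1 J, (J : ℝ) ^ (-(1 / 2) : ℝ) / 2 := by
    rw [sum_const, Nat.card_Icc, Nat.add_sub_cancel, nsmul_eq_mul, ← mul_div_assoc,
      Real.sqrt_eq_rpow, ← Real.rpow_one_add' hJ0.le (by norm_num)]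
    norm_num
  rw [hsq]
  refine Finset.sum_le_sum fun j hj => ?_
  obtain ⟨hj1, hj2⟩ := Finset.mem_Icc.1 hj
  have hj0 : (0 : ℝ) < j := Nat.cast_pos.2 hj1
  obtain ⟨x, hx⟩ : ∃ x, x = 7 / 2 * Real.log j := ⟨_, rfl⟩
  have hlj : Real.log j ≤ Real.log J := Real.log_le_log hj0 (Nat.cast_le.2 hj2)
  have hexp := half_exp_le_sum (x := x) (by rw [hx]; linarith [Real.log_natCast_nonneg j])
    (K := K) (by rw [hx]; linarith)
  have e : ∀ m : ℕ, (2 * Real.log j) ^ m / m ! / (j : ℝ) ^ 4 * (7 / 4 : ℝ) ^ m =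
      x ^ m / m ! / (j : ℝ) ^ 4 := fun m => by
    rw [hx, show 7 / 2 * Real.log j = 2 * Real.log j * (7 / 4) by ring, mul_pow _ (7 / 4 : ℝ)]
    ring
  simp only [e, ← Finset.sum_div]
  refine le_trans ?_ (div_le_div_of_nonneg_right hexp (by positivity))
  · rw [hx, div_right_comm]
    refine div_le_div_of_nonneg_right ?_ zero_le_two
    rw [le_div_iff₀ (by positivity), ← Real.rpow_natCast, show 7 / 2 * Real.log j =
      Real.log j * (7 / 2) by ring, ← Real.rpow_def_of_pos hj0]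
    calc (J : ℝ) ^ (-(1 / 2) : ℝ) * (j : ℝ) ^ ((4 : ℕ) : ℝ) ≤
          (j : ℝ) ^ (-(1 / 2) : ℝ) * (j : ℝ) ^ ((4 : ℕ) : ℝ) :=
          mul_le_mul_of_nonneg_right (Real.rpow_le_rpow_of_nonpos hj0 (Nat.cast_le.2 hj2) (by norm_num))
            (by positivity)
      _ = _ := by rw [← Real.rpow_add hj0]; norm_num

/-- **`L(1, χ)` from below, effectively.** -/
theorem exists_LFunction_one_ge : ∃ G : ℝ, 1 ≤ G ∧ ∀ (q : ℕ) [NeZero q] (χ : DirichletCharacter ℂ q),
    χ ≠ 1 → χ ^ 2 = 1 → Real.exp (-(G * lg q)) ≤ (LFunction χ 1).re := by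
  obtain ⟨A, hA1, hA⟩ := exists_zeta_ball
  obtain ⟨Q, hQ⟩ : ∃ Q : ℝ, Q = Real.log (2 * (200 * (31 * A)) ^ 2) := ⟨_, rfl⟩
  have hQ0 : 0 ≤ Q := hQ ▸ Real.log_nonneg (by nlinarith)
  refine ⟨14 * Q + 28 + 4, by linarith, fun q _ χ hχ h2 => ?_⟩
  have hq1 : (1 : ℝ) ≤ q := by exact_mod_cast NeZero.one_le
  obtain ⟨M, hM⟩ : ∃ M : ℝ, M = 31 * A * q := ⟨_, rfl⟩
  have hM1 : 31 ≤ M := by rw [hM]; nlinarith
  obtain ⟨J, hJ⟩ : ∃ J : ℕ, J = ⌈(200 * M) ^ 2⌉₊ := ⟨_, rfl⟩
  have hJge : (200 * M) ^ 2 ≤ J := hJ ▸ Nat.le_ceil _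
  have hJ1 : (1 : ℝ) ≤ J := by nlinarith
  have hJle : (J : ℝ) ≤ 2 * (200 * M) ^ 2 := by
    have := Nat.ceil_lt_add_one (show (0 : ℝ) ≤ (200 * M) ^ 2 by positivity)
    rw [← hJ] at this
    nlinarith
  have hlogJ : Real.log J ≤ Q + 2 * Real.log q := by
    refine (Real.log_le_log (by linarith) hJle).trans (le_of_eq ?_)
    rw [hQ, hM, show 2 * (200 * (31 * A * q)) ^ 2 = 2 * (200 * (31 * A)) ^ 2 * (q : ℝ) ^ 2 by ring,
      Real.log_mul (by positivity) (by positivity), Real.log_pow]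
    push_cast
    ring
  have hlJ := Real.log_nonneg hJ1
  obtain ⟨K, hK⟩ : ∃ K : ℕ, K = ⌈14 * Real.log J + 1⌉₊ := ⟨_, rfl⟩
  have hKge : 14 * Real.log J + 1 ≤ K := hK ▸ Nat.le_ceil _
  have hKle : (K : ℝ) ≤ 14 * Real.log J + 2 := by
    have := Nat.ceil_lt_add_one (show (0 : ℝ) ≤ 14 * Real.log J + 1 by positivity)
    rw [← hK] at this
    linarith
  have h := le_re_add_of_squares hχ h2 hA1 hA (by exact_mod_cast hJ1) hKge
  rw [← hM] at h
  have hs : 200 * M ≤ Real.sqrt J := Real.le_sqrt_of_sq_le hJge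
  have h1 : 1 ≤ (LFunction χ 1).re * 2 ^ (K + 1) := by linarith
  refine le_trans ?_ ((inv_le_iff_one_le_mul₀ (show (0 : ℝ) < 2 ^ (K + 1) by positivity)).2 h1)
  rw [Real.exp_neg]
  refine inv_anti₀ (by positivity) ?_
  refine (pow_le_pow_left₀ zero_le_two (show (2 : ℝ) ≤ Real.exp 1 by linarith [Real.add_one_le_exp (1 : ℝ)])
    (K + 1)).trans ?_
  rw [← Real.exp_nat_mul]
  refine Real.exp_le_exp.2 ?_
  push_cast
  rw [lg]
  nlinarith [Real.log_nonneg hq1, mul_nonneg hQ0 (Real.log_nonneg hq1)]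

/-- **No real zero is exponentially near `1`.** -/
theorem exists_one_sub_zero_ge : ∃ G : ℝ, 1 ≤ G ∧ ∀ (q : ℕ) [NeZero q] (χ : DirichletCharacter ℂ q),
    χ ≠ 1 → χ ^ 2 = 1 → ∀ β : ℝ, LFunction χ β = 0 → Real.exp (-(G * lg q)) ≤ 1 - β := by
  obtain ⟨G, hG1, h⟩ := exists_LFunction_one_ge
  refine ⟨G + 2, by linarith, fun q _ χ hχ h2 β hβ => ?_⟩
  have hL := lg_pos q
  have h4 := four_le_lg q
  have hβ1 : β < 1 := by
    by_contra hle
    exact DirichletCharacter.LFunction_ne_zero_of_one_le_re χ (Or.inl hχ) (by simpa using not_lt.1 hle) hβ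
  have he4 : (32 : ℝ) ≤ Real.exp (lg q) := by
    refine le_trans ?_ (Real.exp_le_exp.2 h4)
    rw [show (4 : ℝ) = ((4 : ℕ) : ℝ) * 1 by norm_num, Real.exp_nat_mul]
    exact le_trans (by norm_num) (pow_le_pow_left₀ (by norm_num : (0 : ℝ) ≤ 2.7)
      (by linarith [Real.exp_one_gt_d9]) 4)
  rcases le_or_gt β (15 / 16) with hs | hs
  · refine le_trans ?_ (show (1 : ℝ) / 16 ≤ 1 - β by linarith)
    rw [Real.exp_neg, one_div]
    refine inv_anti₀ (by norm_num) ?_
    refine le_trans ?_ (Real.exp_le_exp.2 (show lg q ≤ (G + 2) * lg q by nlinarith))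
    linarith
  have hball : (β : ℂ) ∈ closedBall (1 : ℂ) (1 / 16) := by
    rw [mem_closedBall, dist_eq_norm, ← ofReal_one, ← ofReal_sub, norm_real, Real.norm_eq_abs,
      abs_of_neg (by linarith)]
    linarith
  have hq1 : (1 : ℝ) ≤ q := by exact_mod_cast NeZero.one_le
  have hder : ∀ z ∈ closedBall (1 : ℂ) (1 / 16), ‖deriv (LFunction χ) z‖ ≤ 32 * q := fun z hz => by
    refine (Complex.norm_deriv_le_of_forall_mem_sphere_norm_le (R := 1 / 16) (C := 2 * q) (by norm_num)
      (DirichletCharacter.differentiable_LFunction hχ).diffContOnCl fun w hw => ?_).trans (le_of_eq (by ring))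
    rw [mem_closedBall, dist_eq_norm] at hz
    rw [mem_sphere_iff_norm] at hw
    have h1 : ‖w - 1‖ ≤ 1 / 8 := by
      calc ‖w - 1‖ = ‖(w - z) + (z - 1)‖ := by ring_nf
        _ ≤ 1 / 8 := (norm_add_le _ _).trans (by linarith)
    have hre := abs_le.1 ((abs_re_le_norm (w - 1)).trans h1)
    rw [sub_re, one_re] at hre
    have hwn : ‖w‖ ≤ 9 / 8 := by
      calc ‖w‖ = ‖(w - 1) + 1‖ := by ring_nf
        _ ≤ 9 / 8 := (norm_add_le _ _).trans (by rw [norm_one]; linarith)
    refine (FA.Siegel.norm_LFunction_le hχ (by linarith)).trans ?_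
    refine (mul_le_mul hwn (div_le_div_of_nonneg_left (by linarith) (by norm_num) (show 7 / 8 ≤ w.re by
      linarith)) (div_nonneg (by linarith) (by linarith)) (by norm_num)).trans ?_
    linarith
  have hmv := (convex_closedBall (1 : ℂ) (1 / 16)).norm_image_sub_le_of_norm_deriv_le
    (fun z _ => (DirichletCharacter.differentiable_LFunction hχ) z) hder hball
    (mem_closedBall_self (by norm_num))
  rw [hβ, sub_zero, ← ofReal_one, ← ofReal_sub, norm_real, Real.norm_of_nonneg (by linarith),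
    ofReal_one] at hmv
  have hlo := (h q χ hχ h2).trans ((re_le_norm _).trans hmv)
  have h32 : (32 : ℝ) * q ≤ Real.exp (2 * lg q) := by
    rw [two_mul, Real.exp_add]
    exact mul_le_mul he4 (natCast_le_exp_lg q) (by linarith) (Real.exp_pos _).le
  refine le_of_mul_le_mul_left ?_ (show (0 : ℝ) < Real.exp (2 * lg q) from Real.exp_pos _)
  rw [← Real.exp_add, show 2 * lg q + -((G + 2) * lg q) = -(G * lg q) by ring]
  exact hlo.trans (mul_le_mul_of_nonneg_right h32 (by linarith))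

end FA.LinnikPrime

end
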