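import Fermat.Agent.LinnikPrime.Zone
import Fermat.Agent.DeuringHeilbronn.PowerSum
import Fermat.Agent.DeuringHeilbronn.Main

/-!
# The repulsion of Deuring and Heilbronn modulo `q`

For the real character `χ₁` with real zero `β` and a zero `ρ = 1 - x + iγ` of `L(s, χ)` other than it,
the even power sums at `1 + x` and `1 + x + iγ`, weighted by `(1 + χ₁(n)) (1 + re χ(n) n ^ (- iγ))`,
are at most `O (j (1 - β) / x)`, while one with `j = O (1 + x lg q)` is at least `4 ^ (- j) / 8`. So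
`x exp (- A (1 + x lg q)) ≤ 1 - β`, with no need of bounds outside a fixed disc.
-/

set_option autoImplicit false
set_option linter.unusedSectionVars false

noncomputable section

open Complex Metric Filter Topology
open scoped Nat Real ArithmeticFunction.vonMangoldt

namespace FA.LinnikPrime

variable {q : ℕ} [NeZero q]

/-- A zero seen from `1 + x + it`: `(x / (1 + x + it - w)) ^ 2`. -/
def seen (x t : ℝ) (w : ℂ) : ℂ := ((x : ℂ) / (line x t - w)) ^ 2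

/-- The `j`-th power sum of a list seen from `1 + x + it`. -/
def seenSum (j : ℕ) (x t : ℝ) (S : Multiset ℂ) : ℝ := (S.map fun w => seen x t w ^ j).sum.re

/-- The pole seen from `1 + x + it`. -/
def seenPole (j : ℕ) (x t : ℝ) : ℂ := (((x : ℂ) / ((x : ℂ) + (t : ℂ) * I)) ^ 2) ^ j

theorem mom_re_mul_le (χ : DirichletCharacter ℂ q) {j : ℕ} (hj : 1 ≤ j) {x : ℝ} (hx : 0 < x)
    (hx8 : x ≤ 1 / 8) {t : ℝ} (ht : |t| ≤ 1 / 8) :
    (mom χ (2 * j - 1) x t).re * x ^ (2 * j) ≤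
      (pol χ * seenPole j x t).re - seenSum j x t (nearList χ) + errTerm q (2 * j - 1) * x ^ (2 * j) := by
  have hk : 2 * j - 1 + 1 = 2 * j := by omega
  have h := (le_abs_self _).trans
    ((abs_re_le_norm _).trans (mom_formula χ (2 * j - 1) hx hx8 ht))
  rw [sub_re, sub_re, hk] at h
  have hx0 : (0 : ℝ) ≤ x ^ (2 * j) := by positivity
  have e1 : (pol χ * (((x : ℂ) + (t : ℂ) * I) ^ (2 * j))⁻¹).re * x ^ (2 * j) =
      (pol χ * seenPole j x t).re := by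
    rw [← re_mul_ofReal, seenPole, ← pow_mul, div_pow, ofReal_pow]
    congr 1
    ring
  have e2 : (zsum χ (2 * j - 1) x t).re * x ^ (2 * j) = seenSum j x t (nearList χ) := by
    rw [← re_mul_ofReal, seenSum, zsum, ← Multiset.sum_map_mul_right]
    refine congrArg Complex.re (congrArg Multiset.sum (Multiset.map_congr rfl fun w _ => ?_))
    rw [seen, hk, ← pow_mul, div_pow, ofReal_pow]
    ring
  have := mul_le_mul_of_nonneg_right h hx0
  rw [sub_mul, sub_mul, e1, e2] at this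
  linarith

/-- The pole against the real zero `β`. -/
theorem pole_sub_le (j : ℕ) {x : ℝ} (hx : 0 < x) (t : ℝ) {β : ℝ} (hβ : β ≤ 1) :
    (seenPole j x t).re - (seen x t (β : ℂ) ^ j).re ≤ 2 * j * ((1 - β) / x) := by
  obtain ⟨u, hu⟩ : ∃ u : ℂ, u = ((x : ℂ) + (t : ℂ) * I) / (x : ℂ) := ⟨_, rfl⟩
  obtain ⟨v, hv⟩ : ∃ v : ℂ, v = (line x t - (β : ℂ)) / (x : ℂ) := ⟨_, rfl⟩
  have hx0 : (x : ℂ) ≠ 0 := ofReal_ne_zero.2 hx.ne'
  have hu1 : 1 ≤ ‖u‖ := by
    rw [hu, norm_div, norm_real, Real.norm_of_nonneg hx.le, le_div_iff₀ hx, one_mul]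
    exact le_trans (by simp) (re_le_norm _)
  have hv1 : 1 ≤ ‖v‖ := by
    rw [hv, norm_div, norm_real, Real.norm_of_nonneg hx.le, le_div_iff₀ hx, one_mul]
    refine le_trans ?_ (re_le_norm _)
    rw [sub_re, line_re, ofReal_re]
    linarith
  rw [← sub_re, seenPole, seen, ← pow_mul, ← pow_mul, ← inv_div ((x : ℂ) + _) (x : ℂ),
    ← inv_div (line x t - _) (x : ℂ), ← hu, ← hv, inv_pow, inv_pow]
  refine (re_le_norm _).trans ((FA.DeuringHeilbronn.norm_inv_pow_sub_le hu1 hv1 _).trans (le_of_eq ?_))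
  rw [hu, hv, ← sub_div, norm_div, norm_real, Real.norm_of_nonneg hx.le,
    show (x : ℂ) + (t : ℂ) * I - (line x t - (β : ℂ)) = ((β - 1 : ℝ) : ℂ) by
      rw [line]; push_cast; ring,
    norm_real, Real.norm_eq_abs, abs_of_nonpos (by linarith), neg_sub]
  push_cast
  ring

theorem seenSum_erase {S : Multiset ℂ} {w : ℂ} (hw : w ∈ S) (j : ℕ) (x t : ℝ) :
    seenSum j x t S = (seen x t w ^ j).re + seenSum j x t (S.erase w) := by
  rw [seenSum, seenSum, ← add_re, Multiset.sum_map_erase (f := fun y => seen x t y ^ j) hw]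

/-- Removing `β` pays for the pole. -/
theorem pole_sub_seenSum_le {S : Multiset ℂ} {β : ℝ} (hβS : (β : ℂ) ∈ S) (hβ : β ≤ 1) (j : ℕ) {x : ℝ}
    (hx : 0 < x) (t : ℝ) :
    (seenPole j x t).re - seenSum j x t S ≤ 2 * j * ((1 - β) / x) - seenSum j x t (S.erase (β : ℂ)) := by
  rw [seenSum_erase hβS]
  linarith [pole_sub_le j hx t hβ]

theorem sum_norm_seen_le (χ : DirichletCharacter ℂ q) {T : Multiset ℂ} (hT : T ≤ nearList χ) {x : ℝ}
    (hx : 0 < x) (hx8 : x ≤ 1 / 8) {t : ℝ} (ht : |t| ≤ 1 / 8) :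
    ((T.map (seen x t)).map fun z => ‖z‖).sum ≤ 2 + landC * lg q * x := by
  refine le_trans ?_ (sum_sq_le χ hx hx8 ht)
  obtain ⟨U, hU⟩ := Multiset.le_iff_exists_add.1 hT
  rw [Multiset.map_map, hU, Multiset.map_add, Multiset.sum_add]
  refine le_add_of_le_of_nonneg (le_of_eq (congrArg Multiset.sum (Multiset.map_congr rfl fun w _ => ?_)))
    (Multiset.sum_nonneg fun y hy => ?_)
  · simp only [Function.comp_apply, seen, norm_pow, norm_div, norm_real, Real.norm_of_nonneg hx.le]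
  · obtain ⟨z, -, rfl⟩ := Multiset.mem_map.1 hy
    positivity

theorem sum_Icc_mul_pow_le {u : ℝ} (hu : 0 ≤ u) (hu4 : u ≤ 1 / 4) :
    ∀ J : ℕ, ∑ j ∈ Finset.Icc 1 J, (j : ℝ) * u ^ j ≤ 4 * u * (1 - (1 / 2) ^ J) := fun J => by
  induction J with
  | zero => simp
  | succ i ih =>
    rw [Finset.sum_Icc_succ_top (by omega), pow_succ u, pow_succ (1 / 2 : ℝ)]
    have h1 : ((i + 1 : ℕ) : ℝ) ≤ 2 * 2 ^ i := by
      have : i + 1 ≤ 2 * 2 ^ i := by
        have := Nat.lt_two_pow_self (n := i)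
        omega
      exact_mod_cast this
    have h2 : ((i + 1 : ℕ) : ℝ) * (u ^ i * u) ≤ 2 * u * (1 / 2) ^ i := by
      calc ((i + 1 : ℕ) : ℝ) * (u ^ i * u) ≤ 2 * 2 ^ i * (u ^ i * u) :=
            mul_le_mul_of_nonneg_right h1 (by positivity)
        _ = 2 * u * (2 * u) ^ i := by ring
        _ ≤ _ := mul_le_mul_of_nonneg_left (pow_le_pow_left₀ (by positivity) (by linarith) i) (by positivity)
    linarith

/-- The two lists at height `γ`, with `β` removed against a pole. -/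
theorem exists_side {χ₁ χ : DirichletCharacter ℂ q} (h₁ : χ₁ ≠ 1) (h₁2 : χ₁ ^ 2 = 1) {β : ℝ}
    (hβ : (β : ℂ) ∈ nearList χ₁) {ρ : ℂ} (hρ : ρ ∈ nearList χ) (hne : χ ≠ χ₁ ∨ ρ ≠ (β : ℂ)) :
    ∃ T₂ T₃ : Multiset ℂ, T₂ ≤ nearList χ ∧ T₃ ≤ nearList (χ₁ * χ) ∧ ρ ∈ T₂ ∧
      ∀ (j : ℕ) (x : ℝ), 0 < x → ∀ t : ℝ,
        (pol χ * seenPole j x t).re - seenSum j x t (nearList χ) +
          ((pol (χ₁ * χ) * seenPole j x t).re - seenSum j x t (nearList (χ₁ * χ))) ≤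
        2 * j * ((1 - β) / x) - seenSum j x t T₂ - seenSum j x t T₃ := by
  have hβ1 : β ≤ 1 := by simpa using (re_lt_one_of_mem hβ).le
  by_cases hone : χ = 1
  · subst hone
    rw [mul_one]
    refine ⟨_, (nearList χ₁).erase (β : ℂ), le_rfl, Multiset.erase_le _ _, hρ, fun j x hx t => ?_⟩
    rw [pol_one, one_mul, pol_of_ne_one h₁, zero_mul, zero_re]
    linarith [pole_sub_seenSum_le hβ hβ1 j hx t]
  by_cases heq : χ = χ₁
  · subst heq
    rw [← sq, h₁2]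
    refine ⟨(nearList χ).erase (β : ℂ), _, Multiset.erase_le _ _, le_rfl,
      (Multiset.mem_erase_of_ne (hne.resolve_left fun h => h rfl)).2 hρ, fun j x hx t => ?_⟩
    rw [pol_one, one_mul, pol_of_ne_one h₁, zero_mul, zero_re]
    linarith [pole_sub_seenSum_le hβ hβ1 j hx t]
  · have hprod : χ₁ * χ ≠ 1 := fun h => heq (by
      calc χ = χ₁ * χ₁ * χ := by rw [← sq, h₁2, one_mul]
        _ = χ₁ := by rw [mul_assoc, h, mul_one])
    refine ⟨_, _, le_rfl, le_rfl, hρ, fun j x hx t => ?_⟩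
    rw [pol_of_ne_one hone, pol_of_ne_one hprod, zero_mul, zero_re]
    have : 0 ≤ 2 * (j : ℝ) * ((1 - β) / x) :=
      mul_nonneg (by positivity) (div_nonneg (by linarith) hx.le)
    linarith

/-- The power sums over all lists but the two removed zeros are small. -/
theorem seen_upper {χ₁ χ : DirichletCharacter ℂ q} (h₁ : χ₁ ≠ 1) (h₁2 : χ₁ ^ 2 = 1) {β : ℝ}
    (hβ : (β : ℂ) ∈ nearList χ₁) {T₂ T₃ : Multiset ℂ}
    (hside : ∀ (j : ℕ) (x : ℝ), 0 < x → ∀ t : ℝ,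
      (pol χ * seenPole j x t).re - seenSum j x t (nearList χ) +
        ((pol (χ₁ * χ) * seenPole j x t).re - seenSum j x t (nearList (χ₁ * χ))) ≤
      2 * j * ((1 - β) / x) - seenSum j x t T₂ - seenSum j x t T₃)
    {j : ℕ} (hj : 1 ≤ j) {x : ℝ} (hx : 0 < x) (hx8 : x ≤ 1 / 8) {γ : ℝ} (hγ : |γ| ≤ 1 / 8) :
    seenSum j x 0 (nearList (1 : DirichletCharacter ℂ 1)) +
        seenSum j x 0 ((nearList χ₁).erase (β : ℂ)) + seenSum j x γ T₂ + seenSum j x γ T₃ ≤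
      4 * j * ((1 - β) / x) + 4 * (errTerm q (2 * j - 1) * x ^ (2 * j)) := by
  have hβ1 : β ≤ 1 := by simpa using (re_lt_one_of_mem hβ).le
  have hpos := re_comb_nonneg (2 * j - 1) hx χ₁ χ (χ₁ * χ) 0 γ γ 1 1 1 1 fun n hn => by
    have e : chTerm (χ₁ * χ) γ n = chTerm χ₁ 0 n * chTerm χ γ n := by
      rw [chTerm_mul χ₁ χ 0 γ hn, zero_add]
    rw [e, mul_re, chTerm_im_eq_zero h₁2, zero_mul, sub_zero]
    have ha := abs_le.1 (abs_re_chTerm_le χ₁ 0 n)
    have hb := abs_le.1 (abs_re_chTerm_le χ γ n)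
    nlinarith
  have h0 := mom_re_mul_le (1 : DirichletCharacter ℂ 1) hj hx hx8 (t := 0) (by norm_num)
  have h1 := mom_re_mul_le χ₁ hj hx hx8 (t := 0) (by norm_num)
  have h2 := mom_re_mul_le χ hj hx hx8 hγ
  have h3 := mom_re_mul_le (χ₁ * χ) hj hx hx8 hγ
  rw [mom_one_level, ofReal_re, pol_one, one_mul] at h0
  rw [pol_of_ne_one h₁, zero_mul, zero_re] at h1
  have h4 := hside j x hx γ
  have h5 := pole_sub_seenSum_le hβ hβ1 j hx 0
  have herr : errTerm 1 (2 * j - 1) * x ^ (2 * j) ≤ errTerm q (2 * j - 1) * x ^ (2 * j) := by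
    refine mul_le_mul_of_nonneg_right ?_ (by positivity)
    rw [errTerm, errTerm]
    have := one_le_rimC
    gcongr
    rw [lg, lg, Nat.cast_one, Real.log_one]
    linarith [Real.log_natCast_nonneg q]
  have h6 := mul_nonneg hpos (show 0 ≤ x ^ (2 * j) by positivity)
  linarith

theorem mem_seen_self {x : ℝ} (hx : 0 < x) {ρ : ℂ} (hρ : x = 1 - ρ.re) :
    seen x ρ.im ρ = ((1 / 4 : ℝ) : ℂ) := by
  rw [seen, line_sub_self, ← hρ, ← ofReal_div, ← ofReal_pow]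
  congr 1
  field_simp
  ring

/-- The power sum of size `4 ^ (- j) / 8` against the upper bound. -/
theorem repulsion_aux {χ₁ χ : DirichletCharacter ℂ q} (h₁ : χ₁ ≠ 1) (h₁2 : χ₁ ^ 2 = 1) {β : ℝ}
    (hβ : (β : ℂ) ∈ nearList χ₁) {ρ : ℂ} (hρ : ρ ∈ nearList χ)
    (hne : χ ≠ χ₁ ∨ ρ ≠ (β : ℂ)) (hi : |ρ.im| ≤ 1 / 8) {x : ℝ} (hxρ : x = 1 - ρ.re)
    (hx128 : x ≤ 1 / 128) :
    ∃ j : ℕ, 1 ≤ j ∧ (j : ℝ) ≤ (1100 + 512 * landC + 229376 * rimC) * (1 + x * lg q) ∧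
      (1 / 4) ^ j / 8 ≤ 4 * j * ((1 - β) / x) := by
  have hx : 0 < x := by linarith [re_lt_one_of_mem hρ]
  have hL := lg_pos q
  have hrim := one_le_rimC
  have hland := landC_pos
  obtain ⟨T₂, T₃, hT₂, hT₃, hρT, hside⟩ := exists_side h₁ h₁2 hβ hρ hne
  obtain ⟨Z, hZ⟩ : ∃ Z : Multiset ℂ, Z = (nearList (1 : DirichletCharacter ℂ 1)).map (seen x 0) +
      ((nearList χ₁).erase (β : ℂ)).map (seen x 0) + T₂.map (seen x ρ.im) + T₃.map (seen x ρ.im) :=
    ⟨_, rfl⟩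
  have hquarter : ((1 / 4 : ℝ) : ℂ) ∈ Z := by
    rw [hZ, ← mem_seen_self hx hxρ]
    exact Multiset.mem_add.2 (Or.inl (Multiset.mem_add.2 (Or.inr (Multiset.mem_map_of_mem _ hρT))))
  obtain ⟨a, ha, hmax⟩ := Z.toFinset.exists_max_image (fun z => ‖z‖) ⟨_, Multiset.mem_toFinset.2 hquarter⟩
  rw [Multiset.mem_toFinset] at ha
  have ha4 : 1 / 4 ≤ ‖a‖ := by
    have := hmax _ (Multiset.mem_toFinset.2 hquarter)
    rw [norm_real, Real.norm_of_nonneg (by norm_num : (0 : ℝ) ≤ 1 / 4)] at this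
    exact this
  have hr : 0 < ‖a‖ := by linarith
  have hsum : (Z.map fun z => ‖z‖).sum ≤ 4 * (2 + landC * lg q * x) := by
    rw [hZ, Multiset.map_add, Multiset.sum_add, Multiset.map_add, Multiset.sum_add, Multiset.map_add,
      Multiset.sum_add]
    have k0 := sum_norm_seen_le (1 : DirichletCharacter ℂ 1) le_rfl hx (by linarith) (t := 0) (by norm_num)
    have k1 := sum_norm_seen_le χ₁ (Multiset.erase_le _ _) hx (by linarith) (t := 0) (by norm_num)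
      (T := (nearList χ₁).erase (β : ℂ))
    have k2 := sum_norm_seen_le χ hT₂ hx (by linarith) hi
    have k3 := sum_norm_seen_le (χ₁ * χ) hT₃ hx (by linarith) hi
    have k4 : landC * lg 1 * x ≤ landC * lg q * x := by
      gcongr
      rw [lg, lg, Nat.cast_one, Real.log_one]
      linarith [Real.log_natCast_nonneg q]
    linarith
  obtain ⟨e, he⟩ : ∃ e : ℕ → ℝ, e = fun j : ℕ => 112 * (rimC * lg q) * ((j : ℝ) * (4096 * x ^ 2) ^ j) := ⟨_, rfl⟩
  have hu4 : 4096 * x ^ 2 ≤ 1 / 4 := by nlinarith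
  have hE : ∀ J, ∑ j ∈ Finset.Icc 1 J, e j ≤ 14336 * rimC * (x * lg q) := fun J => by
    rw [he, ← Finset.mul_sum]
    refine (mul_le_mul_of_nonneg_left (sum_Icc_mul_pow_le (by positivity) hu4 J) (by positivity)).trans ?_
    have h1 : 0 ≤ (1 / 2 : ℝ) ^ J := by positivity
    have h2 : x ^ 2 ≤ x * (1 / 128) := by rw [sq]; exact mul_le_mul_of_nonneg_left hx128 hx.le
    have h3 : 0 ≤ rimC * lg q := by positivity
    nlinarith [mul_nonneg (mul_nonneg h3 (sq_nonneg x)) h1, mul_le_mul_of_nonneg_left h2 h3]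
  have hn : ∀ z : ℂ, ‖z / (‖a‖ : ℂ)‖ = ‖z‖ / ‖a‖ := fun z => by rw [norm_div, norm_real, norm_norm]
  obtain ⟨j, hj1, hj2, hj⟩ := FA.DeuringHeilbronn.exists_re_powSum_ge_one_add
    (Z.map fun z => z / (‖a‖ : ℂ)) (a := a / (‖a‖ : ℂ)) (Multiset.mem_map_of_mem _ ha)
    (by rw [hn, div_self hr.ne']) (fun z hz => by
      obtain ⟨y, hy, rfl⟩ := Multiset.mem_map.1 hz
      rw [hn, div_le_one hr]
      exact hmax y (Multiset.mem_toFinset.2 hy)) (Lb := 16 * (2 + landC * lg q * x)) (by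
      rw [Multiset.map_map]
      simp only [Function.comp_def, hn]
      simp only [div_eq_mul_inv, Multiset.sum_map_mul_right]
      rw [mul_inv_le_iff₀ hr]
      have := mul_le_mul_of_nonneg_left ha4 (show 0 ≤ 16 * (2 + landC * lg q * x) by positivity)
      linarith) (e := e) (fun j => by rw [he]; positivity) (E := 14336 * rimC * (x * lg q)) hE
  refine ⟨j, hj1, hj2.trans ?_, ?_⟩
  · have h1 : 0 ≤ x * lg q := by positivity
    nlinarith
  have hpow : 0 < ‖a‖ ^ j := by positivity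
  have hscale : ((Z.map fun z => z / (‖a‖ : ℂ)).map fun z => z ^ j).sum.re =
      (Z.map fun z => z ^ j).sum.re / ‖a‖ ^ j := by
    rw [Multiset.map_map]
    simp only [Function.comp_def, div_pow, ← ofReal_pow]
    simp only [div_eq_mul_inv, Multiset.sum_map_mul_right, ← ofReal_inv, re_mul_ofReal]
  rw [hscale, le_div_iff₀ hpow] at hj
  have hZsum : (Z.map fun z => z ^ j).sum.re = seenSum j x 0 (nearList (1 : DirichletCharacter ℂ 1)) +
      seenSum j x 0 ((nearList χ₁).erase (β : ℂ)) + seenSum j x ρ.im T₂ + seenSum j x ρ.im T₃ := by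
    simp only [hZ, seenSum, Multiset.map_add, Multiset.sum_add, add_re, Multiset.map_map, Function.comp_def]
  have hup := seen_upper h₁ h₁2 hβ hside hj1 hx (by linarith) hi
  have hA : (1 / 4 : ℝ) ^ j ≤ ‖a‖ ^ j := pow_le_pow_left₀ (by norm_num) ha4 j
  have herr : 4 * (errTerm q (2 * j - 1) * x ^ (2 * j)) ≤ e j * ‖a‖ ^ j := by
    refine le_trans (le_of_eq ?_) (mul_le_mul_of_nonneg_left hA (by rw [he]; positivity))
    rw [he, errTerm, show 2 * j - 1 + 1 = 2 * j by omega, Nat.cast_sub (by omega)]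
    push_cast
    rw [pow_mul, pow_mul, mul_pow (4096 : ℝ), show (32 : ℝ) ^ 2 = 1024 by norm_num]
    rw [show (4096 : ℝ) ^ j = (1024 : ℝ) ^ j * 4 ^ j by rw [← mul_pow]; norm_num]
    have h4 : (4 : ℝ) ^ j * (1 / 4) ^ j = 1 := by rw [← mul_pow]; norm_num
    linear_combination -(112 * (rimC * lg q) * j * 1024 ^ j * (x ^ 2) ^ j) * h4
  rw [hZsum] at hj
  linarith

/-- **Repulsion.** -/
theorem exists_repulsion : ∃ A : ℝ, 1 ≤ A ∧ ∀ (q : ℕ) [NeZero q] (χ₁ χ : DirichletCharacter ℂ q),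
    χ₁ ≠ 1 → χ₁ ^ 2 = 1 → ∀ β : ℝ, (β : ℂ) ∈ nearList χ₁ → ∀ ρ ∈ nearList χ,
    (χ ≠ χ₁ ∨ ρ ≠ (β : ℂ)) → |ρ.im| ≤ 1 / 8 → 1 - ρ.re ≤ 1 / 128 →
      (1 - ρ.re) * Real.exp (-(A * (1 + (1 - ρ.re) * lg q))) ≤ 1 - β := by
  obtain ⟨B, hB⟩ : ∃ B : ℝ, B = 1100 + 512 * landC + 229376 * rimC := ⟨_, rfl⟩
  have hB1 : 1 ≤ B := by rw [hB]; linarith [landC_pos, one_le_rimC]
  refine ⟨3 * B + 4, by linarith, fun q _ χ₁ χ h₁ h₁2 β hβ ρ hρ hne hi hx => ?_⟩
  obtain ⟨j, hj1, hj2, hj⟩ := repulsion_aux h₁ h₁2 hβ hρ hne hi rfl hx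
  rw [← hB] at hj2
  obtain ⟨x, hxdef⟩ : ∃ x, x = 1 - ρ.re := ⟨_, rfl⟩
  rw [← hxdef] at hj2 hj ⊢
  have hx0 : 0 < x := by linarith [re_lt_one_of_mem hρ]
  have hxl : 0 ≤ x * lg q := mul_nonneg hx0.le (lg_pos q).le
  have hδ : 0 ≤ 1 - β := by simpa using (re_lt_one_of_mem hβ).le
  have h1 : x ≤ (32 * j * 4 ^ j) * (1 - β) := by
    have h0 := mul_le_mul_of_nonneg_left hj (show 0 ≤ x * 8 * 4 ^ j by positivity)
    have e1 : x * 8 * (4 : ℝ) ^ j * ((1 / 4) ^ j / 8) = x := by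
      rw [div_pow, one_pow]; field_simp
    have e2 : x * 8 * (4 : ℝ) ^ j * (4 * j * ((1 - β) / x)) = 32 * j * 4 ^ j * (1 - β) := by
      field_simp; ring
    linarith
  have h2 : 32 * (j : ℝ) * 4 ^ j ≤ Real.exp ((3 * B + 4) * (1 + x * lg q)) := by
    have e1 : (j : ℝ) ≤ Real.exp j := by linarith [Real.add_one_le_exp (j : ℝ)]
    have e2 : (4 : ℝ) ^ j ≤ Real.exp (2 * j) := by
      rw [show (2 : ℝ) * j = (j : ℝ) * 2 by ring, Real.exp_nat_mul]
      refine pow_le_pow_left₀ (by norm_num) ?_ j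
      rw [show (2 : ℝ) = 1 + 1 by norm_num, Real.exp_add]
      nlinarith [Real.exp_one_gt_d9]
    have e3 : (32 : ℝ) ≤ Real.exp 4 := by
      rw [show (4 : ℝ) = ((4 : ℕ) : ℝ) * 1 by norm_num, Real.exp_nat_mul]
      exact le_trans (by norm_num) (pow_le_pow_left₀ (by norm_num : (0 : ℝ) ≤ 2.7)
        (by linarith [Real.exp_one_gt_d9]) 4)
    refine (mul_le_mul (mul_le_mul e3 e1 (Nat.cast_nonneg j) (Real.exp_pos _).le) e2 (by positivity)
      (by positivity)).trans ?_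
    rw [← Real.exp_add, ← Real.exp_add]
    exact Real.exp_le_exp.2 (by nlinarith)
  rw [Real.exp_neg, ← div_eq_mul_inv, div_le_iff₀ (Real.exp_pos _)]
  exact h1.trans ((mul_le_mul_of_nonneg_right h2 hδ).trans_eq (mul_comm _ _))

end FA.LinnikPrime

end
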