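import Fermat.Agent.LinnikPrime.TuranShift
import Fermat.Agent.LinnikPrime.MeanValue

/-!
# The density of zeros near `1`, free of logarithms

For `r lg q = l ≥ 1`, at most `exp (C l)` zeros of all `L(s, χ)`, `χ ≠ 1`, to one modulus have
`1 - re ≤ r` and `|im| ≤ 1 / 16`. Each makes, for `t` within `r` of its height and some `k` of order
`l`, `r ^ (k + 1) |∑ χ(n) Λ(n) (log n) ^ k / k! n ^ (- 1 - r - it)| ≥ exp (- O (l))` with
`q ^ 4 ≤ n ≤ q ^ O(1)` (Turán), and the mean value of its square is `O (r)`.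
-/

set_option autoImplicit false
set_option linter.unusedSectionVars false

noncomputable section

open Complex Finset MeasureTheory
open scoped Nat Real Classical ArithmeticFunction.vonMangoldt

namespace FA.LinnikPrime

variable {q : ℕ} [NeZero q]

/-- The zeros counted. -/
def zset (χ : DirichletCharacter ℂ q) (r : ℝ) : Multiset ℂ :=
  (nearList χ).filter fun ρ => 1 - r ≤ ρ.re ∧ |ρ.im| ≤ 1 / 16

/-- The number of zeros within `50 r`, per unit of `r lg q`. -/
def nearN : ℝ := 2500 * (2 + landC)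

/-- The exponents used are between `densB l` and `2 densB l`. -/
def densB : ℝ :=
  8 * nearN + landC + 18 + 4 * Real.exp 9 + 16 * (momC + 1) + 14336 * rimC

/-- `r` is at most this. -/
def densEps : ℝ := Real.exp (-8) / 128

theorem nearN_ge : 5000 ≤ nearN := by rw [nearN]; linarith [landC_pos]

theorem densB_facts : 1 ≤ densB ∧ 8 * nearN + landC + 18 ≤ densB ∧ 4 * Real.exp 9 ≤ densB ∧
    16 * (momC + 1) ≤ densB ∧ 14336 * rimC ≤ densB := by
  have h1 := nearN_ge
  have h2 := landC_pos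
  have h3 := one_le_momC
  have h4 := one_le_rimC
  have h5 := Real.exp_pos 9
  rw [densB]
  refine ⟨?_, ?_, ?_, ?_, ?_⟩ <;> linarith

theorem densEps_pos : 0 < densEps := by rw [densEps]; positivity

theorem densEps_le : densEps ≤ 1 / 128 :=
  div_le_div_of_nonneg_right (Real.exp_le_one_iff.2 (by norm_num)) (by norm_num)

theorem two_add_land_le {l : ℝ} (hl : 1 ≤ l) : 2 + landC * l ≤ (2 + landC) * l := by
  rw [add_mul]; linarith

/-- A zero close in height counts `1 / 5` in Landau's sum. -/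
theorem norm_line_sub_sq_le {χ : DirichletCharacter ℂ q} {r : ℝ} (hr : 0 < r) {ρ : ℂ}
    (hρ : ρ ∈ zset χ r) {t : ℝ} (ht : |t - ρ.im| ≤ r) : ‖line r t - ρ‖ ^ 2 ≤ 5 * r ^ 2 := by
  obtain ⟨hm, hre, -⟩ := Multiset.mem_filter.1 hρ
  have h1 := re_lt_one_of_mem hm
  have h2 := sq_le_of_abs_le ht
  rw [← normSq_eq_norm_sq, normSq_apply, sub_re, sub_im, line_re, line_im]
  nlinarith

theorem abs_le_of_close {χ : DirichletCharacter ℂ q} {r : ℝ} {ρ : ℂ} (hρ : ρ ∈ zset χ r) {t : ℝ}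
    (ht : |t - ρ.im| ≤ r) (hr : r ≤ 1 / 16) : |t| ≤ 1 / 8 := by
  have h := (Multiset.mem_filter.1 hρ).2.2
  calc |t| = |(t - ρ.im) + ρ.im| := by ring_nf
    _ ≤ 1 / 8 := (abs_add_le _ _).trans (by linarith)

/-- **Few zeros of one function at one height.** -/
theorem card_close_le (χ : DirichletCharacter ℂ q) {r : ℝ} (hr : 0 < r) (hr' : r ≤ densEps)
    (hl : 1 ≤ r * lg q) (t : ℝ) :
    (Multiset.card ((zset χ r).filter fun ρ => |t - ρ.im| ≤ r) : ℝ) ≤ 5 * (2 + landC) * (r * lg q) := by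
  have h0 : 0 ≤ 5 * (2 + landC) * (r * lg q) :=
    mul_nonneg (by linarith [landC_pos]) (by linarith)
  rcases Multiset.empty_or_exists_mem ((zset χ r).filter fun ρ => |t - ρ.im| ≤ r) with he | ⟨ρ, hρ⟩
  · rw [he]; simpa using h0
  obtain ⟨hρz, hρt⟩ := Multiset.mem_filter.1 hρ
  have ht := abs_le_of_close hρz hρt (by linarith [densEps_le])
  have hL := sum_sq_le χ hr (by linarith [densEps_le]) ht
  have h1 : ((zset χ r).filter fun ρ => |t - ρ.im| ≤ r) ≤ nearList χ :=
    (Multiset.filter_le _ _).trans (Multiset.filter_le _ _)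
  obtain ⟨U, hU⟩ := Multiset.le_iff_exists_add.1 h1
  obtain ⟨V, hV⟩ : ∃ V, V = (zset χ r).filter fun ρ => |t - ρ.im| ≤ r := ⟨_, rfl⟩
  rw [← hV] at hU ⊢
  have h2 : (Multiset.card V : ℝ) * (1 / 5) ≤ (V.map fun w => (r / ‖line r t - w‖) ^ 2).sum := by
    have := Multiset.card_nsmul_le_sum (s := V.map fun w => (r / ‖line r t - w‖) ^ 2) (a := (1 / 5 : ℝ))
      fun x hx => by
        obtain ⟨w, hw, rfl⟩ := Multiset.mem_map.1 hx
        rw [hV] at hw
        obtain ⟨hwz, hwt⟩ := Multiset.mem_filter.1 hw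
        have h3 := norm_line_sub_sq_le hr hwz hwt
        have h4 : 0 < ‖line r t - w‖ := hr.trans_le (le_norm_line_sub (Multiset.mem_filter.1 hwz).1 r t)
        rw [div_pow, le_div_iff₀ (by positivity)]
        linarith
    rwa [Multiset.card_map, nsmul_eq_mul] at this
  have h3 : (V.map fun w => (r / ‖line r t - w‖) ^ 2).sum ≤ 2 + landC * lg q * r := by
    refine le_trans ?_ hL
    rw [hU, Multiset.map_add, Multiset.sum_add]
    refine le_add_of_nonneg_right (Multiset.sum_nonneg fun x hx => ?_)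
    obtain ⟨w, -, rfl⟩ := Multiset.mem_map.1 hx
    positivity
  have h4 := two_add_land_le hl
  linarith

theorem pow_ineq {n m j : ℕ} {y : ℝ} (hy : 0 < y) (hm : 7 * (n : ℝ) + y + 14 ≤ 3 * ((m : ℝ) + 1))
    (hj : m + 1 ≤ j) : 2 * (2 ^ (m + 1) * 88 ^ n) * (2500 * y) ≤ (50 / 3 : ℝ) ^ j := by
  obtain ⟨Y, hY⟩ : ∃ Y : ℕ, Y = ⌊y⌋₊ + 1 := ⟨_, rfl⟩
  have hyY : y ≤ 2 ^ Y := by
    refine (hY ▸ (Nat.lt_floor_add_one y).le.trans (le_of_eq (by push_cast; rfl)) : y ≤ (Y : ℝ)).trans ?_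
    exact_mod_cast Nat.lt_two_pow_self.le
  have hYle : (Y : ℝ) ≤ y + 1 := by
    rw [hY]; push_cast; linarith [Nat.floor_le hy.le]
  have hN : 1 + 12 + Y + 7 * n ≤ 3 * (m + 1) := by
    have : ((1 + 12 + Y + 7 * n : ℕ) : ℝ) ≤ ((3 * (m + 1) : ℕ) : ℝ) := by push_cast; linarith
    exact_mod_cast this
  calc 2 * (2 ^ (m + 1) * 88 ^ n) * (2500 * y)
      ≤ 2 * (2 ^ (m + 1) * ((2 : ℝ) ^ 7) ^ n) * (2 ^ 12 * 2 ^ Y) := by
        gcongr <;> norm_num
    _ = (2 : ℝ) ^ ((m + 1) + (1 + 12 + Y + 7 * n)) := by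
        rw [← pow_mul]; simp only [pow_add, pow_one]; ring
    _ ≤ (2 : ℝ) ^ (4 * (m + 1)) := pow_le_pow_right₀ one_le_two (by omega)
    _ ≤ (2 : ℝ) ^ (4 * j) := pow_le_pow_right₀ one_le_two (by omega)
    _ = (16 : ℝ) ^ j := by rw [pow_mul]; norm_num
    _ ≤ _ := pow_le_pow_left₀ (by norm_num) (by norm_num) j

/-- **Turán at a zero.** -/
theorem exists_zsum_ge (χ : DirichletCharacter ℂ q) {r : ℝ} (hr : 0 < r) (hr' : r ≤ densEps)
    (hl : 1 ≤ r * lg q) {ρ : ℂ} (hρ : ρ ∈ zset χ r) {t : ℝ} (ht : |t - ρ.im| ≤ r) :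
    ∃ k : ℕ, densB * (r * lg q) ≤ k ∧ (k : ℝ) ≤ 2 * densB * (r * lg q) ∧
      Real.exp (-(4 * (k : ℝ))) ≤ r ^ (k + 1) * ‖zsum χ k r t‖ := by
  obtain ⟨hB1, hBN, -, -, -⟩ := densB_facts
  have hN := nearN_ge
  have hland := landC_pos
  have htb := abs_le_of_close hρ ht (by linarith [densEps_le])
  obtain ⟨W, hW⟩ : ∃ W, W = (nearList χ).filter fun w => ‖line r t - w‖ ≤ 50 * r := ⟨_, rfl⟩
  obtain ⟨O, hO⟩ : ∃ O, O = (nearList χ).filter fun w => ¬ ‖line r t - w‖ ≤ 50 * r := ⟨_, rfl⟩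
  have hWO : W + O = nearList χ := by rw [hW, hO]; exact Multiset.filter_add_not _ _
  have hpos : ∀ w ∈ nearList χ, 0 < ‖line r t - w‖ := fun w hw => hr.trans_le (le_norm_line_sub hw r t)
  obtain ⟨Z, hZ⟩ : ∃ Z : Multiset ℂ, Z = W.map fun w => (r : ℂ) / (line r t - w) := ⟨_, rfl⟩
  have hnorm : ∀ w : ℂ, ‖(r : ℂ) / (line r t - w)‖ = r / ‖line r t - w‖ := fun w => by
    rw [norm_div, norm_real, Real.norm_of_nonneg hr.le]
  have hρd : ‖line r t - ρ‖ ≤ 3 * r := by
    have := norm_line_sub_sq_le hr hρ ht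
    nlinarith [norm_nonneg (line r t - ρ)]
  have hρm := (Multiset.mem_filter.1 hρ).1
  have hρW : ρ ∈ W := hW ▸ Multiset.mem_filter.2 ⟨hρm, by linarith⟩
  have hz₀ : (r : ℂ) / (line r t - ρ) ∈ Z := hZ ▸ Multiset.mem_map_of_mem _ hρW
  obtain ⟨a, ha, hmax⟩ := Z.toFinset.exists_max_image (fun z => ‖z‖) ⟨_, Multiset.mem_toFinset.2 hz₀⟩
  rw [Multiset.mem_toFinset] at ha
  have ha3 : 1 / 3 ≤ ‖a‖ := by
    refine le_trans ?_ (hmax _ (Multiset.mem_toFinset.2 hz₀))
    rw [hnorm, le_div_iff₀ (hpos ρ hρm)]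
    linarith
  obtain ⟨m, hm⟩ : ∃ m : ℕ, m = ⌈densB * (r * lg q)⌉₊ := ⟨_, rfl⟩
  obtain ⟨j, hj1, hj2, hj⟩ := exists_norm_powSum_ge_shift Z ha (norm_pos_iff.1 (by linarith))
    (fun z hz => hmax z (Multiset.mem_toFinset.2 hz)) m
  obtain ⟨l, hldef⟩ : ∃ l, l = r * lg q := ⟨_, rfl⟩
  rw [← hldef] at hl hm ⊢
  obtain ⟨y, hy⟩ : ∃ y, y = (2 + landC) * l := ⟨_, rfl⟩
  have hy0 : 0 < y := hy ▸ mul_pos (by linarith) (by linarith)
  have hsq : ((nearList χ).map fun w => (r / ‖line r t - w‖) ^ 2).sum ≤ y := by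
    refine (sum_sq_le χ hr (by linarith [densEps_le]) htb).trans ?_
    rw [hy]
    refine le_trans (le_of_eq ?_) (two_add_land_le hl)
    rw [hldef]; ring
  rw [← hWO, Multiset.map_add, Multiset.sum_add] at hsq
  have hnn : ∀ T : Multiset ℂ, 0 ≤ (T.map fun w => (r / ‖line r t - w‖) ^ 2).sum := fun T =>
    Multiset.sum_nonneg fun x hx => by
      obtain ⟨w, -, rfl⟩ := Multiset.mem_map.1 hx
      positivity
  have hcard : (Multiset.card Z : ℝ) ≤ nearN * l := by
    have h1 : (Multiset.card W : ℝ) * (1 / 2500) ≤ (W.map fun w => (r / ‖line r t - w‖) ^ 2).sum := by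
      have := Multiset.card_nsmul_le_sum (s := W.map fun w => (r / ‖line r t - w‖) ^ 2)
        (a := (1 / 2500 : ℝ)) fun x hx => by
          obtain ⟨w, hw, rfl⟩ := Multiset.mem_map.1 hx
          rw [hW] at hw
          obtain ⟨hwn, hwd⟩ := Multiset.mem_filter.1 hw
          have h4 := hpos w hwn
          rw [div_pow, le_div_iff₀ (by positivity)]
          nlinarith
      rwa [Multiset.card_map, nsmul_eq_mul] at this
    rw [hZ, Multiset.card_map, nearN, mul_assoc, ← hy]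
    linarith [hnn O]
  have hm1 : densB * l ≤ m := hm ▸ Nat.le_ceil _
  have hm2 : (m : ℝ) ≤ densB * l + 1 := by
    have h0 : 0 ≤ densB * l := mul_nonneg (by linarith) (by linarith)
    exact hm ▸ (Nat.ceil_lt_add_one h0).le
  have hBl : 8 * (nearN * l) + landC * l + 18 * l ≤ densB * l := by
    have := mul_le_mul_of_nonneg_right hBN (show 0 ≤ l by linarith)
    linarith
  have hy2 : y = 2 * l + landC * l := by rw [hy]; ring
  have hj1' : (m : ℝ) + 1 ≤ j := by exact_mod_cast hj1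
  have hj2' : (j : ℝ) ≤ m + nearN * l := by
    have : (j : ℝ) ≤ m + Multiset.card Z := by exact_mod_cast hj2
    linarith
  have hNl : 0 ≤ nearN * l := by positivity
  have hLl : 0 ≤ landC * l := by positivity
  have hineq := pow_ineq (n := Multiset.card Z) hy0 (m := m) (j := j) (by linarith) hj1
  -- the zeros far away
  have hfar : ‖(O.map fun w => ((r : ℂ) / (line r t - w)) ^ j).sum‖ ≤ (1 / 50) ^ (j - 2) * y := by
    refine (norm_multiset_sum_le _).trans ?_
    rw [Multiset.map_map]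
    refine (Multiset.sum_map_le_sum_map _
      (fun w => (1 / 50 : ℝ) ^ (j - 2) * (r / ‖line r t - w‖) ^ 2) fun w hw => ?_).trans ?_
    · rw [hO] at hw
      obtain ⟨hwn, hwd⟩ := Multiset.mem_filter.1 hw
      rw [Function.comp_apply, norm_pow, hnorm]
      have hj2n : 2 ≤ j := by
        have : (1 : ℝ) ≤ m := by nlinarith
        have : 1 ≤ m := by exact_mod_cast this
        omega
      rw [← Nat.sub_add_cancel hj2n, pow_add, Nat.add_sub_cancel]
      refine mul_le_mul_of_nonneg_right (pow_le_pow_left₀ (by positivity) ?_ _) (sq_nonneg _)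
      rw [div_le_iff₀ (hpos w hwn)]
      linarith [not_le.1 hwd]
    · rw [Multiset.sum_map_mul_left]
      exact mul_le_mul_of_nonneg_left (by linarith [hnn W]) (by positivity)
  have hlow : (1 / 3) ^ j / (2 ^ (m + 1) * 88 ^ Multiset.card Z) ≤ ‖(Z.map fun z => z ^ j).sum‖ :=
    (div_le_div_of_nonneg_right (pow_le_pow_left₀ (by norm_num) ha3 j) (by positivity)).trans hj
  have hhalf : (1 / 50 : ℝ) ^ (j - 2) * y ≤ (1 / 3) ^ j / (2 ^ (m + 1) * 88 ^ Multiset.card Z) / 2 := by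
    have hj2n : 2 ≤ j := by
      have : (1 : ℝ) ≤ m := by nlinarith
      have : 1 ≤ m := by exact_mod_cast this
      omega
    rw [div_div, le_div_iff₀ (by positivity)]
    refine le_of_mul_le_mul_left ?_ (show (0 : ℝ) < 50 ^ j by positivity)
    have e1 : (50 : ℝ) ^ j * (1 / 3) ^ j = (50 / 3) ^ j := by rw [← mul_pow]; norm_num
    have e2 : (50 : ℝ) ^ j * (1 / 50) ^ (j - 2) = 2500 := by
      conv_lhs => rw [← Nat.add_sub_cancel' hj2n, Nat.add_sub_cancel_left, pow_add, mul_assoc, ← mul_pow]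
      norm_num
    rw [mul_assoc ((1 / 50 : ℝ) ^ (j - 2)), ← mul_assoc ((50 : ℝ) ^ j), e2, e1]
    linarith
  obtain ⟨k, hk⟩ : ∃ k, j = k + 1 := ⟨j - 1, by omega⟩
  have hkj : (j : ℝ) = k + 1 := by rw [hk]; push_cast; rfl
  refine ⟨k, by linarith, by linarith, ?_⟩
  have hsplit : (r ^ (k + 1) : ℝ) * ‖zsum χ k r t‖ =
      ‖(Z.map fun z => z ^ j).sum + (O.map fun w => ((r : ℂ) / (line r t - w)) ^ j).sum‖ := by
    rw [hZ, Multiset.map_map, ← Multiset.sum_add]
    simp only [Function.comp_def]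
    rw [← Multiset.map_add, hWO, ← Real.norm_of_nonneg (pow_nonneg hr.le (k + 1)), ← norm_real,
      ← norm_mul, zsum, ← Multiset.sum_map_mul_left, ofReal_pow, hk]
    refine congrArg norm (congrArg Multiset.sum (Multiset.map_congr rfl fun w _ => ?_))
    rw [div_pow, div_eq_mul_inv]
  have htri := norm_sub_le ((Z.map fun z => z ^ j).sum +
    (O.map fun w => ((r : ℂ) / (line r t - w)) ^ j).sum) (O.map fun w => ((r : ℂ) / (line r t - w)) ^ j).sum
  rw [add_sub_cancel_right] at htri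
  have hexp : Real.exp (-(4 * (k : ℝ))) ≤ (1 / 3) ^ j / (2 ^ (m + 1) * 88 ^ Multiset.card Z) / 2 := by
    rw [div_div, one_div, inv_pow, div_eq_mul_inv, ← mul_inv, Real.exp_neg]
    refine inv_anti₀ (by positivity) ?_
    have h2e : (2 : ℝ) ≤ Real.exp 1 := by linarith [Real.add_one_le_exp (1 : ℝ)]
    have h3e : (3 : ℝ) ≤ Real.exp 2 := by linarith [Real.add_one_le_exp (2 : ℝ)]
    have h88 : (88 : ℝ) ≤ Real.exp 5 := by
      rw [show (5 : ℝ) = ((5 : ℕ) : ℝ) * 1 by norm_num, Real.exp_nat_mul]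
      exact le_trans (by norm_num) (pow_le_pow_left₀ (by norm_num : (0 : ℝ) ≤ 2.7)
        (by linarith [Real.exp_one_gt_d9]) 5)
    calc (3 : ℝ) ^ j * (2 ^ (m + 1) * 88 ^ Multiset.card Z * 2) ≤
          Real.exp 2 ^ j * (Real.exp 1 ^ (m + 1) * Real.exp 5 ^ Multiset.card Z * Real.exp 1) := by
          gcongr
      _ = Real.exp (2 * j + ((m : ℝ) + 1 + 5 * Multiset.card Z + 1)) := by
          simp only [← Real.exp_nat_mul, ← Real.exp_add]
          push_cast
          ring_nf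
      _ ≤ _ := Real.exp_le_exp.2 (by linarith)
  rw [hsplit]
  linarith

theorem three_le_exp_two : (3 : ℝ) ≤ Real.exp 2 := by linarith [Real.add_one_le_exp (2 : ℝ)]

theorem k_ge_one {l : ℝ} (hl : 1 ≤ l) {k : ℕ} (hk : densB * l ≤ k) : densB ≤ k :=
  (le_mul_of_one_le_right (by linarith [densB_facts.1]) hl).trans hk

/-- The three errors are small. -/
theorem small_exp {X : ℝ} {k : ℕ} (hXk : 4 * X ≤ k) :
    X * Real.exp (-(6 * (k : ℝ))) ≤ Real.exp (-(4 * (k : ℝ))) / 8 := by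
  have h2 : 8 * X ≤ Real.exp (2 * (k : ℝ)) :=
    (show 8 * X ≤ 2 * (k : ℝ) + 1 by linarith).trans (Real.add_one_le_exp _)
  rw [le_div_iff₀ (by norm_num : (0 : ℝ) < 8), show -(4 * (k : ℝ)) = 2 * (k : ℝ) + -(6 * (k : ℝ)) by ring,
    Real.exp_add]
  have := mul_le_mul_of_nonneg_right h2 (Real.exp_pos (-(6 * (k : ℝ)))).le
  linarith

theorem err_mul_le {r : ℝ} (hr : 0 < r) (hr' : r ≤ densEps) (hl : 1 ≤ r * lg q) {k : ℕ}
    (hk : densB * (r * lg q) ≤ k) :
    errTerm q k * r ^ (k + 1) ≤ Real.exp (-(4 * (k : ℝ))) / 8 := by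
  obtain ⟨hB1, -, -, -, hB5⟩ := densB_facts
  have hk1 := k_ge_one hl hk
  have hrim := one_le_rimC
  have hl' : r * lg q ≤ k := (le_mul_of_one_le_left (by linarith) hB1).trans hk
  have h32 : (32 * r) ^ k ≤ Real.exp (-(8 * (k : ℝ))) := by
    rw [show -(8 * (k : ℝ)) = (k : ℝ) * (-8) by ring, Real.exp_nat_mul]
    exact pow_le_pow_left₀ (by positivity)
      (by rw [densEps] at hr'; linarith [Real.exp_pos (-8 : ℝ)]) k
  have hkk : ((k : ℝ) + 1) * (r * lg q) ≤ Real.exp (2 * (k : ℝ)) := by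
    rw [two_mul, Real.exp_add]
    exact mul_le_mul (Real.add_one_le_exp _) (by linarith [Real.add_one_le_exp (k : ℝ)]) (by linarith)
      (Real.exp_pos _).le
  calc errTerm q k * r ^ (k + 1) = 448 * rimC * (((k : ℝ) + 1) * (r * lg q)) * (32 * r) ^ k := by
        rw [errTerm, mul_pow, pow_succ, pow_succ]; ring
    _ ≤ 448 * rimC * Real.exp (2 * (k : ℝ)) * Real.exp (-(8 * (k : ℝ))) :=
        mul_le_mul (mul_le_mul_of_nonneg_left hkk (by positivity)) h32 (by positivity) (by positivity)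
    _ = 448 * rimC * Real.exp (-(6 * (k : ℝ))) := by rw [mul_assoc, ← Real.exp_add]; ring_nf
    _ ≤ _ := small_exp (by linarith)

/-- The `n` used. -/
def midRange (q : ℕ) : Finset ℕ :=
  (range (⌊Real.exp (40 * densB * lg q)⌋₊ + 1)).filter fun n => 4 * lg q ≤ Real.log n

/-- **Outside the middle range the smoothed sum is negligible.** -/
theorem norm_mom_sub_partSum_le (χ : DirichletCharacter ℂ q) {r : ℝ} (hr : 0 < r) (hr' : r ≤ densEps)
    (hl : 1 ≤ r * lg q) {k : ℕ} (hk : densB * (r * lg q) ≤ k) (hk2 : (k : ℝ) ≤ 2 * densB * (r * lg q))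
    (t : ℝ) :
    r ^ (k + 1) * ‖mom χ k r t - partSum (coef k r) (midRange q) χ t‖ ≤
      Real.exp (-(4 * (k : ℝ))) / 4 := by
  obtain ⟨hB1, -, hB3, hB4, -⟩ := densB_facts
  have hk1 := k_ge_one hl hk
  have hr128 : r ≤ 1 / 128 := hr'.trans densEps_le
  have hL := lg_pos q
  obtain ⟨c₁, hc₁⟩ : ∃ c₁ : ℝ, c₁ = (4 * lg q) ^ k / k ! := ⟨_, rfl⟩
  obtain ⟨c₂, hc₂⟩ : ∃ c₂ : ℝ, c₂ = Real.exp (-(40 * densB * lg q * (r / 2))) := ⟨_, rfl⟩
  have hc₁0 : 0 ≤ c₁ := by rw [hc₁]; positivity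
  have hc₂0 : 0 ≤ c₂ := hc₂ ▸ (Real.exp_pos _).le
  obtain ⟨f, hf⟩ : ∃ f : ℕ → ℂ, f = fun n => (coef k r n : ℂ) * chTerm χ t n := ⟨_, rfl⟩
  have hfin : HasSum (fun n => if n ∈ midRange q then f n else 0) (partSum (coef k r) (midRange q) χ t) := by
    have := hasSum_sum_of_ne_finset_zero (L := SummationFilter.unconditional ℕ)
      (f := fun n => if n ∈ midRange q then f n else 0) (s := midRange q) fun n hn => if_neg hn
    rw [Finset.sum_congr rfl fun n hn => if_pos hn] at this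
    simpa only [partSum, hf] using this
  have hsub := (hf ▸ hasSum_mom χ k hr t : HasSum f (mom χ k r t)).sub hfin
  have hz1 := hasSum_zmom 0 hr
  have hz2 := hasSum_zmom k (half_pos hr)
  have hg := (hz1.mul_left c₁).add (hz2.mul_left c₂)
  have hbound : ∀ n, ‖f n - if n ∈ midRange q then f n else 0‖ ≤
      c₁ * coef 0 r n + c₂ * coef k (r / 2) n := fun n => by
    have h1 := mul_nonneg hc₁0 (coef_nonneg 0 r n)
    have h2 := mul_nonneg hc₂0 (coef_nonneg k (r / 2) n)
    split_ifs with hn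
    · rw [sub_self, norm_zero]; linarith
    rw [sub_zero, hf]
    refine (norm_coef_chTerm_le χ k r t n).trans ?_
    rcases lt_or_ge (Real.log n) (4 * lg q) with hs | hb
    · refine le_add_of_le_of_nonneg ?_ h2
      rw [coef, coef, ← mul_assoc]
      refine mul_le_mul_of_nonneg_right ?_ ArithmeticFunction.vonMangoldt_nonneg
      rw [FA.LMO.wgt, FA.LMO.wgt, pow_zero, Nat.factorial_zero, Nat.cast_one, div_one, one_mul, hc₁]
      exact mul_le_mul_of_nonneg_right (div_le_div_of_nonneg_right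
        (pow_le_pow_left₀ (Real.log_natCast_nonneg n) hs.le k) (Nat.cast_nonneg _))
        (Real.rpow_nonneg (Nat.cast_nonneg n) _)
    · refine le_add_of_nonneg_of_le h1 ?_
      rw [coef, coef, ← mul_assoc, hc₂]
      refine mul_le_mul_of_nonneg_right (FA.LMO.wgt_le_tail k hr.le ?_) ArithmeticFunction.vonMangoldt_nonneg
      have hn' : ¬ n < ⌊Real.exp (40 * densB * lg q)⌋₊ + 1 := fun h =>
        hn (Finset.mem_filter.2 ⟨Finset.mem_range.2 h, hb⟩)
      exact (Nat.lt_floor_add_one _).le.trans (by exact_mod_cast not_lt.1 hn')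
  have hsum : ‖mom χ k r t - partSum (coef k r) (midRange q) χ t‖ ≤ c₁ * zmom 0 r + c₂ * zmom k (r / 2) := by
    rw [← hsub.tsum_eq]
    exact tsum_of_norm_bounded hg hbound
  refine (mul_le_mul_of_nonneg_left hsum (by positivity)).trans ?_
  have hm0 := zmom_le 0 hr hr128
  rw [zero_add, pow_one] at hm0
  have hmk := zmom_le k (half_pos hr) (by linarith)
  have hmom0 : 0 ≤ momC := by linarith [one_le_momC]
  have hs1 : r ^ (k + 1) * (c₁ * zmom 0 r) ≤ momC * Real.exp (-(6 * (k : ℝ))) := by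
    have e : r ^ (k + 1) * (c₁ * zmom 0 r) = (4 * (r * lg q)) ^ k / k ! * (zmom 0 r * r) := by
      rw [hc₁, pow_succ, mul_pow, mul_pow, mul_pow]; ring
    rw [e, mul_comm momC]
    refine mul_le_mul ?_ hm0 (mul_nonneg (zmom_nonneg 0 r) hr.le) (Real.exp_pos _).le
    have h4 : 4 * (r * lg q) ≤ Real.exp (-9) * k := by
      rw [Real.exp_neg, inv_mul_eq_div, le_div_iff₀ (Real.exp_pos _)]
      have := mul_le_mul_of_nonneg_right hB3 (show 0 ≤ r * lg q by linarith)
      linarith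
    refine (div_le_div_of_nonneg_right (pow_le_pow_left₀ (by positivity) h4 k) (Nat.cast_nonneg _)).trans ?_
    rw [mul_pow, mul_div_assoc, ← Real.exp_nat_mul]
    refine (mul_le_mul_of_nonneg_left (Real.pow_div_factorial_le_exp (x := (k : ℝ)) (Nat.cast_nonneg k) k)
      (Real.exp_pos _).le).trans ?_
    rw [← Real.exp_add, Real.exp_le_exp]
    linarith
  have hs2 : r ^ (k + 1) * (c₂ * zmom k (r / 2)) ≤ 2 * momC * Real.exp (-(6 * (k : ℝ))) := by
    have e : r ^ (k + 1) * (c₂ * zmom k (r / 2)) = c₂ * 2 ^ (k + 1) * (zmom k (r / 2) * (r / 2) ^ (k + 1)) := by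
      rw [show r ^ (k + 1) = 2 ^ (k + 1) * (r / 2) ^ (k + 1) by rw [← mul_pow]; ring_nf]; ring
    rw [e]
    refine (mul_le_mul_of_nonneg_left hmk (by positivity)).trans ?_
    rw [pow_succ, show c₂ * (2 ^ k * 2) * momC = 2 * momC * (c₂ * 2 ^ k) by ring]
    refine mul_le_mul_of_nonneg_left ?_ (by positivity)
    have h2e : (2 : ℝ) ^ k ≤ Real.exp k := by
      rw [show Real.exp k = Real.exp 1 ^ k by rw [← Real.exp_nat_mul, mul_one]]
      exact pow_le_pow_left₀ zero_le_two (by linarith [Real.add_one_le_exp (1 : ℝ)]) k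
    refine (mul_le_mul_of_nonneg_left h2e hc₂0).trans ?_
    rw [hc₂, ← Real.exp_add, Real.exp_le_exp]
    linarith
  have h4k := small_exp (X := 2 * momC) (k := k) (by linarith)
  have h4k' := small_exp (X := momC) (k := k) (by linarith)
  linarith

/-- The sum of the squares over the exponents used. -/
def turanSq (χ : DirichletCharacter ℂ q) (r : ℝ) (t : ℝ) : ℝ :=
  ∑ k ∈ range (⌊2 * densB * (r * lg q)⌋₊ + 1),
    (r ^ (k + 1)) ^ 2 * (‖partSum (coef k r) (midRange q) χ t‖ ^ 2 * Real.exp (-t ^ 2))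

theorem turanSq_nonneg (χ : DirichletCharacter ℂ q) (r t : ℝ) : 0 ≤ turanSq χ r t :=
  Finset.sum_nonneg fun k _ => by positivity

/-- What a zero makes. -/
theorem turanSq_ge {χ : DirichletCharacter ℂ q} (hχ : χ ≠ 1) {r : ℝ} (hr : 0 < r) (hr' : r ≤ densEps)
    (hl : 1 ≤ r * lg q) {ρ : ℂ} (hρ : ρ ∈ zset χ r) {t : ℝ} (ht : |t - ρ.im| ≤ r) :
    Real.exp (-(16 * densB * (r * lg q))) / 16 * Real.exp (-1) ≤ turanSq χ r t := by
  have htb := abs_le_of_close hρ ht (by linarith [densEps_le])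
  obtain ⟨k, hk1, hk2, hk⟩ := exists_zsum_ge χ hr hr' hl hρ ht
  have herr := err_mul_le (q := q) hr hr' hl hk1
  have hform := mom_formula χ k hr (by linarith [densEps_le]) htb
  rw [pol_of_ne_one hχ, zero_mul, zero_sub, sub_neg_eq_add] at hform
  have hm := norm_mom_sub_partSum_le χ hr hr' hl hk1 hk2 t
  obtain ⟨P, hP⟩ : ∃ P, P = partSum (coef k r) (midRange q) χ t := ⟨_, rfl⟩
  rw [← hP] at hm
  have hz : ‖zsum χ k r t‖ ≤ ‖mom χ k r t + zsum χ k r t‖ + ‖mom χ k r t - P‖ + ‖P‖ := by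
    have h1 := norm_sub_le (mom χ k r t + zsum χ k r t) (mom χ k r t)
    rw [add_sub_cancel_left] at h1
    have h2 := norm_sub_norm_le (mom χ k r t) P
    linarith
  have hrk : 0 ≤ r ^ (k + 1) := by positivity
  have h3 := mul_le_mul_of_nonneg_left hz hrk
  have h4 := mul_le_mul_of_nonneg_left hform hrk
  have h5 : Real.exp (-(4 * (k : ℝ))) / 2 ≤ r ^ (k + 1) * ‖P‖ := by linarith [Real.exp_pos (-(4 * (k : ℝ)))]
  have hkmem : k ∈ range (⌊2 * densB * (r * lg q)⌋₊ + 1) :=
    Finset.mem_range.2 (Nat.lt_succ_of_le (Nat.le_floor hk2))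
  refine le_trans ?_ (Finset.single_le_sum (fun i _ => by positivity) hkmem)
  rw [← hP, ← mul_assoc ((r ^ (k + 1)) ^ 2), ← mul_pow]
  refine mul_le_mul ?_ (Real.exp_le_exp.2 ?_) (Real.exp_pos _).le (by positivity)
  · refine le_trans ?_ (pow_le_pow_left₀ (by positivity) h5 2)
    rw [div_pow, ← Real.exp_nat_mul, div_le_div_iff₀ (by norm_num) (by norm_num)]
    push_cast
    have h8 : Real.exp (-(16 * densB * (r * lg q))) ≤ Real.exp (2 * -(4 * (k : ℝ))) :=
      Real.exp_le_exp.2 (by linarith)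
    have h9 := Real.exp_pos (-(16 * densB * (r * lg q)))
    linarith
  · have := sq_le_of_abs_le htb
    nlinarith

theorem sum_indicator_eq (Z : Multiset ℂ) (r t : ℝ) :
    (Z.map fun ρ : ℂ => Set.indicator (Set.Icc (ρ.im - r) (ρ.im + r)) (fun _ : ℝ => (1 : ℝ)) t).sum =
      (Multiset.card (Z.filter fun ρ => |t - ρ.im| ≤ r) : ℝ) := by
  induction Z using Multiset.induction_on with
  | empty => simp
  | cons ρ Z ih =>
    rw [Multiset.map_cons, Multiset.sum_cons, ih]
    by_cases h : |t - ρ.im| ≤ r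
    · have h' := abs_le.1 h
      rw [Multiset.filter_cons_of_pos (p := fun ρ : ℂ => |t - ρ.im| ≤ r) _ h, Multiset.card_cons,
        Set.indicator_of_mem (Set.mem_Icc.2 ⟨by linarith, by linarith⟩)]
      push_cast
      ring
    · rw [Multiset.filter_cons_of_neg (p := fun ρ : ℂ => |t - ρ.im| ≤ r) _ h,
        Set.indicator_of_notMem (fun h' => h (abs_le.2 ⟨by linarith [h'.1], by linarith [h'.2]⟩)), zero_add]

theorem integral_sum_indicator (Z : Multiset ℂ) {r : ℝ} (hr : 0 ≤ r) :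
    Integrable (fun t : ℝ =>
      (Z.map fun ρ : ℂ => Set.indicator (Set.Icc (ρ.im - r) (ρ.im + r)) (fun _ : ℝ => (1 : ℝ)) t).sum) ∧
    ∫ t : ℝ, (Z.map fun ρ : ℂ => Set.indicator (Set.Icc (ρ.im - r) (ρ.im + r)) (fun _ : ℝ => (1 : ℝ)) t).sum =
      2 * r * Multiset.card Z := by
  induction Z using Multiset.induction_on with
  | empty => simp
  | cons ρ Z ih =>
    have h1 : Integrable (Set.indicator (Set.Icc (ρ.im - r) (ρ.im + r)) fun _ : ℝ => (1 : ℝ)) := by
      rw [integrable_indicator_iff measurableSet_Icc]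
      exact integrableOn_const measure_Icc_lt_top.ne
    simp only [Multiset.map_cons, Multiset.sum_cons, Multiset.card_cons]
    refine ⟨h1.add ih.1, ?_⟩
    rw [integral_add h1 ih.1, ih.2, integral_indicator measurableSet_Icc, setIntegral_const,
      Real.volume_real_Icc_of_le (by linarith), smul_eq_mul, mul_one]
    push_cast
    ring

theorem integrable_turanSq (χ : DirichletCharacter ℂ q) {r : ℝ} : Integrable (turanSq χ r) := by
  refine integrable_finsetSum _ fun k _ => (integrable_normSq_gauss (coef_nonneg k r) ?_ χ).const_mul _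
  intro n hn h
  have := (Finset.mem_filter.1 hn).2
  rw [h, Nat.cast_zero, Real.log_zero] at this
  linarith [four_le_lg q]

/-- **The zeros of one function against the mean value.** -/
theorem card_zset_mul_le {χ : DirichletCharacter ℂ q} (hχ : χ ≠ 1) {r : ℝ} (hr : 0 < r)
    (hr' : r ≤ densEps) (hl : 1 ≤ r * lg q) :
    2 * r * (Multiset.card (zset χ r) : ℝ) * (Real.exp (-(16 * densB * (r * lg q))) / 16 * Real.exp (-1)) ≤
      5 * (2 + landC) * (r * lg q) * ∫ t : ℝ, turanSq χ r t := by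
  obtain ⟨hi, he⟩ := integral_sum_indicator (zset χ r) hr.le
  rw [← he, ← integral_mul_const, ← integral_const_mul]
  refine integral_mono (hi.mul_const _) ((integrable_turanSq χ).const_mul _) fun t => ?_
  simp only [sum_indicator_eq]
  rcases Multiset.empty_or_exists_mem ((zset χ r).filter fun ρ => |t - ρ.im| ≤ r) with h0 | ⟨ρ, hρ⟩
  · rw [h0, Multiset.card_zero, Nat.cast_zero, zero_mul]
    exact mul_nonneg (mul_nonneg (by linarith [landC_pos]) (by linarith)) (turanSq_nonneg χ r t)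
  · obtain ⟨hρz, hρt⟩ := Multiset.mem_filter.1 hρ
    exact mul_le_mul (card_close_le χ hr hr' hl t) (turanSq_ge hχ hr hr' hl hρz hρt) (by positivity)
      (mul_nonneg (by linarith [landC_pos]) (by linarith))

/-- The mean value of `turanSq`. -/
theorem sum_integral_turanSq_le {r : ℝ} (hr : 0 < r) (hr' : r ≤ densEps) (hl : 1 ≤ r * lg q) :
    ∑ χ : DirichletCharacter ℂ q, ∫ t : ℝ, turanSq χ r t ≤
      3 * densB * (r * lg q) * (√π * windowC * momC * r) := by
  have hI : ∀ m ∈ midRange q, 4 * lg q ≤ Real.log m := fun m hm => (Finset.mem_filter.1 hm).2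
  have hI0 : ∀ n ∈ midRange q, n ≠ 0 := fun n hn h => by
    have := hI n hn
    rw [h, Nat.cast_zero, Real.log_zero] at this
    linarith [four_le_lg q]
  simp only [turanSq]
  rw [Finset.sum_congr rfl fun χ _ => integral_finsetSum _ fun k _ =>
    (integrable_normSq_gauss (coef_nonneg k r) hI0 χ).const_mul _, Finset.sum_comm]
  refine (Finset.sum_le_card_nsmul _ _ (√π * windowC * momC * r) fun k _ => ?_).trans ?_
  · simp only [integral_const_mul, ← Finset.mul_sum]
    refine (mul_le_mul_of_nonneg_left (sum_integral_coef_le k hr (hr'.trans densEps_le) hI)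
      (by positivity)).trans (le_of_eq ?_)
    rw [← pow_mul, show (k + 1) * 2 = (2 * k + 1) + 1 by ring, pow_succ r (2 * k + 1)]
    field_simp
  · rw [Finset.card_range, nsmul_eq_mul]
    refine mul_le_mul_of_nonneg_right ?_ (mul_nonneg (mul_nonneg (mul_nonneg (Real.sqrt_nonneg _)
      windowC_nonneg) (by linarith [one_le_momC])) hr.le)
    have hB1 := densB_facts.1
    have h0 : 1 ≤ densB * (r * lg q) := one_le_mul_of_one_le_of_one_le hB1 hl
    push_cast
    linarith [Nat.floor_le (show 0 ≤ 2 * densB * (r * lg q) by nlinarith)]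

/-- **The density theorem, free of logarithms.** -/
theorem exists_density : ∃ C : ℝ, 1 ≤ C ∧ ∀ (q : ℕ) [NeZero q] (r : ℝ), 1 ≤ r * lg q →
    ∑ χ ∈ (Finset.univ : Finset (DirichletCharacter ℂ q)).erase 1, (Multiset.card (zset χ r) : ℝ) ≤
      Real.exp (C * (r * lg q)) := by
  obtain ⟨hB1, -, -, -, -⟩ := densB_facts
  have hland := landC_pos
  have hmom := one_le_momC
  have hrim := one_le_rimC
  have hwin := windowC_nonneg
  obtain ⟨C₀, hC₀⟩ : ∃ C₀ : ℝ,
      C₀ = 5 * (2 + landC) * (3 * densB) * (√π * windowC * momC) * (8 * Real.exp 1) := ⟨_, rfl⟩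
  have hC₀0 : 0 ≤ C₀ := by rw [hC₀]; positivity
  obtain ⟨C₁, hC₁⟩ : ∃ C₁ : ℝ, C₁ = (1 + 2 * rimC) / densEps := ⟨_, rfl⟩
  have hC₁0 : 0 ≤ C₁ := by have := densEps_pos; rw [hC₁]; positivity
  refine ⟨C₀ + 16 * densB + 2 + C₁, by linarith, fun q _ r hl => ?_⟩
  have hL := lg_pos q
  have hr : 0 < r := pos_of_mul_pos_left (by linarith) hL.le
  rcases lt_or_ge densEps r with hbig | hsmall
  · -- trivially
    have hcard : ∀ χ : DirichletCharacter ℂ q, (Multiset.card (zset χ r) : ℝ) ≤ 2 * (rimC * lg q) :=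
      fun χ => le_trans (Nat.cast_le.2 (Multiset.card_le_card (Multiset.filter_le _ _))) (card_nearList_le χ)
    refine (Finset.sum_le_sum_of_subset_of_nonneg (Finset.erase_subset _ _)
      fun χ _ _ => Nat.cast_nonneg _).trans ((Finset.sum_le_sum fun χ _ => hcard χ).trans ?_)
    rw [Finset.sum_const, nsmul_eq_mul, Finset.card_univ, ← Nat.card_eq_fintype_card,
      DirichletCharacter.card_eq_totient_of_hasEnoughRootsOfUnity]
    refine (mul_le_mul ((Nat.cast_le.2 (Nat.totient_le q)).trans (natCast_le_exp_lg q))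
      (le_trans (show 2 * (rimC * lg q) ≤ 2 * rimC * lg q + 1 by linarith) (Real.add_one_le_exp _))
      (by positivity) (Real.exp_pos _).le).trans ?_
    rw [← Real.exp_add, Real.exp_le_exp]
    have h1 : lg q + 2 * rimC * lg q ≤ C₁ * (r * lg q) := by
      rw [hC₁, div_mul_eq_mul_div, le_div_iff₀ densEps_pos]
      have := mul_le_mul_of_nonneg_left hbig.le (show 0 ≤ (1 + 2 * rimC) * lg q by positivity)
      linarith
    nlinarith
  obtain ⟨l, hldef⟩ : ∃ l, l = r * lg q := ⟨_, rfl⟩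
  obtain ⟨S, hS⟩ : ∃ S : ℝ, S =
      ∑ χ ∈ (Finset.univ : Finset (DirichletCharacter ℂ q)).erase 1, (Multiset.card (zset χ r) : ℝ) := ⟨_, rfl⟩
  rw [← hS, ← hldef]
  have h1 : S * (2 * r * (Real.exp (-(16 * densB * l)) / 16 * Real.exp (-1))) ≤
      5 * (2 + landC) * l * (3 * densB * l * (√π * windowC * momC * r)) := by
    rw [hS, Finset.sum_mul]
    have hst : ∀ χ ∈ (Finset.univ : Finset (DirichletCharacter ℂ q)).erase 1,
        (Multiset.card (zset χ r) : ℝ) * (2 * r * (Real.exp (-(16 * densB * l)) / 16 * Real.exp (-1))) ≤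
          5 * (2 + landC) * l * ∫ t : ℝ, turanSq χ r t := fun χ hχ => by
      have := card_zset_mul_le (Finset.ne_of_mem_erase hχ) hr hsmall hl
      rw [← hldef] at this
      linarith
    refine (Finset.sum_le_sum hst).trans ?_
    rw [← Finset.mul_sum]
    refine mul_le_mul_of_nonneg_left ?_ (mul_nonneg (by linarith) (hldef ▸ by linarith))
    refine le_trans ?_ (hldef ▸ sum_integral_turanSq_le hr hsmall hl)
    exact Finset.sum_le_sum_of_subset_of_nonneg (Finset.erase_subset _ _)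
      fun χ _ _ => integral_nonneg fun t => turanSq_nonneg χ r t
  have hl' : 1 ≤ l := hldef ▸ hl
  have he1 : Real.exp (-1) * Real.exp 1 = 1 := by rw [← Real.exp_add]; norm_num
  have he16 : Real.exp (-(16 * densB * l)) * Real.exp (16 * densB * l) = 1 := by
    rw [← Real.exp_add]; norm_num
  have h2 : S ≤ C₀ * (l * l) * Real.exp (16 * densB * l) := by
    have h3 := mul_le_mul_of_nonneg_right h1
      (show 0 ≤ 8 * Real.exp 1 * Real.exp (16 * densB * l) / r by positivity)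
    have e1 : S * (2 * r * (Real.exp (-(16 * densB * l)) / 16 * Real.exp (-1))) *
        (8 * Real.exp 1 * Real.exp (16 * densB * l) / r) =
        S * ((Real.exp (-(16 * densB * l)) * Real.exp (16 * densB * l)) * (Real.exp (-1) * Real.exp 1)) := by
      field_simp
      ring
    have e2 : 5 * (2 + landC) * l * (3 * densB * l * (√π * windowC * momC * r)) *
        (8 * Real.exp 1 * Real.exp (16 * densB * l) / r) = C₀ * (l * l) * Real.exp (16 * densB * l) := by
      rw [hC₀]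
      field_simp
    rw [e1, e2, he16, he1, mul_one, mul_one] at h3
    exact h3
  refine h2.trans ?_
  have hl2 : l * l ≤ Real.exp (2 * l) := by
    rw [two_mul, Real.exp_add]
    have := Real.add_one_le_exp l
    exact mul_le_mul (by linarith) (by linarith) (by linarith) (Real.exp_pos _).le
  have hC : C₀ ≤ Real.exp (C₀ * l) :=
    le_trans (by linarith [Real.add_one_le_exp C₀]) (Real.exp_le_exp.2 (le_mul_of_one_le_right hC₀0 hl'))
  refine (mul_le_mul_of_nonneg_right (mul_le_mul hC hl2 (mul_nonneg (by linarith) (by linarith))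
    (Real.exp_pos _).le) (Real.exp_pos _).le).trans ?_
  rw [← Real.exp_add, ← Real.exp_add, Real.exp_le_exp]
  have := mul_nonneg hC₁0 (show 0 ≤ l by linarith)
  linarith

end FA.LinnikPrime

end
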