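import Fermat.Agent.LinnikPrime.Near
import Mathlib.Analysis.Complex.Conformal

/-!
# The region free of zeros, for all characters of one modulus

There is an absolute `zoneC > 0` such that at most one pair `(χ, ρ)`, with multiplicity, has
`|im ρ| ≤ 1 / 16` and `1 - re ρ < zoneC / lg q`. There `χ` is real and not principal and `ρ` is real.
-/

set_option autoImplicit false
set_option linter.unusedSectionVars false

noncomputable section

open Complex Metric Filter Topology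
open DirichletCharacter (LFunction)
open scoped Nat Real ComplexConjugate ArithmeticFunction.vonMangoldt

namespace FA.LinnikPrime

variable {q : ℕ} [NeZero q]

/-- **Positivity.** A nonnegative combination pointwise gives a nonnegative combination of the sums. -/
theorem re_comb_nonneg (k : ℕ) {b : ℝ} (hb : 0 < b) (ψ₁ ψ₂ ψ₃ : DirichletCharacter ℂ q)
    (t₁ t₂ t₃ c₀ c₁ c₂ c₃ : ℝ)
    (hpos : ∀ n : ℕ, n ≠ 0 → 0 ≤ c₀ + c₁ * (chTerm ψ₁ t₁ n).re + c₂ * (chTerm ψ₂ t₂ n).re +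
      c₃ * (chTerm ψ₃ t₃ n).re) :
    0 ≤ c₀ * zmom k b + c₁ * (mom ψ₁ k b t₁).re + c₂ * (mom ψ₂ k b t₂).re +
      c₃ * (mom ψ₃ k b t₃).re := by
  have h : ∀ (ψ : DirichletCharacter ℂ q) (t c : ℝ),
      HasSum (fun n => c * (coef k b n * (chTerm ψ t n).re)) (c * (mom ψ k b t).re) := fun ψ t c => by
    have := (Complex.hasSum_re (hasSum_mom ψ k hb t)).mul_left c
    simpa only [re_ofReal_mul] using this
  refine ((((hasSum_zmom k hb).mul_left c₀).add (h ψ₁ t₁ c₁)).add (h ψ₂ t₂ c₂)).add (h ψ₃ t₃ c₃)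
    |>.nonneg fun n => ?_
  rcases eq_or_ne n 0 with rfl | hn
  · simp [coef]
  · nlinarith [mul_nonneg (coef_nonneg k b n) (hpos n hn)]

theorem chTerm_im_eq_zero {χ : DirichletCharacter ℂ q} (h2 : χ ^ 2 = 1) (n : ℕ) :
    (chTerm χ 0 n).im = 0 := by
  simp [chTerm, FA.Siegel.apply_im_of_sq_eq_one h2]

theorem abs_re_chTerm_le (χ : DirichletCharacter ℂ q) (t : ℝ) (n : ℕ) :
    |(chTerm χ t n).re| ≤ 1 :=
  (abs_re_le_norm _).trans (norm_chTerm_le χ t n)

/-- `L(conj s, χ) = conj L(s, χ)` for real `χ`. -/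
theorem LFunction_conj {χ : DirichletCharacter ℂ q} (hχ : χ ≠ 1) (h2 : χ ^ 2 = 1) {s : ℂ}
    (hs : 0 < s.re) : LFunction χ (conj s) = conj (LFunction χ s) := by
  have hre : 0 < (conj s).re := by rwa [conj_re]
  rw [FA.Siegel.lfunction_eq hχ hs, FA.Siegel.lfunction_eq hχ hre, map_mul, FA.Siegel.tail,
    FA.Siegel.tail, ← integral_conj]
  congr 1
  refine MeasureTheory.setIntegral_congr_fun measurableSet_Ioi fun t ht => ?_
  have hS : conj (FA.Siegel.charSum χ t) = FA.Siegel.charSum χ t := by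
    rw [conj_eq_iff_im, FA.Siegel.charSum, Complex.im_sum]
    exact Finset.sum_eq_zero fun k _ => FA.Siegel.apply_im_of_sq_eq_one h2 _
  have harg : (t : ℂ).arg ≠ π := by
    rw [arg_ofReal_of_nonneg (zero_le_one.trans (Set.mem_Ioi.1 ht).le)]
    exact Real.pi_ne_zero.symm
  show FA.Siegel.charSum χ t * (t : ℂ) ^ (-(conj s + 1)) =
    conj (FA.Siegel.charSum χ t * (t : ℂ) ^ (-(s + 1)))
  rw [map_mul, hS, show -(conj s + 1) = conj (-(s + 1)) by simp, cpow_conj _ _ harg, conj_ofReal]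

/-- `ζ` has no zero near the segment `[1 - i / 4, 1 + i / 4]`. -/
theorem exists_zeta_zone : ∃ d : ℝ, 0 < d ∧ d ≤ 1 / 2 ∧ ∀ (q : ℕ) [NeZero q] (ρ : ℂ),
    clear (1 : DirichletCharacter ℂ q) ρ = 0 → |ρ.im| ≤ 1 / 4 → d ≤ 1 - ρ.re := by
  obtain ⟨K, hK⟩ : ∃ K : Set ℂ, K = (fun y : ℝ => (1 : ℂ) + y * I) '' Set.Icc (-(1 / 4)) (1 / 4) :=
    ⟨_, rfl⟩
  have hKc : IsCompact K := hK ▸ isCompact_Icc.image (by fun_prop)
  obtain ⟨U, hU⟩ : ∃ U : Set ℂ, U = {z | riemannZeta₁ z ≠ 0} := ⟨_, rfl⟩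
  have hUo : IsOpen U := hU ▸ isOpen_ne_fun differentiable_riemannZeta₁.continuous continuous_const
  have hKU : K ⊆ U := by
    rw [hK, hU]
    rintro z ⟨y, -, rfl⟩
    rcases eq_or_ne y 0 with rfl | hy
    · simp
    · have h1 : (1 : ℂ) + y * I ≠ 1 := by simp [hy]
      have h2 := riemannZeta_ne_zero_of_one_le_re (s := (1 : ℂ) + y * I) (by simp)
      rw [riemannZeta_eq_inv_sub_mul h1] at h2
      exact right_ne_zero_of_mul h2
  obtain ⟨e, he, hball⟩ := hKc.exists_thickening_subset_open hUo hKU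
  refine ⟨min e (1 / 2), lt_min he (by norm_num), min_le_right _ _, fun q _ ρ h hi => ?_⟩
  by_contra hlt
  rw [not_le, lt_min_iff] at hlt
  have h1 := re_lt_one_of_clear h
  have hne : ρ ≠ 1 := fun h' => by simp [h'] at h1
  rw [clear_one_eq' hne, mul_eq_zero] at h
  rcases h with h | h
  · obtain ⟨p, hp, he'⟩ := Finset.prod_eq_zero_iff.1 h
    have hp' := Nat.prime_of_mem_primeFactors hp
    have h2 := congrArg norm (sub_eq_zero.1 he')
    rw [norm_one, norm_natCast_cpow_of_pos hp'.pos] at h2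
    exact absurd h2.symm (Real.rpow_lt_one_of_one_lt_of_neg (by exact_mod_cast hp'.one_lt)
      (by rw [neg_re]; linarith)).ne
  · have hmem : ρ ∈ Metric.thickening e K := Metric.mem_thickening_iff.2
      ⟨1 + (ρ.im : ℂ) * I, hK ▸ ⟨ρ.im, abs_le.1 hi, rfl⟩, by
        rw [dist_eq_norm, show ρ - (1 + (ρ.im : ℂ) * I) = ((ρ.re - 1 : ℝ) : ℂ) by
          apply Complex.ext <;> simp, norm_real, Real.norm_eq_abs, abs_of_neg (by linarith)]
        linarith⟩
    have := hball hmem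
    rw [hU] at this
    exact this h

theorem line_sub_self {x : ℝ} (ρ : ℂ) : line x ρ.im - ρ = ((x + (1 - ρ.re) : ℝ) : ℂ) := by
  apply Complex.ext
  · simp [line]; ring
  · simp [line]

/-- Three, four and one: a zero near `1` belongs to a real character and is close to the axis. -/
theorem zone_three_four_one {χ : DirichletCharacter ℂ q} (hχ : χ ≠ 1) {ρ : ℂ} (hρ : ρ ∈ nearList χ)
    (hi : |ρ.im| ≤ 1 / 16) (hd : 1 - ρ.re ≤ 1 / 48) :
    1 / (17 * (1 - ρ.re)) ≤ 4 * landC * lg q ∨ χ ^ 2 = 1 ∧ |ρ.im| < 12 * (1 - ρ.re) := by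
  obtain ⟨d, hd'⟩ : ∃ d, d = 1 - ρ.re := ⟨_, rfl⟩
  obtain ⟨γ, hγ⟩ : ∃ γ, γ = ρ.im := ⟨_, rfl⟩
  rw [← hd'] at hd ⊢
  rw [← hγ] at hi ⊢
  have hd0 : 0 < d := by linarith [re_lt_one_of_mem hρ]
  have hx : 0 < 6 * d := by linarith
  have hx8 : 6 * d ≤ 1 / 8 := by linarith
  have hpos := re_comb_nonneg 0 hx χ (χ ^ 2) χ γ (2 * γ) γ 3 4 1 0 fun n hn => by
    have hsq : chTerm (χ ^ 2) (2 * γ) n = chTerm χ γ n * chTerm χ γ n := by
      rw [chTerm_mul χ χ γ γ hn, sq, two_mul]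
    obtain ⟨z, hz⟩ : ∃ z, z = chTerm χ γ n := ⟨_, rfl⟩
    have h1 : z.re * z.re + z.im * z.im ≤ 1 := by
      rw [← normSq_apply, normSq_eq_norm_sq, hz]
      exact pow_le_one₀ (norm_nonneg _) (norm_chTerm_le χ γ n)
    rw [hsq, ← hz, mul_re]
    nlinarith [sq_nonneg (z.re + 1)]
  have h1 := re_mom_zero_le χ hx hx8 (t := γ) (by linarith)
    (T := {ρ}) (Multiset.singleton_le.2 hρ)
  rw [Multiset.map_singleton, Multiset.sum_singleton, pol_of_ne_one hχ, zero_mul, zero_re,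
    errTerm_zero, hγ, line_sub_self, ← ofReal_inv, ofReal_re, ← hd', ← hγ] at h1
  have h2 := re_mom_zero_le (χ ^ 2) hx hx8 (t := 2 * γ)
    (by rw [abs_mul, abs_two]; linarith) (Multiset.zero_le _)
  rw [Multiset.map_zero, Multiset.sum_zero, errTerm_zero, sub_zero] at h2
  have h0 := zmom_zero_le hx hx8
  have hze := zetaErr_le q
  have e0 : 1 / (6 * d) = 1 / 6 * d⁻¹ := by rw [one_div, mul_inv, one_div]
  have e1 : (6 * d + d)⁻¹ = 1 / 7 * d⁻¹ := by rw [show 6 * d + d = 7 * d by ring, mul_inv, one_div]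
  have e2 : 1 / (17 * d) = 1 / 17 * d⁻¹ := by rw [one_div, mul_inv, one_div]
  rw [e0] at h0
  rw [e1] at h1
  rw [e2]
  have hdi : 0 < d⁻¹ := inv_pos.2 hd0
  by_cases h2' : χ ^ 2 = 1
  · rcases lt_or_ge |γ| (12 * d) with hlt | hge
    · exact Or.inr ⟨h2', hlt⟩
    refine Or.inl ?_
    have hp : (pol (χ ^ 2) * (((6 * d : ℝ) : ℂ) + ((2 * γ : ℝ) : ℂ) * I)⁻¹).re ≤ 1 / 102 * d⁻¹ := by
      rw [h2', pol_one, one_mul, inv_re, normSq_apply]
      simp only [add_re, ofReal_re, mul_re, I_re, mul_zero, ofReal_im, I_im, mul_one, sub_self,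
        add_zero, add_im, mul_im, zero_add]
      rw [div_le_iff₀ (by nlinarith)]
      have hsq : (12 * d) * (12 * d) ≤ γ * γ := by
        nlinarith [abs_mul_abs_self γ]
      field_simp
      nlinarith
    linarith
  · refine Or.inl ?_
    rw [pol_of_ne_one h2', zero_mul, zero_re] at h2
    linarith

/-- Two zeros of one real character against the pole. -/
theorem zone_pair {χ : DirichletCharacter ℂ q} (hχ : χ ≠ 1) {ρ₁ ρ₂ : ℂ}
    (hρ : ρ₁ ::ₘ {ρ₂} ≤ nearList χ) {d : ℝ} (hd : d ≤ 1 / 160) (h₁ : 1 - ρ₁.re ≤ d)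
    (h₂ : 1 - ρ₂.re ≤ d) (hi₁ : |ρ₁.im| ≤ 12 * d) (hi₂ : |ρ₂.im| ≤ 12 * d) :
    1 / (50 * d) ≤ landC * lg q := by
  have hm₁ : ρ₁ ∈ nearList χ := Multiset.mem_of_le hρ (Multiset.mem_cons_self _ _)
  have hm₂ : ρ₂ ∈ nearList χ :=
    Multiset.mem_of_le hρ (Multiset.mem_cons_of_mem (Multiset.mem_singleton_self _))
  have hd0 : 0 < d := by linarith [re_lt_one_of_mem hm₁]
  have hx : 0 < 20 * d := by linarith
  have hpos := re_comb_nonneg 0 hx χ χ χ 0 0 0 1 1 0 0 fun n _ => by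
    linarith [abs_le.1 (abs_re_chTerm_le χ 0 n)]
  have h1 := re_mom_zero_le χ hx (by linarith) (t := 0) (by norm_num) hρ
  rw [Multiset.map_cons, Multiset.sum_cons, Multiset.map_singleton, Multiset.sum_singleton,
    pol_of_ne_one hχ, zero_mul, zero_re, errTerm_zero] at h1
  have key : ∀ ρ : ℂ, ρ ∈ nearList χ → 1 - ρ.re ≤ d → |ρ.im| ≤ 12 * d →
      7 / 200 * d⁻¹ ≤ (line (20 * d) 0 - ρ)⁻¹.re := fun ρ hm h hi => by
    have h' := re_lt_one_of_mem hm
    have hs := sq_le_of_abs_le hi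
    rw [inv_re, normSq_apply, sub_re, sub_im, line_re, line_im, le_div_iff₀ (by nlinarith)]
    field_simp
    nlinarith
  have k1 := key ρ₁ hm₁ h₁ hi₁
  have k2 := key ρ₂ hm₂ h₂ hi₂
  have h0 := zmom_zero_le hx (by linarith)
  have hze := zetaErr_le q
  rw [show 1 / (20 * d) = 1 / 20 * d⁻¹ by rw [one_div, mul_inv, one_div]] at h0
  rw [show 1 / (50 * d) = 1 / 50 * d⁻¹ by rw [one_div, mul_inv, one_div]]
  linarith

/-- Zeros of two different real characters against the pole. -/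
theorem zone_two_characters {χ ψ : DirichletCharacter ℂ q} (hχ : χ ≠ 1) (hχ2 : χ ^ 2 = 1)
    (hψ : ψ ≠ 1) (hψ2 : ψ ^ 2 = 1) (hne : χ ≠ ψ) {ρ σ : ℂ} (hρ : ρ ∈ nearList χ)
    (hσ : σ ∈ nearList ψ) (hρi : ρ.im = 0) (hσi : σ.im = 0) {d : ℝ} (hd : d ≤ 1 / 160)
    (h₁ : 1 - ρ.re ≤ d) (h₂ : 1 - σ.re ≤ d) : 1 / (50 * d) ≤ 2 * landC * lg q := by
  have hd0 : 0 < d := by linarith [re_lt_one_of_mem hρ]
  have hx : 0 < 20 * d := by linarith
  have hprod : χ * ψ ≠ 1 := fun h => hne (by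
    calc χ = χ * (ψ * ψ) := by rw [← sq, hψ2, mul_one]
      _ = ψ := by rw [← mul_assoc, h, one_mul])
  have hpos := re_comb_nonneg 0 hx χ ψ (χ * ψ) 0 0 0 1 1 1 1 fun n hn => by
    have e : chTerm (χ * ψ) 0 n = chTerm χ 0 n * chTerm ψ 0 n := by
      rw [chTerm_mul χ ψ 0 0 hn, add_zero]
    rw [e, mul_re, chTerm_im_eq_zero hχ2, zero_mul, sub_zero]
    have ha := abs_le.1 (abs_re_chTerm_le χ 0 n)
    have hb := abs_le.1 (abs_re_chTerm_le ψ 0 n)
    nlinarith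
  have h1 := re_mom_zero_le χ hx (by linarith) (t := 0) (by norm_num) (T := {ρ})
    (Multiset.singleton_le.2 hρ)
  have h1' := re_mom_zero_le ψ hx (by linarith) (t := 0) (by norm_num) (T := {σ})
    (Multiset.singleton_le.2 hσ)
  have h3 := re_mom_zero_le (χ * ψ) hx (by linarith) (t := 0) (by norm_num) (Multiset.zero_le _)
  rw [Multiset.map_singleton, Multiset.sum_singleton, pol_of_ne_one hχ, zero_mul, zero_re,
    errTerm_zero, ← hρi, line_sub_self, ← ofReal_inv, ofReal_re, hρi] at h1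
  rw [Multiset.map_singleton, Multiset.sum_singleton, pol_of_ne_one hψ, zero_mul, zero_re,
    errTerm_zero, ← hσi, line_sub_self, ← ofReal_inv, ofReal_re, hσi] at h1'
  rw [Multiset.map_zero, Multiset.sum_zero, pol_of_ne_one hprod, zero_mul, zero_re,
    errTerm_zero] at h3
  have k1 : (21 * d)⁻¹ ≤ (20 * d + (1 - ρ.re))⁻¹ :=
    inv_anti₀ (by linarith [re_lt_one_of_mem hρ]) (by linarith)
  have k2 : (21 * d)⁻¹ ≤ (20 * d + (1 - σ.re))⁻¹ :=
    inv_anti₀ (by linarith [re_lt_one_of_mem hσ]) (by linarith)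
  rw [mul_inv] at k1 k2
  have h0 := zmom_zero_le hx (by linarith)
  have hze := zetaErr_le q
  rw [show 1 / (20 * d) = 1 / 20 * d⁻¹ by rw [one_div, mul_inv, one_div]] at h0
  rw [show 1 / (50 * d) = 1 / 50 * d⁻¹ by rw [one_div, mul_inv, one_div]]
  have hdi : 0 < d⁻¹ := inv_pos.2 hd0
  linarith

/-- The width of the region, at modulus `q`: `zoneC / lg q`. -/
def zoneC : ℝ := min (4 * exists_zeta_zone.choose) (1 / (200 * landC + 40))

theorem zoneC_pos : 0 < zoneC :=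
  lt_min (by linarith [exists_zeta_zone.choose_spec.1]) (one_div_pos.2 (by linarith [landC_pos]))

theorem zoneC_div_le (q : ℕ) : zoneC / lg q ≤ exists_zeta_zone.choose ∧ zoneC / lg q ≤ 1 / 160 := by
  have h4 := four_le_lg q
  refine ⟨(div_le_iff₀ (lg_pos q)).2 ((min_le_left _ _).trans ?_), (div_le_iff₀ (lg_pos q)).2
    ((min_le_right _ _).trans ?_)⟩
  · rw [mul_comm]
    exact mul_le_mul_of_nonneg_left h4 exists_zeta_zone.choose_spec.1.le
  · rw [div_le_iff₀ (by linarith [landC_pos])]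
    nlinarith [landC_pos]

theorem not_le_of_lt_zone {d : ℝ} (hd0 : 0 < d) (hd : d < zoneC / lg q) {N : ℝ} (hN : 0 < N)
    (hN' : N ≤ 200) : ¬ 1 / d ≤ N * (landC * lg q) := fun h => by
  rw [div_le_iff₀ hd0] at h
  rw [lt_div_iff₀ (lg_pos q)] at hd
  have h1 : zoneC * (200 * landC + 40) ≤ 1 :=
    (le_div_iff₀ (by linarith [landC_pos])).1 (min_le_right _ _)
  have h2 := mul_lt_mul_of_pos_left hd (mul_pos hN landC_pos)
  have h3 := mul_le_mul_of_nonneg_right hN' (mul_nonneg landC_pos.le zoneC_pos.le)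
  nlinarith [zoneC_pos]

/-- **Only real zeros of real characters.** -/
theorem zone {χ : DirichletCharacter ℂ q} {ρ : ℂ} (hρ : ρ ∈ nearList χ) (hi : |ρ.im| ≤ 1 / 16)
    (hd : 1 - ρ.re < zoneC / lg q) : χ ≠ 1 ∧ χ ^ 2 = 1 ∧ ρ.im = 0 := by
  obtain ⟨hz1, hz2⟩ := zoneC_div_le q
  have hd0 : 0 < 1 - ρ.re := by linarith [re_lt_one_of_mem hρ]
  have hχ : χ ≠ 1 := fun h => by
    subst h
    have := exists_zeta_zone.choose_spec.2.2 q ρ (clear_eq_zero_of_mem hρ) (hi.trans (by norm_num))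
    linarith
  rcases zone_three_four_one hχ hρ hi (by linarith) with h | ⟨h2, hlt⟩
  · refine absurd ?_ (not_le_of_lt_zone (q := q) hd0 hd (N := 68) (by norm_num) (by norm_num))
    rw [show 1 / (17 * (1 - ρ.re)) = 1 / 17 * (1 / (1 - ρ.re)) by rw [one_div_mul_one_div]] at h
    linarith
  refine ⟨hχ, h2, ?_⟩
  by_contra hne
  have hz : LFunction χ (conj ρ) = 0 := by
    rw [LFunction_conj hχ h2 (by linarith), ← clear_of_ne_one hχ, clear_eq_zero_of_mem hρ, map_zero]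
  have hmem : conj ρ ∈ nearList χ := mem_nearList (by rw [clear_of_ne_one hχ]; exact hz)
    (by rw [conj_re]; linarith) (by rw [conj_im, abs_neg]; linarith)
  have hle : ρ ::ₘ {conj ρ} ≤ nearList χ := by
    rw [← Multiset.cons_erase hρ]
    refine Multiset.cons_le_cons _ (Multiset.singleton_le.2 ((Multiset.mem_erase_of_ne ?_).2 hmem))
    exact fun h => hne (conj_eq_iff_im.1 h)
  have h := zone_pair hχ hle (d := 1 - ρ.re) (by linarith) le_rfl (by rw [conj_re]) hlt.le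
    (by rw [conj_im, abs_neg]; exact hlt.le)
  refine not_le_of_lt_zone (q := q) hd0 hd (N := 50) (by norm_num) (by norm_num) ?_
  rw [show 1 / (50 * (1 - ρ.re)) = 1 / 50 * (1 / (1 - ρ.re)) by rw [one_div_mul_one_div]] at h
  linarith

/-- **At most one, with multiplicity.** -/
theorem zone_unique {χ ψ : DirichletCharacter ℂ q} {ρ σ : ℂ} (hρ : ρ ∈ nearList χ)
    (hρi : |ρ.im| ≤ 1 / 16) (hρd : 1 - ρ.re < zoneC / lg q) (hσ : σ ∈ nearList ψ)
    (hσi : |σ.im| ≤ 1 / 16) (hσd : 1 - σ.re < zoneC / lg q) :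
    χ = ψ ∧ ρ = σ ∧ ρ ∉ (nearList χ).erase ρ := by
  obtain ⟨hχ, hχ2, hρ0⟩ := zone hρ hρi hρd
  obtain ⟨hψ, hψ2, hσ0⟩ := zone hσ hσi hσd
  obtain ⟨-, hz2⟩ := zoneC_div_le q
  obtain ⟨d, hd⟩ : ∃ d, d = max (1 - ρ.re) (1 - σ.re) := ⟨_, rfl⟩
  have h₁ : 1 - ρ.re ≤ d := hd ▸ le_max_left _ _
  have h₂ : 1 - σ.re ≤ d := hd ▸ le_max_right _ _
  have hdz : d < zoneC / lg q := hd ▸ max_lt hρd hσd
  have hd0 : 0 < d := by linarith [re_lt_one_of_mem hρ]
  have key : ∀ {N : ℝ}, 0 < N → N ≤ 200 → ¬ 1 / (50 * d) ≤ N / 50 * (landC * lg q) := fun hN hN' h =>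
    not_le_of_lt_zone (q := q) hd0 hdz hN hN' (by
      rw [show 1 / (50 * d) = 1 / 50 * (1 / d) by rw [one_div_mul_one_div]] at h
      linarith)
  have hpair : ∀ τ ∈ (nearList χ).erase ρ, 1 - τ.re ≤ d → τ.im = 0 → False := fun τ hτ h hi => by
    have hle : ρ ::ₘ {τ} ≤ nearList χ := by
      rw [← Multiset.cons_erase hρ]
      exact Multiset.cons_le_cons _ (Multiset.singleton_le.2 hτ)
    have := zone_pair hχ hle (by linarith) h₁ h (by rw [hρ0, abs_zero]; linarith)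
      (by rw [hi, abs_zero]; linarith)
    exact key (N := 50) (by norm_num) (by norm_num) (by linarith)
  have hEq : χ = ψ := by
    by_contra hne
    have := zone_two_characters hχ hχ2 hψ hψ2 hne hρ hσ hρ0 hσ0 (by linarith) h₁ h₂
    exact key (N := 100) (by norm_num) (by norm_num) (by linarith)
  subst hEq
  refine ⟨rfl, ?_, fun h => hpair ρ h h₁ hρ0⟩
  by_contra hne
  exact hpair σ ((Multiset.mem_erase_of_ne fun h => hne h.symm).2 hσ) h₂ hσ0

end FA.LinnikPrime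

end
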