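import Fermat.Agent.LeastPrimeIdeal.Primes
import Fermat.Agent.Tau.SiegelBound
import Mathlib.NumberTheory.LSeries.Dirichlet
import Mathlib.NumberTheory.MulChar.Lemmas

/-!
# The L-functions modulo `q` with the pole removed, and the smoothed sums

`clear χ` is `L(s, χ)`, for the principal character `(s - 1) L(s, χ₀)`. On the disc `|s - 9/8| ≤ 3/4` it
is `exp (O (lg q))` times its value at the centre, `lg q = log q + 4`. The sums
`mom χ k b t = ∑ χ(n) Λ(n) (log n) ^ k / k! n ^ (- 1 - b - it)` are the derivatives of `-L'/L`.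
-/

set_option autoImplicit false
set_option linter.unusedSectionVars false

noncomputable section

open Complex Metric Filter Topology
open DirichletCharacter (LFunction LFunctionTrivChar LFunctionTrivChar₁)
open FA.LMO (wgt wgt_nonneg)
open scoped Nat Real ComplexConjugate ArithmeticFunction.vonMangoldt

namespace FA.LinnikPrime

/-- The logarithm of the modulus, moved away from `0`. -/
def lg (q : ℕ) : ℝ := Real.log q + 4

theorem four_le_lg (q : ℕ) : 4 ≤ lg q := by
  rw [lg]; linarith [Real.log_natCast_nonneg q]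

theorem lg_pos (q : ℕ) : 0 < lg q := by linarith [four_le_lg q]

theorem natCast_le_exp_lg (q : ℕ) : (q : ℝ) ≤ Real.exp (lg q) := by
  rcases Nat.eq_zero_or_pos q with rfl | hq
  · simpa using (Real.exp_pos _).le
  rw [← Real.log_le_iff_le_exp (Nat.cast_pos.2 hq), lg]
  linarith

variable {q : ℕ} [NeZero q]

/-- The L-function with the pole removed. -/
def clear (χ : DirichletCharacter ℂ q) : ℂ → ℂ :=
  if χ = 1 then LFunctionTrivChar₁ q else LFunction χ

/-- The order of the pole at `1`. -/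
def pol (χ : DirichletCharacter ℂ q) : ℂ := if χ = 1 then 1 else 0

theorem clear_of_ne_one {χ : DirichletCharacter ℂ q} (hχ : χ ≠ 1) : clear χ = LFunction χ :=
  if_neg hχ

theorem pol_of_ne_one {χ : DirichletCharacter ℂ q} (hχ : χ ≠ 1) : pol χ = 0 := if_neg hχ

theorem pol_one : pol (1 : DirichletCharacter ℂ q) = 1 := if_pos rfl

theorem clear_one_eq {s : ℂ} (hs : s ≠ 1) :
    clear (1 : DirichletCharacter ℂ q) s = (s - 1) * LFunctionTrivChar q s := by
  rw [clear, if_pos rfl, LFunctionTrivChar₁, Function.update_of_ne hs]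

theorem clear_one_eq' {s : ℂ} (hs : s ≠ 1) : clear (1 : DirichletCharacter ℂ q) s =
    (∏ p ∈ q.primeFactors, (1 - (p : ℂ) ^ (-s))) * riemannZeta₁ s := by
  rw [clear_one_eq hs, DirichletCharacter.LFunctionTrivChar_eq_mul_riemannZeta hs, mul_left_comm,
    riemannZeta_eq_inv_sub_mul hs, ← mul_assoc (s - 1), mul_inv_cancel₀ (sub_ne_zero.2 hs), one_mul]

theorem differentiable_clear (χ : DirichletCharacter ℂ q) : Differentiable ℂ (clear χ) := by
  by_cases hχ : χ = 1
  · rw [clear, if_pos hχ]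
    exact DirichletCharacter.differentiable_LFunctionTrivChar₁ q
  · rw [clear_of_ne_one hχ]
    exact DirichletCharacter.differentiable_LFunction hχ

theorem clear_ne_zero (χ : DirichletCharacter ℂ q) {s : ℂ} (hs : 1 ≤ s.re) : clear χ s ≠ 0 := by
  by_cases hχ : χ = 1
  · subst hχ
    rcases eq_or_ne s 1 with rfl | h1
    · rw [clear, if_pos rfl]
      exact DirichletCharacter.LFunctionTrivChar₁_apply_one_ne_zero q
    rw [clear_one_eq h1]
    exact mul_ne_zero (sub_ne_zero.2 h1)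
      (DirichletCharacter.LFunction_ne_zero_of_one_le_re _ (Or.inr h1) hs)
  · rw [clear_of_ne_one hχ]
    exact DirichletCharacter.LFunction_ne_zero_of_one_le_re _ (Or.inl hχ) hs

theorem re_lt_one_of_clear {χ : DirichletCharacter ℂ q} {s : ℂ} (h : clear χ s = 0) : s.re < 1 :=
  not_le.1 fun hs => clear_ne_zero χ hs h

/-- `1 / |L(s, χ)| ≤ ζ(re s)`. -/
theorem inv_zeta_le_norm_LFunction (χ : DirichletCharacter ℂ q) {σ : ℝ} (hσ : 1 < σ) :
    (∑' n : ℕ, 1 / (n : ℝ) ^ σ)⁻¹ ≤ ‖LFunction χ (σ : ℂ)‖ := by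
  have hre : 1 < (σ : ℂ).re := by simpa using hσ
  have hz : Summable fun n : ℕ => 1 / (n : ℝ) ^ σ := Real.summable_one_div_nat_rpow.2 hσ
  obtain ⟨Z, hZ⟩ : ∃ Z, Z = ∑' n : ℕ, 1 / (n : ℝ) ^ σ := ⟨_, rfl⟩
  have hZ1 : 1 ≤ Z := by
    have := hz.le_tsum 1 fun n _ => by positivity
    rw [← hZ] at this
    simpa using this
  rw [← hZ, DirichletCharacter.LFunction_eq_LSeries χ hre]
  obtain ⟨g, hg⟩ : ∃ g : ℕ → ℂ, g = fun n : ℕ => χ n * (ArithmeticFunction.moebius n : ℂ) := ⟨_, rfl⟩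
  have h1 : LSeries (χ ·) (σ : ℂ) * LSeries g σ = 1 :=
    hg ▸ DirichletCharacter.LSeries.mul_mu_eq_one χ hre
  have hμ : ∀ n, ‖LSeries.term g (σ : ℂ) n‖ ≤ 1 / (n : ℝ) ^ σ := fun n => by
    rcases eq_or_ne n 0 with rfl | hn
    · rw [LSeries.term_zero, norm_zero]; positivity
    rw [LSeries.term_of_ne_zero hn, norm_div, norm_natCast_cpow_of_pos (Nat.pos_of_ne_zero hn),
      ofReal_re, hg, norm_mul, Complex.norm_intCast]
    refine div_le_div_of_nonneg_right ?_ (Real.rpow_nonneg (Nat.cast_nonneg n) σ)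
    exact mul_le_one₀ (χ.norm_le_one _) (abs_nonneg _)
      (by exact_mod_cast ArithmeticFunction.abs_moebius_le_one)
  have hs : Summable fun n => ‖LSeries.term g (σ : ℂ) n‖ :=
    Summable.of_nonneg_of_le (fun n => norm_nonneg _) hμ hz
  have h2 : ‖LSeries g (σ : ℂ)‖ ≤ Z := hZ ▸ (norm_tsum_le_tsum_norm hs).trans (hs.tsum_le_tsum hμ hz)
  have h3 := congrArg norm h1
  rw [norm_mul, norm_one] at h3
  rw [inv_le_iff_one_le_mul₀ (by linarith)]
  exact h3 ▸ mul_le_mul_of_nonneg_left h2 (norm_nonneg _)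

/-- **On the disc about `9 / 8`, relative to the centre.** -/
theorem exists_rim : ∃ C : ℝ, 1 ≤ C ∧ ∀ (q : ℕ) [NeZero q] (χ : DirichletCharacter ℂ q),
    ∀ z ∈ sphere (0 : ℂ) (3 * (1 / 4)),
      ‖clear χ (9 / 8 + z)‖ ≤ Real.exp (C * lg q) * ‖clear χ (9 / 8 + 0)‖ := by
  obtain ⟨A, hA⟩ := (isCompact_closedBall ((9 : ℂ) / 8) (3 / 4)).exists_bound_of_continuousOn
    differentiable_riemannZeta₁.continuous.continuousOn
  obtain ⟨c, hcdef⟩ : ∃ c : ℝ, c = (∑' n : ℕ, 1 / (n : ℝ) ^ (9 / 8 : ℝ))⁻¹ / 8 := ⟨_, rfl⟩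
  have hc : 0 < c := by
    have h1 : (1 : ℝ) ≤ ∑' n : ℕ, 1 / (n : ℝ) ^ (9 / 8 : ℝ) := by
      refine le_trans ?_ ((Real.summable_one_div_nat_rpow.2 (by norm_num)).le_tsum 1 fun n _ => by positivity)
      simp
    rw [hcdef]; positivity
  obtain ⟨B, hBdef⟩ : ∃ B : ℝ, B = (16 + |A|) / c := ⟨_, rfl⟩
  have hB : 0 < B := by rw [hBdef]; positivity
  refine ⟨max 1 (Real.log B), le_max_left _ _, fun q _ χ z hz => ?_⟩
  rw [mem_sphere_zero_iff_norm] at hz
  obtain ⟨s, hs⟩ : ∃ s : ℂ, s = 9 / 8 + z := ⟨_, rfl⟩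
  rw [← hs, add_zero]
  have hzr := abs_le.1 ((abs_re_le_norm z).trans hz.le)
  have hsre : 3 / 8 ≤ s.re := by rw [hs, add_re]; norm_num at hzr ⊢; linarith
  have hsn : ‖s‖ ≤ 2 := by rw [hs]; refine (norm_add_le _ _).trans ?_; rw [hz]; norm_num
  have hq1 : (1 : ℝ) ≤ q := by exact_mod_cast NeZero.one_le
  have hcenter : (((9 / 8 : ℝ) : ℂ)) = 9 / 8 := by norm_num
  have hlow := inv_zeta_le_norm_LFunction χ (σ := 9 / 8) (by norm_num)
  rw [hcenter] at hlow
  have hkey : ‖clear χ s‖ ≤ (16 + |A|) * q ∧ c ≤ ‖clear χ (9 / 8)‖ := by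
    by_cases hχ : χ = 1
    · subst hχ
      refine ⟨?_, ?_⟩
      · rcases eq_or_ne s 1 with h1 | h1
        · rw [h1, clear, if_pos rfl]
          simp only [LFunctionTrivChar₁, Function.update_self]
          rw [norm_prod]
          refine le_trans (Finset.prod_le_one (fun p _ => norm_nonneg _) fun p hp => ?_) ?_
          · have hp2 : (2 : ℝ) ≤ p := Nat.ofNat_le_cast.2 (Nat.prime_of_mem_primeFactors hp).two_le
            rw [show (1 : ℂ) - (p : ℂ)⁻¹ = ((1 - (p : ℝ)⁻¹ : ℝ) : ℂ) by push_cast; ring, norm_real,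
              Real.norm_of_nonneg (sub_nonneg.2 (inv_le_one_of_one_le₀ (by linarith)))]
            exact sub_le_self 1 (by positivity)
          · nlinarith [abs_nonneg A]
        rw [clear_one_eq' h1, norm_mul, norm_prod]
        have hζ : ‖riemannZeta₁ s‖ ≤ |A| := (hA s (by
          rw [mem_closedBall, dist_eq_norm, hs, add_sub_cancel_left]; linarith)).trans (le_abs_self A)
        have hprod : ∏ p ∈ q.primeFactors, ‖1 - (p : ℂ) ^ (-s)‖ ≤ q := by
          refine le_trans (Finset.prod_le_prod (fun p _ => norm_nonneg _) (g := fun p : ℕ => (p : ℝ))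
            fun p hp => ?_) ?_
          · have hp := Nat.prime_of_mem_primeFactors hp
            refine (norm_sub_le _ _).trans ?_
            rw [norm_one, norm_natCast_cpow_of_pos hp.pos]
            have h2 : (2 : ℝ) ≤ p := Nat.ofNat_le_cast.2 hp.two_le
            have : (p : ℝ) ^ (-s).re ≤ 1 :=
              Real.rpow_le_one_of_one_le_of_nonpos (by linarith) (by rw [neg_re]; linarith)
            linarith
          · rw [← Nat.cast_prod, Nat.cast_le]
            exact Nat.le_of_dvd (Nat.pos_of_ne_zero (NeZero.ne q)) (Nat.prod_primeFactors_dvd q)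
        refine (mul_le_mul hprod hζ (norm_nonneg _) (by linarith)).trans ?_
        nlinarith
      · rw [clear_one_eq (by norm_num), norm_mul, show ‖(9 / 8 : ℂ) - 1‖ = 1 / 8 by norm_num, hcdef]
        rw [div_le_iff₀ (by norm_num : (0 : ℝ) < 8)]
        refine hlow.trans (le_of_eq ?_)
        ring
    · rw [clear_of_ne_one hχ]
      refine ⟨(FA.Siegel.norm_LFunction_le hχ (by linarith)).trans ?_, le_trans ?_ hlow⟩
      · refine (mul_le_mul hsn (div_le_div_of_nonneg_left (Nat.cast_nonneg q) (by norm_num) hsre)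
          (div_nonneg (Nat.cast_nonneg q) (by linarith)) zero_le_two).trans ?_
        nlinarith [abs_nonneg A]
      · rw [hcdef]
        exact div_le_self (inv_nonneg.2 (tsum_nonneg fun n => by positivity)) (by norm_num)
  refine hkey.1.trans ?_
  have h1 : (16 + |A|) * q ≤ Real.exp (max 1 (Real.log B) * lg q) * c := by
    rw [show (16 + |A|) * (q : ℝ) = B * q * c by rw [hBdef]; field_simp]
    refine mul_le_mul_of_nonneg_right ?_ hc.le
    obtain ⟨C, hC⟩ : ∃ C, C = max 1 (Real.log B) := ⟨_, rfl⟩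
    have h2 : Real.log B ≤ C := hC ▸ le_max_right _ _
    have h3 : 1 ≤ C := hC ▸ le_max_left _ _
    rw [← hC, ← Real.log_le_iff_le_exp (by positivity), Real.log_mul hB.ne' (by linarith), lg]
    nlinarith [Real.log_natCast_nonneg q]
  exact h1.trans (mul_le_mul_of_nonneg_left hkey.2 (Real.exp_pos _).le)

/-- The exponent on the disc. -/
def rimC : ℝ := exists_rim.choose

theorem one_le_rimC : 1 ≤ rimC := exists_rim.choose_spec.1

theorem rim_le (χ : DirichletCharacter ℂ q) : ∀ z ∈ sphere (0 : ℂ) (3 * (1 / 4)),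
    ‖clear χ (9 / 8 + z)‖ ≤ Real.exp (rimC * lg q) * ‖clear χ (9 / 8 + 0)‖ :=
  exists_rim.choose_spec.2 q χ

section moments

variable (χ : DirichletCharacter ℂ q) (k : ℕ) {b : ℝ}

/-- `χ(n) n ^ (- i t)`. -/
def chTerm (χ : DirichletCharacter ℂ q) (t : ℝ) (n : ℕ) : ℂ := χ n * (n : ℂ) ^ (-((t : ℂ) * I))

/-- `Λ(n) (log n) ^ k / k! n ^ (- 1 - b)`. -/
def coef (k : ℕ) (b : ℝ) (n : ℕ) : ℝ := wgt k b n * Λ n

/-- The smoothed sum. -/
def mom (χ : DirichletCharacter ℂ q) (k : ℕ) (b t : ℝ) : ℂ := ∑' n, (coef k b n : ℂ) * chTerm χ t n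

/-- The smoothed sum without a character. -/
def zmom (k : ℕ) (b : ℝ) : ℝ := ∑' n, coef k b n

theorem coef_nonneg (b : ℝ) (n : ℕ) : 0 ≤ coef k b n :=
  mul_nonneg (wgt_nonneg k b n) ArithmeticFunction.vonMangoldt_nonneg

theorem norm_chTerm_le (t : ℝ) (n : ℕ) : ‖chTerm χ t n‖ ≤ 1 := by
  rw [chTerm, norm_mul]
  refine mul_le_one₀ (χ.norm_le_one _) (norm_nonneg _) ?_
  rcases eq_or_ne n 0 with rfl | hn
  · rcases eq_or_ne t 0 with rfl | ht
    · simp
    · rw [Nat.cast_zero, zero_cpow (neg_ne_zero.2 (mul_ne_zero (ofReal_ne_zero.2 ht) I_ne_zero))]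
      simp
  · rw [norm_natCast_cpow_of_pos (Nat.pos_of_ne_zero hn)]
    simp

theorem chTerm_mul (ψ : DirichletCharacter ℂ q) (t u : ℝ) {n : ℕ} (hn : n ≠ 0) :
    chTerm χ t n * chTerm ψ u n = chTerm (χ * ψ) (t + u) n := by
  rw [chTerm, chTerm, chTerm, MulChar.mul_apply, ofReal_add, add_mul, neg_add,
    cpow_add _ _ (Nat.cast_ne_zero.2 hn)]
  ring

theorem coef_mul_congr {f g : ℕ → ℂ} (b : ℝ) (h : ∀ n, n ≠ 0 → f n = g n) (n : ℕ) :
    (coef k b n : ℂ) * f n = (coef k b n : ℂ) * g n := by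
  rcases eq_or_ne n 0 with rfl | hn
  · simp [coef]
  · rw [h n hn]

theorem iterate_logMul (f : ℕ → ℂ) (n : ℕ) :
    LSeries.logMul^[k] f n = ((Real.log n ^ k : ℝ) : ℂ) * f n := by
  induction k with
  | zero => simp
  | succ k ih =>
    rw [Function.iterate_succ_apply']
    show Complex.log n * _ = _
    rw [ih, ← Complex.natCast_log, pow_succ']
    push_cast
    ring

theorem cpow_line (b t : ℝ) {n : ℕ} (hn : n ≠ 0) :
    (n : ℂ) ^ (((1 + b : ℝ) : ℂ) + (t : ℂ) * I) =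
      (((n : ℝ) ^ (1 + b) : ℝ) : ℂ) * ((n : ℂ) ^ (-((t : ℂ) * I)))⁻¹ := by
  rw [cpow_add _ _ (Nat.cast_ne_zero.2 hn), cpow_neg, inv_inv, ← ofReal_natCast n,
    ← ofReal_cpow (Nat.cast_nonneg n)]

theorem term_eq (b t : ℝ) (n : ℕ) :
    LSeries.term (LSeries.logMul^[k] (fun m => χ m * (Λ m : ℂ))) (((1 + b : ℝ) : ℂ) + (t : ℂ) * I) n =
      (k ! : ℂ) * ((coef k b n : ℂ) * chTerm χ t n) := by
  rcases eq_or_ne n 0 with rfl | hn
  · simp [coef]
  rw [LSeries.term_of_ne_zero hn, iterate_logMul, cpow_line b t hn, coef, wgt,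
    Real.rpow_neg (Nat.cast_nonneg n), chTerm]
  push_cast
  have hk : (k ! : ℂ) ≠ 0 := Nat.cast_ne_zero.2 (Nat.factorial_ne_zero k)
  field_simp

theorem abscissa_twist : LSeries.abscissaOfAbsConv (fun m => χ m * (Λ m : ℂ)) ≤ (1 : ℝ) :=
  LSeries.abscissaOfAbsConv_le_of_forall_lt_LSeriesSummable fun y hy =>
    DirichletCharacter.LSeriesSummable_twist_vonMangoldt χ (s := (y : ℂ)) (by simpa using hy)

theorem abscissa_lt (hb : 0 < b) (t : ℝ) :
    LSeries.abscissaOfAbsConv (fun m => χ m * (Λ m : ℂ)) <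
      ((((1 + b : ℝ) : ℂ) + (t : ℂ) * I).re : EReal) :=
  lt_of_le_of_lt (abscissa_twist χ) (by
    rw [show (((1 + b : ℝ) : ℂ) + (t : ℂ) * I).re = 1 + b by simp]
    exact_mod_cast (by linarith : (1 : ℝ) < 1 + b))

theorem hasSum_mom (hb : 0 < b) (t : ℝ) :
    HasSum (fun n => (coef k b n : ℂ) * chTerm χ t n) (mom χ k b t) := by
  have h : LSeriesSummable (LSeries.logMul^[k] fun m => χ m * (Λ m : ℂ))
      (((1 + b : ℝ) : ℂ) + (t : ℂ) * I) := LSeriesSummable_of_abscissaOfAbsConv_lt_re (by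
    rw [LSeries.absicssaOfAbsConv_logPowMul]; exact abscissa_lt χ hb t)
  exact ((summable_mul_left_iff (Nat.cast_ne_zero.2 (Nat.factorial_ne_zero k))).1
    (h.congr (term_eq χ k b t))).hasSum

theorem summable_coef (hb : 0 < b) : Summable (coef k b) := by
  have h := (hasSum_mom (1 : DirichletCharacter ℂ 1) k hb 0).summable
  refine Complex.summable_ofReal.1 (h.congr fun n => ?_)
  rw [chTerm, MulChar.one_apply (isUnit_of_subsingleton _)]
  simp

theorem hasSum_zmom (hb : 0 < b) : HasSum (coef k b) (zmom k b) := (summable_coef k hb).hasSum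

theorem zmom_nonneg (b : ℝ) : 0 ≤ zmom k b := tsum_nonneg (coef_nonneg k b)

theorem norm_coef_chTerm_le (b t : ℝ) (n : ℕ) : ‖(coef k b n : ℂ) * chTerm χ t n‖ ≤ coef k b n := by
  rw [norm_mul, norm_real, Real.norm_of_nonneg (coef_nonneg k b n)]
  exact mul_le_of_le_one_right (coef_nonneg k b n) (norm_chTerm_le χ t n)

theorem norm_mom_le (hb : 0 < b) (t : ℝ) : ‖mom χ k b t‖ ≤ zmom k b := by
  have hs : Summable fun n => ‖(coef k b n : ℂ) * chTerm χ t n‖ :=
    Summable.of_nonneg_of_le (fun n => norm_nonneg _) (norm_coef_chTerm_le χ k b t) (summable_coef k hb)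
  exact (norm_tsum_le_tsum_norm hs).trans (hs.tsum_le_tsum (norm_coef_chTerm_le χ k b t) (summable_coef k hb))

theorem mom_one_level : mom (1 : DirichletCharacter ℂ 1) k b 0 = (zmom k b : ℂ) := by
  rw [mom, zmom, Complex.ofReal_tsum]
  refine tsum_congr fun n => ?_
  rw [chTerm, MulChar.one_apply (isUnit_of_subsingleton _)]
  simp

theorem iteratedDeriv_twist (hb : 0 < b) (t : ℝ) :
    iteratedDeriv k (LSeries fun m => χ m * (Λ m : ℂ)) (((1 + b : ℝ) : ℂ) + (t : ℂ) * I) =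
      (-1) ^ k * k ! * mom χ k b t := by
  rw [LSeries_iteratedDeriv k (abscissa_lt χ hb t), LSeries, tsum_congr (term_eq χ k b t), tsum_mul_left,
    mom, mul_assoc]

/-- The logarithmic derivative of `clear χ` to the right of `1`. -/
theorem logDeriv_clear {s : ℂ} (hs : 1 < s.re) :
    logDeriv (clear χ) s = -LSeries (fun m => χ m * (Λ m : ℂ)) s + pol χ * (s - 1)⁻¹ := by
  have h := DirichletCharacter.LSeries_twist_vonMangoldt_eq χ hs
  rw [← DirichletCharacter.deriv_LFunction_eq_deriv_LSeries χ hs,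
    ← DirichletCharacter.LFunction_eq_LSeries χ hs] at h
  have h' : LSeries (fun m => χ m * (Λ m : ℂ)) s = -deriv (LFunction χ) s / LFunction χ s := h
  rw [h', logDeriv_apply, neg_div, neg_neg]
  have hs1 : s ≠ 1 := fun e => by simp [e] at hs
  by_cases hχ : χ = 1
  · subst hχ
    have hL : LFunctionTrivChar q s ≠ 0 :=
      DirichletCharacter.LFunction_ne_zero_of_one_le_re _ (Or.inr hs1) hs.le
    rw [clear_one_eq hs1, pol_one, clear, if_pos rfl,
      DirichletCharacter.deriv_LFunctionTrivChar₁_apply_of_ne_one q hs1, one_mul]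
    have hs1' := sub_ne_zero.2 hs1
    field_simp
  · rw [pol_of_ne_one hχ, clear_of_ne_one hχ, zero_mul, add_zero]

/-- **The derivatives of the logarithmic derivative at `1 + b + it`.** -/
theorem iteratedDeriv_logDeriv_clear (hb : 0 < b) (t : ℝ) :
    iteratedDeriv k (logDeriv (clear χ)) (((1 + b : ℝ) : ℂ) + (t : ℂ) * I) =
      (-1) ^ k * k ! * (pol χ * (((b : ℂ) + (t : ℂ) * I) ^ (k + 1))⁻¹ - mom χ k b t) := by
  obtain ⟨s, hs⟩ : ∃ s : ℂ, s = ((1 + b : ℝ) : ℂ) + (t : ℂ) * I := ⟨_, rfl⟩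
  have hre : 1 < s.re := by rw [hs]; simp; linarith
  rw [← hs]
  have hev : logDeriv (clear χ) =ᶠ[𝓝 s]
      fun z => -LSeries (fun m => χ m * (Λ m : ℂ)) z + pol χ * (z - 1)⁻¹ := by
    filter_upwards [(isOpen_lt continuous_const Complex.continuous_re).mem_nhds hre] with z hz
    exact logDeriv_clear χ hz
  have habs := abscissa_lt χ hb t
  rw [← hs] at habs
  have hA : AnalyticAt ℂ (LSeries fun m => χ m * (Λ m : ℂ)) s := LSeries_analyticOnNhd _ s habs
  have hs1 : s - 1 ≠ 0 := sub_ne_zero.2 fun e => by simp [e] at hre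
  have hB : AnalyticAt ℂ (fun z : ℂ => (z - 1)⁻¹) s := (analyticAt_id.sub analyticAt_const).inv hs1
  have hI : iteratedDeriv k (fun z : ℂ => (z - 1)⁻¹) s = (-1) ^ k * k ! * ((s - 1) ^ (k + 1))⁻¹ := by
    rw [iteratedDeriv_comp_sub_const k (fun z : ℂ => z⁻¹) 1, iteratedDeriv_eq_iterate]
    show deriv^[k] Inv.inv (s - 1) = _
    rw [iter_deriv_inv, show (-1 - k : ℤ) = -((k + 1 : ℕ) : ℤ) by push_cast; ring, zpow_neg,
      zpow_natCast]
  rw [hev.iteratedDeriv_eq k]
  refine (iteratedDeriv_add (f := fun z => -LSeries (fun m => χ m * (Λ m : ℂ)) z)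
    (g := fun z : ℂ => pol χ * (z - 1)⁻¹) hA.neg.contDiffAt
    (contDiffAt_const.mul hB.contDiffAt)).trans ?_
  rw [iteratedDeriv_fun_neg, iteratedDeriv_const_mul _ hB.contDiffAt, hI, hs,
    iteratedDeriv_twist χ k hb t,
    show ((1 + b : ℝ) : ℂ) + (t : ℂ) * I - 1 = (b : ℂ) + (t : ℂ) * I by push_cast; ring]
  ring

end moments

end FA.LinnikPrime

end
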