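import Fermat.Agent.LinnikPrime.Repulsion
import Fermat.Agent.LinnikPrime.LOne
import Fermat.Agent.LinnikPrime.Density
import Fermat.Agent.LeastPrimeIdeal.Main

/-!
# Linnik's theorem on the least prime in a progression

With `b` fixed and `k` about `M lg q`, the sum of `Λ(n) (log n) ^ k / k! n ^ (- 1 - b)` over `n ≡ a`,
times `φ(q) b ^ (k + 1)`, is at least `1 - (b / (b + δ)) ^ (k + 1)`, `δ` the distance of the
exceptional zero from `1`, less the other zeros, which repulsion and density make small against it.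
Without primes of the class up to `q ^ O(1)` it would be at most `q ^ (- large)`.
-/

set_option autoImplicit false
set_option linter.unusedSectionVars false

noncomputable section

open Complex Finset
open scoped Nat Real Classical ArithmeticFunction.vonMangoldt

namespace FA.LinnikPrime

/-- The abscissa `1 + linnikB` of the kernel. -/
def linnikB : ℝ := min (1 / 1024) (exists_zeta_zone.choose / 2)

theorem linnikB_pos : 0 < linnikB :=
  lt_min (by norm_num) (by linarith [exists_zeta_zone.choose_spec.1])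

theorem linnikB_le : linnikB ≤ 1 / 1024 := min_le_left _ _

variable {q : ℕ} [NeZero q]

/-- The weight of a zero. -/
def zeroWt (k : ℕ) (ρ : ℂ) : ℝ := (linnikB / ‖line linnikB 0 - ρ‖) ^ (k + 1)

theorem zeroWt_nonneg (k : ℕ) (ρ : ℂ) : 0 ≤ zeroWt k ρ := by
  have := linnikB_pos
  rw [zeroWt]; positivity

/-- The sum over one class. -/
def classMom (a : ZMod q) (k : ℕ) : ℝ :=
  ∑' n : ℕ, if a = (n : ZMod q) then coef k linnikB n else 0

theorem summable_class (a : ZMod q) (k : ℕ) :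
    Summable fun n : ℕ => if a = (n : ZMod q) then coef k linnikB n else 0 := by
  refine Summable.of_nonneg_of_le (fun n => ?_) (fun n => ?_) (summable_coef k linnikB_pos)
  · split_ifs <;> [exact coef_nonneg k _ n; exact le_rfl]
  · split_ifs <;> [exact le_rfl; exact coef_nonneg k _ n]

theorem sum_mom_eq {a : ZMod q} (ha : IsUnit a) (k : ℕ) :
    ∑ χ : DirichletCharacter ℂ q, χ a⁻¹ * mom χ k linnikB 0 = (((q.totient : ℕ) * classMom a k : ℝ) : ℂ) := by
  have h1 : HasSum (fun n => ∑ χ : DirichletCharacter ℂ q, χ a⁻¹ * ((coef k linnikB n : ℂ) * chTerm χ 0 n))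
      (∑ χ : DirichletCharacter ℂ q, χ a⁻¹ * mom χ k linnikB 0) :=
    hasSum_sum fun χ _ => (hasSum_mom χ k linnikB_pos 0).mul_left _
  have h2 : (fun n => ∑ χ : DirichletCharacter ℂ q, χ a⁻¹ * ((coef k linnikB n : ℂ) * chTerm χ 0 n)) =
      fun n : ℕ => (((q.totient : ℕ) * (if a = (n : ZMod q) then coef k linnikB n else 0) : ℝ) : ℂ) := by
    funext n
    rw [Finset.sum_congr rfl fun χ _ => show χ a⁻¹ * ((coef k linnikB n : ℂ) * chTerm χ 0 n) =
      (χ a⁻¹ * χ (n : ZMod q)) * (coef k linnikB n : ℂ) by rw [chTerm]; simp; ring, ← Finset.sum_mul,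
      DirichletCharacter.sum_char_inv_mul_char_eq ℂ ha]
    split_ifs <;> simp
  rw [h2] at h1
  have h3 := (((summable_class a k).hasSum).mul_left ((q.totient : ℕ) : ℝ))
  exact h1.unique (Complex.hasSum_ofReal.2 h3)

/-- **The main term less all zeros.** -/
theorem classMom_ge {a : ZMod q} (ha : IsUnit a) (k : ℕ) :
    1 - ∑ χ : DirichletCharacter ℂ q, ((nearList χ).map (zeroWt k)).sum -
        q.totient * (errTerm q k * linnikB ^ (k + 1)) ≤
      q.totient * classMom a k * linnikB ^ (k + 1) := by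
  have hb := linnikB_pos
  have hb8 : linnikB ≤ 1 / 8 := linnikB_le.trans (by norm_num)
  have hbk : 0 < linnikB ^ (k + 1) := by positivity
  have hlow : ∀ χ : DirichletCharacter ℂ q,
      (if χ = 1 then (1 : ℝ) else 0) - ((nearList χ).map (zeroWt k)).sum - errTerm q k * linnikB ^ (k + 1) ≤
        (χ a⁻¹ * mom χ k linnikB 0).re * linnikB ^ (k + 1) := fun χ => by
    have hf := mom_formula χ k hb hb8 (t := 0) (by norm_num)
    rw [ofReal_zero, zero_mul, add_zero] at hf
    have hz := norm_zsum_mul_le χ k hb 0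
    obtain ⟨e, he⟩ : ∃ e, e = mom χ k linnikB 0 - (pol χ * (((linnikB : ℂ)) ^ (k + 1))⁻¹ -
      zsum χ k linnikB 0) := ⟨_, rfl⟩
    rw [← he] at hf
    have hm : χ a⁻¹ * mom χ k linnikB 0 = χ a⁻¹ * (pol χ * (((linnikB : ℂ)) ^ (k + 1))⁻¹) -
        χ a⁻¹ * zsum χ k linnikB 0 + χ a⁻¹ * e := by rw [he]; ring
    have hpol : (χ a⁻¹ * (pol χ * (((linnikB : ℂ)) ^ (k + 1))⁻¹)).re * linnikB ^ (k + 1) =
        if χ = 1 then 1 else 0 := by
      split_ifs with h
      · subst h
        have hu : IsUnit a⁻¹ := IsUnit.of_mul_eq_one a (by rw [mul_comm]; exact ZMod.mul_inv_of_unit a ha)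
        rw [pol_one, MulChar.one_apply hu, one_mul, one_mul, ← ofReal_pow, ← ofReal_inv, ofReal_re,
          inv_mul_cancel₀ hbk.ne']
      · rw [pol_of_ne_one h, zero_mul, mul_zero, zero_re, zero_mul]
    have hn : ∀ z : ℂ, |(χ a⁻¹ * z).re| ≤ ‖z‖ := fun z => (abs_re_le_norm _).trans (by
      rw [norm_mul]; exact mul_le_of_le_one_left (norm_nonneg _) (χ.norm_le_one _))
    have h1 := mul_le_mul_of_nonneg_right ((abs_le.1 (hn (zsum χ k linnikB 0))).2) hbk.le
    have h2 := mul_le_mul_of_nonneg_right ((abs_le.1 (hn e)).1) hbk.le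
    have h3 := mul_le_mul_of_nonneg_right hf hbk.le
    rw [hm, add_re, sub_re, add_mul, sub_mul, hpol]
    have h4 : ((nearList χ).map fun ρ => (linnikB / ‖line linnikB 0 - ρ‖) ^ (k + 1)).sum =
        ((nearList χ).map (zeroWt k)).sum := rfl
    linarith
  have h := Finset.sum_le_sum fun χ (_ : χ ∈ (Finset.univ : Finset (DirichletCharacter ℂ q))) => hlow χ
  rw [Finset.sum_sub_distrib, Finset.sum_sub_distrib, Finset.sum_ite_eq', if_pos (Finset.mem_univ _),
    Finset.sum_const, nsmul_eq_mul, Finset.card_univ, ← Nat.card_eq_fintype_card,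
    DirichletCharacter.card_eq_totient_of_hasEnoughRootsOfUnity, ← Finset.sum_mul, ← Complex.re_sum,
    sum_mom_eq ha, ofReal_re] at h
  exact h

theorem inv_one_add_le {u : ℝ} (hu : 0 ≤ u) (hu1 : u ≤ 1) : (1 + u)⁻¹ ≤ Real.exp (-(u / 2)) := by
  rw [Real.exp_neg]
  refine inv_anti₀ (Real.exp_pos _) ?_
  have h := Real.exp_bound_div_one_sub_of_interval (show 0 ≤ u / 2 by linarith) (by linarith)
  refine h.trans ?_
  rw [div_le_iff₀ (by linarith)]
  nlinarith

/-- A zero near `1` weighs `exp (- k x / 2b)`, one further off at most `(3/4) ^ k`. -/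
theorem zeroWt_le {χ : DirichletCharacter ℂ q} {ρ : ℂ} (hρ : ρ ∈ nearList χ) (k : ℕ) :
    (1 - ρ.re ≤ linnikB ∧ |ρ.im| ≤ linnikB →
      zeroWt k ρ ≤ Real.exp (-(((k : ℝ) + 1) * ((1 - ρ.re) / (2 * linnikB))))) ∧
    (¬(1 - ρ.re ≤ linnikB ∧ |ρ.im| ≤ linnikB) → zeroWt k ρ ≤ (3 / 4 : ℝ) ^ k) := by
  have hb := linnikB_pos
  have h1 := re_lt_one_of_mem hρ
  have hre : (line linnikB 0 - ρ).re = linnikB + (1 - ρ.re) := by rw [sub_re, line_re]; ring
  have hpos : 0 < ‖line linnikB 0 - ρ‖ := hb.trans_le (le_norm_line_sub hρ linnikB 0)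
  refine ⟨fun h => ?_, fun h => ?_⟩
  · have hn : linnikB + (1 - ρ.re) ≤ ‖line linnikB 0 - ρ‖ := hre ▸ re_le_norm _
    refine (pow_le_pow_left₀ (by positivity) (div_le_div_of_nonneg_left hb.le (by linarith) hn) _).trans ?_
    rw [show linnikB / (linnikB + (1 - ρ.re)) = (1 + (1 - ρ.re) / linnikB)⁻¹ by field_simp,
      show -(((k : ℝ) + 1) * ((1 - ρ.re) / (2 * linnikB))) =
        ((k + 1 : ℕ) : ℝ) * -((1 - ρ.re) / linnikB / 2) by push_cast; ring, Real.exp_nat_mul]
    exact pow_le_pow_left₀ (inv_nonneg.2 (add_nonneg zero_le_one (div_nonneg (by linarith) hb.le)))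
      (inv_one_add_le (div_nonneg (by linarith) hb.le) ((div_le_one hb).2 h.1)) _
  · have hn : 2 * linnikB ^ 2 ≤ ‖line linnikB 0 - ρ‖ ^ 2 := by
      rw [← normSq_eq_norm_sq, normSq_apply, hre, sub_im, line_im]
      rcases not_and_or.1 h with h' | h'
      · nlinarith [not_le.1 h']
      · have := not_le.1 h'
        nlinarith [abs_mul_abs_self ρ.im, abs_nonneg ρ.im]
    have hθ : linnikB / ‖line linnikB 0 - ρ‖ ≤ 3 / 4 := by
      rw [div_le_iff₀ hpos]
      nlinarith
    refine (pow_le_pow_left₀ (by positivity) hθ _).trans ?_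
    exact pow_le_pow_of_le_one (by norm_num) (by norm_num) (Nat.le_succ k)

theorem card_eq_sum_ind (R : Multiset ℂ) (p : ℂ → Prop) :
    (R.map fun ρ => if p ρ then (1 : ℝ) else 0).sum = (Multiset.card (R.filter p) : ℝ) := by
  induction R using Multiset.induction_on with
  | empty => simp
  | cons ρ R ih =>
    rw [Multiset.map_cons, Multiset.sum_cons, ih]
    by_cases h : p ρ
    · rw [Multiset.filter_cons_of_pos _ h, Multiset.card_cons, if_pos h]; push_cast; ring
    · rw [Multiset.filter_cons_of_neg _ h, if_neg h, zero_add]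

theorem no_zero_of_trivial {ρ : ℂ} (hρ : ρ ∈ nearList (1 : DirichletCharacter ℂ q)) :
    ¬(1 - ρ.re ≤ linnikB ∧ |ρ.im| ≤ linnikB) := fun h => by
  have hd := exists_zeta_zone.choose_spec.2.2 q ρ (clear_eq_zero_of_mem hρ)
    (h.2.trans (linnikB_le.trans (by norm_num)))
  have hb : linnikB ≤ exists_zeta_zone.choose / 2 := min_le_right _ _
  linarith [exists_zeta_zone.choose_spec.1, h.1]

theorem bucket_le {ν : ℝ} (hν : 0 ≤ ν) {I : ℕ} {x L : ℝ} (hx : 0 ≤ x * L) (hL : 0 < L)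
    (hI : x * L < I) :
    Real.exp (-(ν * (x * L))) ≤
      ∑ i ∈ range I, Real.exp (-(ν * i)) * (if x ≤ ((i : ℝ) + 1) / L then (1 : ℝ) else 0) := by
  refine le_trans ?_ (Finset.single_le_sum (fun i _ => ?_)
    (Finset.mem_range.2 ((Nat.floor_lt hx).2 hI)))
  · rw [if_pos ((le_div_iff₀ hL).2 (Nat.lt_floor_add_one (x * L)).le), mul_one, Real.exp_le_exp]
    linarith [mul_le_mul_of_nonneg_left (Nat.floor_le hx) hν]
  · exact mul_nonneg (Real.exp_pos _).le (by split_ifs <;> norm_num)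

/-- **The zeros other than the exception.** -/
theorem sum_rest_le {Cd : ℝ} (hCd : 1 ≤ Cd)
    (hden : ∀ r : ℝ, 1 ≤ r * lg q →
      ∑ χ ∈ (Finset.univ : Finset (DirichletCharacter ℂ q)).erase 1, (Multiset.card (zset χ r) : ℝ) ≤
        Real.exp (Cd * (r * lg q)))
    {R : DirichletCharacter ℂ q → Multiset ℂ} (hR : ∀ χ, R χ ≤ nearList χ) {D A c M : ℝ} (hD : 0 ≤ D)
    (hc : 0 < c)
    (hrep : ∀ χ, ∀ ρ ∈ R χ, 1 - ρ.re ≤ linnikB → |ρ.im| ≤ linnikB →
      c ≤ (1 - ρ.re) * lg q ∧ Real.exp (-(A * ((1 - ρ.re) * lg q))) ≤ D)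
    (hM₁ : A + 2 * (Cd + 1) ≤ M / (2 * linnikB)) (hM₂ : 2 * (Cd + 4) / c + A ≤ M / (2 * linnikB))
    {k : ℕ} (hk : M * lg q ≤ k) :
    ∑ χ : DirichletCharacter ℂ q, ((R χ).map (zeroWt k)).sum ≤
      D / 8 + q.totient * (2 * (rimC * lg q)) * (3 / 4 : ℝ) ^ k := by
  have hb := linnikB_pos
  have hL := lg_pos q
  obtain ⟨μ, hμ⟩ : ∃ μ, μ = M / (2 * linnikB) - A := ⟨_, rfl⟩
  have hμ1 : 2 * (Cd + 1) ≤ μ := by linarith
  have hμ2 : 2 * (Cd + 4) ≤ μ * c := by
    rw [← div_le_iff₀ hc]; linarith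
  obtain ⟨I, hI⟩ : ∃ I : ℕ, I = ⌊linnikB * lg q⌋₊ + 1 := ⟨_, rfl⟩
  obtain ⟨F, hF⟩ : ∃ F : DirichletCharacter ℂ q → ℝ, F = fun χ => ∑ i ∈ range I,
      Real.exp (-(μ / 2 * i)) * (if χ = 1 then 0 else (Multiset.card (zset χ (((i : ℝ) + 1) / lg q)) : ℝ)) :=
    ⟨_, rfl⟩
  have hD2 : 0 ≤ D * Real.exp (-(μ / 2 * c)) := mul_nonneg hD (Real.exp_pos _).le
  have hstep : ∀ χ, ((R χ).map (zeroWt k)).sum ≤
      D * Real.exp (-(μ / 2 * c)) * F χ + 2 * (rimC * lg q) * (3 / 4 : ℝ) ^ k := fun χ => by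
    obtain ⟨N, hN⟩ : ∃ N : Multiset ℂ, N = (R χ).filter fun ρ => 1 - ρ.re ≤ linnikB ∧ |ρ.im| ≤ linnikB :=
      ⟨_, rfl⟩
    rw [← Multiset.filter_add_not (fun ρ : ℂ => 1 - ρ.re ≤ linnikB ∧ |ρ.im| ≤ linnikB) (R χ),
      Multiset.map_add, Multiset.sum_add, ← hN]
    refine add_le_add ?_ ?_
    · have hpt : ∀ ρ ∈ N, zeroWt k ρ ≤ D * Real.exp (-(μ / 2 * c)) * ∑ i ∈ range I,
          Real.exp (-(μ / 2 * i)) * (if 1 - ρ.re ≤ ((i : ℝ) + 1) / lg q then (1 : ℝ) else 0) := fun ρ hρ => by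
        rw [hN] at hρ
        obtain ⟨hρR, hρb⟩ := Multiset.mem_filter.1 hρ
        have hρn := Multiset.mem_of_le (hR χ) hρR
        obtain ⟨hc1, hc2⟩ := hrep χ ρ hρR hρb.1 hρb.2
        obtain ⟨l, hl⟩ : ∃ l, l = (1 - ρ.re) * lg q := ⟨_, rfl⟩
        rw [← hl] at hc1 hc2
        have hl0 : 0 ≤ l := hc.le.trans hc1
        have hlI : (1 - ρ.re) * lg q < I := by
          rw [hI]; push_cast
          exact lt_of_le_of_lt (mul_le_mul_of_nonneg_right hρb.1 hL.le) (Nat.lt_floor_add_one _)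
        refine ((zeroWt_le hρn k).1 hρb).trans (le_trans ?_ (mul_le_mul_of_nonneg_left
          (bucket_le (by linarith) (hl ▸ hl0) hL hlI) hD2))
        rw [← hl]
        refine le_trans (Real.exp_le_exp.2 (show _ ≤ -((μ + A) * l) from ?_)) ?_
        · rw [neg_le_neg_iff, hμ, sub_add_cancel, hl]
          have := mul_le_mul_of_nonneg_right (show M * lg q ≤ (k : ℝ) + 1 by linarith)
            (show 0 ≤ (1 - ρ.re) / (2 * linnikB) from
              div_nonneg (by linarith [re_lt_one_of_mem hρn]) (by linarith))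
          refine le_trans (le_of_eq ?_) this
          ring
        · rw [show -((μ + A) * l) = -(A * l) + (-(μ / 2 * l) + -(μ / 2 * l)) by ring, Real.exp_add,
            Real.exp_add, mul_assoc D]
          refine mul_le_mul hc2 (mul_le_mul_of_nonneg_right (Real.exp_le_exp.2 ?_) (Real.exp_pos _).le)
            (by positivity) hD
          exact neg_le_neg (mul_le_mul_of_nonneg_left hc1 (by linarith))
      refine (Multiset.sum_map_le_sum_map _ _ hpt).trans ?_
      rw [Multiset.sum_map_mul_left]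
      refine mul_le_mul_of_nonneg_left ?_ hD2
      rw [hF]
      have hswap : ∀ T : Multiset ℂ, (T.map fun ρ => ∑ i ∈ range I, Real.exp (-(μ / 2 * i)) *
          (if 1 - ρ.re ≤ ((i : ℝ) + 1) / lg q then (1 : ℝ) else 0)).sum =
          ∑ i ∈ range I, Real.exp (-(μ / 2 * i)) *
            (T.map fun ρ => if 1 - ρ.re ≤ ((i : ℝ) + 1) / lg q then (1 : ℝ) else 0).sum := fun T => by
        induction T using Multiset.induction_on with
        | empty => simp
        | cons ρ T ih => simp only [Multiset.map_cons, Multiset.sum_cons, ih, mul_add, Finset.sum_add_distrib]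
      rw [hswap]
      refine Finset.sum_le_sum fun i _ => mul_le_mul_of_nonneg_left ?_ (Real.exp_pos _).le
      rw [card_eq_sum_ind]
      split_ifs with h1
      · subst h1
        refine le_of_eq ?_
        rw [Nat.cast_eq_zero, Multiset.card_eq_zero, Multiset.filter_eq_nil]
        intro ρ hρ
        rw [hN] at hρ
        obtain ⟨hρR, hρb⟩ := Multiset.mem_filter.1 hρ
        exact absurd hρb (no_zero_of_trivial (Multiset.mem_of_le (hR 1) hρR))
      · refine Nat.cast_le.2 (Multiset.card_le_card ?_)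
        rw [hN, zset, Multiset.filter_filter]
        refine le_trans (Multiset.filter_le_filter _ (hR χ)) (Multiset.monotone_filter_right _ ?_)
        intro ρ hρ
        exact ⟨by linarith [hρ.1], hρ.2.2.trans (linnikB_le.trans (by norm_num))⟩
    · refine (Multiset.sum_le_card_nsmul _ ((3 / 4 : ℝ) ^ k) fun y hy => ?_).trans ?_
      · obtain ⟨ρ, hρ, rfl⟩ := Multiset.mem_map.1 hy
        obtain ⟨hρR, hρb⟩ := Multiset.mem_filter.1 hρ
        exact (zeroWt_le (Multiset.mem_of_le (hR χ) hρR) k).2 hρb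
      · rw [Multiset.card_map, nsmul_eq_mul]
        refine mul_le_mul_of_nonneg_right (le_trans (Nat.cast_le.2 ?_) (card_nearList_le χ)) (by positivity)
        exact (Multiset.card_le_card (Multiset.filter_le _ _)).trans (Multiset.card_le_card (hR χ))
  refine (Finset.sum_le_sum fun χ _ => hstep χ).trans ?_
  rw [Finset.sum_add_distrib, ← Finset.mul_sum, Finset.sum_const, nsmul_eq_mul, Finset.card_univ,
    ← Nat.card_eq_fintype_card, DirichletCharacter.card_eq_totient_of_hasEnoughRootsOfUnity,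
    mul_assoc ((q.totient : ℕ) : ℝ)]
  refine add_le_add ?_ le_rfl
  have hF2 : ∑ χ, F χ ≤ 2 * Real.exp Cd := by
    simp only [hF]
    rw [Finset.sum_comm]
    refine (Finset.sum_le_sum (g := fun i : ℕ => Real.exp Cd * (1 / 2 : ℝ) ^ i) fun i _ => ?_).trans ?_
    · have hers : ∑ χ : DirichletCharacter ℂ q,
          (if χ = 1 then 0 else (Multiset.card (zset χ (((i : ℝ) + 1) / lg q)) : ℝ)) =
          ∑ χ ∈ (Finset.univ : Finset (DirichletCharacter ℂ q)).erase 1,
            (Multiset.card (zset χ (((i : ℝ) + 1) / lg q)) : ℝ) := by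
        rw [← Finset.add_sum_erase _ _ (Finset.mem_univ (1 : DirichletCharacter ℂ q)), if_pos rfl, zero_add]
        exact Finset.sum_congr rfl fun χ hχ => if_neg (Finset.ne_of_mem_erase hχ)
      rw [← Finset.mul_sum, hers]
      have he : ((i : ℝ) + 1) / lg q * lg q = (i : ℝ) + 1 := div_mul_cancel₀ _ hL.ne'
      have h1 := hden (((i : ℝ) + 1) / lg q) (by rw [he]; linarith [(Nat.cast_nonneg i : (0 : ℝ) ≤ i)])
      rw [he] at h1
      refine (mul_le_mul_of_nonneg_left h1 (Real.exp_pos _).le).trans ?_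
      rw [← Real.exp_add]
      refine le_trans (Real.exp_le_exp.2 (show _ ≤ Cd + (i : ℝ) * (-1) from ?_)) ?_
      · have := mul_le_mul_of_nonneg_right hμ1 (Nat.cast_nonneg i : (0 : ℝ) ≤ i)
        linarith
      · rw [Real.exp_add, Real.exp_nat_mul]
        refine mul_le_mul_of_nonneg_left (pow_le_pow_left₀ (Real.exp_pos _).le ?_ _) (Real.exp_pos _).le
        rw [Real.exp_neg, one_div]
        exact inv_anti₀ two_pos (by linarith [Real.add_one_le_exp (1 : ℝ)])
    · rw [← Finset.mul_sum, mul_comm]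
      refine mul_le_mul_of_nonneg_right ?_ (Real.exp_pos _).le
      have := geom_sum_mul (1 / 2 : ℝ) I
      have h0 : (0 : ℝ) ≤ (1 / 2 : ℝ) ^ I := by positivity
      linarith
  refine (mul_le_mul_of_nonneg_left hF2 hD2).trans ?_
  have h16 : (16 : ℝ) ≤ Real.exp 4 := by
    rw [show (4 : ℝ) = ((4 : ℕ) : ℝ) * 1 by norm_num, Real.exp_nat_mul]
    exact le_trans (by norm_num) (pow_le_pow_left₀ (by norm_num : (0 : ℝ) ≤ 2)
      (by linarith [Real.add_one_le_exp (1 : ℝ)]) 4)
  have h1 : Real.exp (-(μ / 2 * c)) * (16 * Real.exp Cd) ≤ 1 := by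
    refine (mul_le_mul_of_nonneg_left (mul_le_mul_of_nonneg_right h16 (Real.exp_pos _).le)
      (Real.exp_pos _).le).trans ?_
    rw [← Real.exp_add, ← Real.exp_add, Real.exp_le_one_iff]
    linarith
  have := mul_le_mul_of_nonneg_left h1 hD
  linarith

theorem class_eq_natCast_iff {a n : ℕ} : (a : ZMod q) = (n : ZMod q) ↔ n ≡ a [MOD q] := by
  rw [ZMod.natCast_eq_natCast_iff]
  exact ⟨Nat.ModEq.symm, Nat.ModEq.symm⟩

/-- **Without primes of the class the sum is small.** -/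
theorem classMom_le_of_no_prime {a : ℕ} (k : ℕ) {X : ℝ}
    (hno : ∀ p : ℕ, p.Prime → p ≡ a [MOD q] → Real.exp X < p) :
    classMom (a : ZMod q) k * linnikB ^ (k + 1) ≤
      FA.LMO.powC * (4 * linnikB) ^ k + Real.exp (-(X * (linnikB / 2))) * 2 ^ (k + 1) * momC := by
  have hb := linnikB_pos
  have hb' := linnikB_le
  obtain ⟨N, hN⟩ : ∃ N : ℕ, N = ⌊Real.exp X⌋₊ := ⟨_, rfl⟩
  obtain ⟨G, hG⟩ : ∃ G : ℕ → ℝ,
      G = fun n => if n.Prime then 0 else Λ n * (n : ℝ) ^ (-(3 / 4) : ℝ) := ⟨_, rfl⟩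
  have hG0 : ∀ n, 0 ≤ G n := fun n => by
    simp only [hG]
    split_ifs
    · exact le_rfl
    · exact mul_nonneg ArithmeticFunction.vonMangoldt_nonneg (Real.rpow_nonneg (Nat.cast_nonneg n) _)
  have hpt : ∀ n : ℕ, (if (a : ZMod q) = (n : ZMod q) then coef k linnikB n else 0) ≤
      (if n ∈ range (N + 1) then 4 ^ k * G n else 0) +
        Real.exp (-(X * (linnikB / 2))) * coef k (linnikB / 2) n := fun n => by
    have h0 := mul_nonneg (Real.exp_pos (-(X * (linnikB / 2)))).le (coef_nonneg k (linnikB / 2) n)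
    have h1 : 0 ≤ (if n ∈ range (N + 1) then 4 ^ k * G n else 0) := by
      split_ifs
      · exact mul_nonneg (by positivity) (hG0 n)
      · exact le_rfl
    split_ifs with hcl hn
    · refine le_add_of_le_of_nonneg ?_ h0
      have hnp : ¬ n.Prime := fun hp => by
        have h2 := hno n hp (class_eq_natCast_iff.1 hcl)
        have h3 := Nat.lt_succ_iff.1 (Finset.mem_range.1 hn)
        have h4 : (N : ℝ) ≤ Real.exp X := hN ▸ Nat.floor_le (Real.exp_pos X).le
        have h5 : (n : ℝ) ≤ N := Nat.cast_le.2 h3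
        linarith
      simp only [hG, if_neg hnp]
      rw [coef, show (4 : ℝ) ^ k * (Λ n * (n : ℝ) ^ (-(3 / 4) : ℝ)) =
        4 ^ k * (n : ℝ) ^ (-(3 / 4) : ℝ) * Λ n by ring]
      exact mul_le_mul_of_nonneg_right (FA.LMO.wgt_le k hb.le n) ArithmeticFunction.vonMangoldt_nonneg
    · rw [zero_add, coef, coef, ← mul_assoc]
      refine mul_le_mul_of_nonneg_right (FA.LMO.wgt_le_tail k hb.le ?_) ArithmeticFunction.vonMangoldt_nonneg
      rw [Finset.mem_range, not_lt] at hn
      exact (Nat.lt_floor_add_one (Real.exp X)).le.trans (by rw [← hN]; exact_mod_cast hn)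
    · linarith [mul_nonneg (pow_nonneg (by norm_num : (0 : ℝ) ≤ 4) k) (hG0 n)]
    · linarith
  have hfin : HasSum (fun n => if n ∈ range (N + 1) then 4 ^ k * G n else 0)
      (∑ n ∈ range (N + 1), 4 ^ k * G n) := by
    have := hasSum_sum_of_ne_finset_zero (L := SummationFilter.unconditional ℕ)
      (f := fun n => if n ∈ range (N + 1) then 4 ^ k * G n else 0) (s := range (N + 1)) fun n hn => if_neg hn
    rwa [Finset.sum_congr rfl fun n hn => if_pos hn] at this
  have hle := hasSum_le hpt (summable_class (a : ZMod q) k).hasSum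
    (hfin.add ((hasSum_zmom k (half_pos hb)).mul_left _))
  change classMom (a : ZMod q) k ≤ _ at hle
  refine (mul_le_mul_of_nonneg_right hle (by positivity)).trans ?_
  rw [add_mul]
  refine add_le_add ?_ ?_
  · rw [← Finset.mul_sum, mul_pow, pow_succ]
    have hp : ∑ n ∈ range (N + 1), G n ≤ FA.LMO.powC := hG ▸ FA.LMO.sum_nonprime_le N
    refine le_trans (mul_le_mul_of_nonneg_right (mul_le_mul_of_nonneg_left hp (by positivity))
      (by positivity)) ?_
    rw [show (4 : ℝ) ^ k * FA.LMO.powC * (linnikB ^ k * linnikB) =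
      FA.LMO.powC * (4 ^ k * linnikB ^ k) * linnikB by ring]
    exact mul_le_of_le_one_right (mul_nonneg FA.LMO.powC_nonneg (by positivity)) (by linarith)
  · have hm := zmom_le k (half_pos hb) (by linarith)
    rw [show Real.exp (-(X * (linnikB / 2))) * zmom k (linnikB / 2) * linnikB ^ (k + 1) =
      Real.exp (-(X * (linnikB / 2))) * 2 ^ (k + 1) * (zmom k (linnikB / 2) * (linnikB / 2) ^ (k + 1)) by
      rw [show linnikB ^ (k + 1) = 2 ^ (k + 1) * (linnikB / 2) ^ (k + 1) by rw [← mul_pow]; ring_nf]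
      ring]
    exact mul_le_mul_of_nonneg_left hm (by positivity)

/-- The exception: either there is none, or it is this. -/
theorem exists_exception {Ar G : ℝ} (hAr : 1 ≤ Ar) (hG : 1 ≤ G)
    (hrepel : ∀ (χ₁ χ : DirichletCharacter ℂ q), χ₁ ≠ 1 → χ₁ ^ 2 = 1 → ∀ β : ℝ, (β : ℂ) ∈ nearList χ₁ →
      ∀ ρ ∈ nearList χ, (χ ≠ χ₁ ∨ ρ ≠ (β : ℂ)) → |ρ.im| ≤ 1 / 8 → 1 - ρ.re ≤ 1 / 128 →
        (1 - ρ.re) * Real.exp (-(Ar * (1 + (1 - ρ.re) * lg q))) ≤ 1 - β)
    (hfar : ∀ χ : DirichletCharacter ℂ q, χ ≠ 1 → χ ^ 2 = 1 → ∀ β : ℝ,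
      DirichletCharacter.LFunction χ β = 0 → Real.exp (-(G * lg q)) ≤ 1 - β)
    {k : ℕ} (hk : lg q ≤ k) :
    ∃ (R : DirichletCharacter ℂ q → Multiset ℂ) (D η : ℝ), (∀ χ, R χ ≤ nearList χ) ∧
      Real.exp (-(G * lg q)) ≤ D ∧ η ≤ 1 - D / 2 ∧
      ∑ χ : DirichletCharacter ℂ q, ((nearList χ).map (zeroWt k)).sum ≤
        η + ∑ χ : DirichletCharacter ℂ q, ((R χ).map (zeroWt k)).sum ∧
      ∀ χ : DirichletCharacter ℂ q, ∀ ρ ∈ R χ, 1 - ρ.re ≤ linnikB → |ρ.im| ≤ linnikB → zoneC ≤ (1 - ρ.re) * lg q ∧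
        Real.exp (-((Ar + (Ar + |Real.log zoneC|) / zoneC) * ((1 - ρ.re) * lg q))) ≤ D := by
  have hb := linnikB_pos
  have hb' := linnikB_le
  have hL := lg_pos q
  have h4 := four_le_lg q
  have hc := zoneC_pos
  have hA0 : 0 ≤ Ar + (Ar + |Real.log zoneC|) / zoneC := by positivity
  have hG0 : Real.exp (-(G * lg q)) ≤ 1 := Real.exp_le_one_iff.2 (by nlinarith)
  by_cases hex : ∃ (χ₁ : DirichletCharacter ℂ q) (ρ₁ : ℂ), ρ₁ ∈ nearList χ₁ ∧ |ρ₁.im| ≤ 1 / 16 ∧
      1 - ρ₁.re < zoneC / lg q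
  · obtain ⟨χ₁, ρ₁, hρ₁, hi₁, hd₁⟩ := hex
    obtain ⟨h₁, h₁2, him₁⟩ := zone hρ₁ hi₁ hd₁
    obtain ⟨β, hβ⟩ : ∃ β : ℝ, β = ρ₁.re := ⟨_, rfl⟩
    have hρβ : ρ₁ = (β : ℂ) := by apply Complex.ext <;> simp [hβ, him₁]
    rw [← hβ] at hd₁
    rw [hρβ] at hρ₁
    have hδ : 0 < 1 - β := by simpa using re_lt_one_of_mem hρ₁
    refine ⟨fun χ => if χ = χ₁ then (nearList χ).erase (β : ℂ) else nearList χ,
      min 1 ((1 - β) * lg q), zeroWt k (β : ℂ), fun χ => ?_, ?_, ?_, ?_, ?_⟩
    · dsimp only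
      split_ifs
      · exact Multiset.erase_le _ _
      · exact le_rfl
    · refine le_min hG0 ((hfar χ₁ h₁ h₁2 β ?_).trans (le_mul_of_one_le_right hδ.le (by linarith)))
      rw [← clear_of_ne_one h₁]
      exact clear_eq_zero_of_mem hρ₁
    · have hw : zeroWt k (β : ℂ) = (linnikB / (linnikB + (1 - β))) ^ (k + 1) := by
        rw [zeroWt, line, ofReal_zero, zero_mul, add_zero, ← ofReal_sub, norm_real, Real.norm_eq_abs,
          abs_of_nonneg (by linarith)]
        congr 2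
        ring
      rw [hw]
      refine FA.LMO.eta_le hb hδ.le (le_min zero_le_one (mul_nonneg hδ.le hL.le)) (min_le_left _ _) ?_
      refine (mul_le_mul_of_nonneg_right (min_le_right _ _) hb.le).trans ?_
      have := mul_le_mul_of_nonneg_left (show lg q * linnikB ≤ (k : ℝ) + 1 by nlinarith) hδ.le
      linarith
    · refine le_of_eq ?_
      have e : ∀ χ : DirichletCharacter ℂ q, ((nearList χ).map (zeroWt k)).sum =
          (if χ = χ₁ then zeroWt k (β : ℂ) else 0) +
            ((if χ = χ₁ then (nearList χ).erase (β : ℂ) else nearList χ).map (zeroWt k)).sum := fun χ => by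
        split_ifs with h
        · subst h; rw [Multiset.sum_map_erase (f := zeroWt k) hρ₁]
        · rw [zero_add]
      rw [Finset.sum_congr rfl fun χ _ => e χ, Finset.sum_add_distrib, Finset.sum_ite_eq',
        if_pos (Finset.mem_univ _)]
    · intro χ ρ hρ hρb hρi
      dsimp only at hρ
      have hρn : ρ ∈ nearList χ := by
        split_ifs at hρ
        · exact Multiset.mem_of_mem_erase hρ
        · exact hρ
      have hi : |ρ.im| ≤ 1 / 16 := hρi.trans (hb'.trans (by norm_num))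
      have hβi : |(β : ℂ).im| ≤ 1 / 16 := by simp
      have hne : χ ≠ χ₁ ∨ ρ ≠ (β : ℂ) := by
        by_contra hh
        push Not at hh
        obtain ⟨h1, h2⟩ := hh
        rw [if_pos h1, h2, h1] at hρ
        exact (zone_unique hρ₁ hβi (by simpa using hd₁) hρ₁ hβi (by simpa using hd₁)).2.2 hρ
      have hlarge : zoneC ≤ (1 - ρ.re) * lg q := by
        by_contra hlt
        obtain ⟨h1, h2, -⟩ := zone_unique hρn hi ((lt_div_iff₀ hL).2 (not_le.1 hlt)) hρ₁ hβi
          (by simpa using hd₁)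
        rcases hne with h | h
        · exact h h1
        · exact h h2
      refine ⟨hlarge, le_min (Real.exp_le_one_iff.2 (neg_nonpos.2 (mul_nonneg hA0 (hc.le.trans hlarge)))) ?_⟩
      have hr := hrepel χ₁ χ h₁ h₁2 β hρ₁ ρ hρn hne (hρi.trans (hb'.trans (by norm_num)))
        (hρb.trans (hb'.trans (by norm_num)))
      obtain ⟨l, hl⟩ : ∃ l, l = (1 - ρ.re) * lg q := ⟨_, rfl⟩
      rw [← hl] at hlarge hr ⊢
      have h2 : l * Real.exp (-(Ar * (1 + l))) ≤ (1 - β) * lg q := by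
        have := mul_le_mul_of_nonneg_right hr hL.le
        rw [mul_right_comm, ← hl] at this
        exact this
      refine le_trans ?_ ((mul_le_mul_of_nonneg_right hlarge (Real.exp_pos _).le).trans h2)
      rw [← Real.exp_log hc, ← Real.exp_add, Real.exp_le_exp, Real.log_exp, Real.exp_log hc]
      have h3 : Ar + |Real.log zoneC| ≤ (Ar + |Real.log zoneC|) / zoneC * l := by
        rw [div_mul_eq_mul_div, le_div_iff₀ hc]
        exact mul_le_mul_of_nonneg_left hlarge (by positivity)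
      linarith [neg_abs_le (Real.log zoneC)]
  · push Not at hex
    refine ⟨nearList, 1, 0, fun χ => le_rfl, hG0, by norm_num, (zero_add _).ge,
      fun χ ρ hρ _ hρi => ?_⟩
    have hl := (div_le_iff₀ hL).1 (hex χ ρ hρ (hρi.trans (hb'.trans (by norm_num))))
    exact ⟨hl, Real.exp_le_one_iff.2 (neg_nonpos.2 (mul_nonneg hA0 (hc.le.trans hl)))⟩

theorem le_exp_mul_lg (q : ℕ) {X : ℝ} (hX : 0 ≤ X) : X ≤ Real.exp (X * lg q) :=
  (le_mul_of_one_le_right hX (show 1 ≤ lg q by linarith [four_le_lg q])).trans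
    (by linarith [Real.add_one_le_exp (X * lg q)])


/-- The terms not from zeros near `1`. -/
theorem small_terms (q : ℕ) [NeZero q] {M N : ℝ} (hN : 0 ≤ N)
    (hM : 4 * (N + 3 + 14 * rimC + FA.LMO.powC) ≤ M) {k : ℕ} (hk : M * lg q ≤ k) :
    (q.totient : ℝ) * (2 * (rimC * lg q)) * (3 / 4 : ℝ) ^ k ≤ Real.exp (-(N * lg q)) ∧
    (q.totient : ℝ) * (errTerm q k * linnikB ^ (k + 1)) ≤ Real.exp (-(N * lg q)) ∧
    (q.totient : ℝ) * (FA.LMO.powC * (4 * linnikB) ^ k) ≤ Real.exp (-(N * lg q)) := by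
  have hrim := one_le_rimC
  have hpow := FA.LMO.powC_nonneg
  have hb := linnikB_pos
  have hb' := linnikB_le
  have hL := lg_pos q
  have hφ : (q.totient : ℝ) ≤ Real.exp (lg q) :=
    (Nat.cast_le.2 (Nat.totient_le q)).trans (natCast_le_exp_lg q)
  have hll : lg q ≤ Real.exp (lg q) := by linarith [Real.add_one_le_exp (lg q)]
  have hMk := (mul_le_mul_of_nonneg_right hM hL.le).trans hk
  have he1 : Real.exp 1 ≤ 2.72 := by linarith [Real.exp_one_lt_d9]
  have h34 : (3 / 4 : ℝ) ^ k ≤ Real.exp (-(1 / 4 * k)) := by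
    rw [show -(1 / 4 * (k : ℝ)) = (k : ℝ) * -(1 / 4) by ring, Real.exp_nat_mul]
    exact pow_le_pow_left₀ (by norm_num) (by linarith [Real.add_one_le_exp (-(1 / 4) : ℝ)]) k
  have h32 : (32 * linnikB) ^ (k + 1) ≤ Real.exp (-(3 * k)) := by
    refine (pow_le_pow_of_le_one (by positivity) (by linarith) (Nat.le_succ k)).trans ?_
    rw [show -(3 * (k : ℝ)) = (k : ℝ) * -3 by ring, Real.exp_nat_mul, Real.exp_neg]
    refine pow_le_pow_left₀ (by positivity) (le_trans (show 32 * linnikB ≤ (32 : ℝ)⁻¹ by linarith) ?_) k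
    refine inv_anti₀ (Real.exp_pos _) ?_
    rw [show (3 : ℝ) = ((3 : ℕ) : ℝ) * 1 by norm_num, Real.exp_nat_mul]
    exact (pow_le_pow_left₀ (Real.exp_pos _).le he1 3).trans (by norm_num)
  have h4b : (4 * linnikB) ^ k ≤ Real.exp (-(5 * k)) := by
    rw [show -(5 * (k : ℝ)) = (k : ℝ) * -5 by ring, Real.exp_nat_mul, Real.exp_neg]
    refine pow_le_pow_left₀ (by positivity) (le_trans (show 4 * linnikB ≤ (256 : ℝ)⁻¹ by linarith) ?_) k
    refine inv_anti₀ (Real.exp_pos _) ?_
    rw [show (5 : ℝ) = ((5 : ℕ) : ℝ) * 1 by norm_num, Real.exp_nat_mul]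
    exact (pow_le_pow_left₀ (Real.exp_pos _).le he1 5).trans (by norm_num)
  have hk0 : (0 : ℝ) ≤ k := Nat.cast_nonneg k
  have hrl : 0 ≤ rimC * lg q := by positivity
  have hNl : 0 ≤ N * lg q := by positivity
  have hpl : 0 ≤ FA.LMO.powC * lg q := by positivity
  refine ⟨?_, ?_, ?_⟩
  · calc (q.totient : ℝ) * (2 * (rimC * lg q)) * (3 / 4 : ℝ) ^ k
        ≤ Real.exp (lg q) * (Real.exp (2 * rimC * lg q) * Real.exp (lg q)) * Real.exp (-(1 / 4 * k)) := by
          refine mul_le_mul (mul_le_mul hφ ?_ (by positivity) (Real.exp_pos _).le) h34 (by positivity)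
            (by positivity)
          rw [← mul_assoc]
          exact mul_le_mul (le_exp_mul_lg q (by linarith)) hll hL.le (Real.exp_pos _).le
      _ ≤ _ := by
          rw [← Real.exp_add, ← Real.exp_add, ← Real.exp_add, Real.exp_le_exp]
          linarith
  · calc (q.totient : ℝ) * (errTerm q k * linnikB ^ (k + 1))
        = (q.totient : ℝ) * (((k : ℝ) + 1) * (14 * rimC * lg q)) * (32 * linnikB) ^ (k + 1) := by
          rw [errTerm, mul_pow]; ring
      _ ≤ Real.exp (lg q) * (Real.exp k * (Real.exp (14 * rimC * lg q) * Real.exp (lg q))) *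
          Real.exp (-(3 * k)) := by
          refine mul_le_mul (mul_le_mul hφ ?_ (by positivity) (Real.exp_pos _).le) h32 (by positivity)
            (by positivity)
          exact mul_le_mul (Real.add_one_le_exp _) (mul_le_mul (le_exp_mul_lg q (by linarith)) hll hL.le
            (Real.exp_pos _).le) (by positivity) (Real.exp_pos _).le
      _ ≤ _ := by
          simp only [← Real.exp_add, Real.exp_le_exp]
          linarith
  · calc (q.totient : ℝ) * (FA.LMO.powC * (4 * linnikB) ^ k)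
        ≤ Real.exp (lg q) * (Real.exp (FA.LMO.powC * lg q) * Real.exp (-(5 * k))) :=
          mul_le_mul hφ (mul_le_mul (le_exp_mul_lg q hpow) h4b (by positivity) (Real.exp_pos _).le)
            (by positivity) (Real.exp_pos _).le
      _ ≤ _ := by
          rw [← Real.exp_add, ← Real.exp_add, Real.exp_le_exp]
          linarith

/-- The tail beyond `exp (P lg q)`. -/
theorem tail_term (q : ℕ) [NeZero q] {M N P : ℝ} (hP : N + momC + M + 4 ≤ P * (linnikB / 2)) {k : ℕ}
    (hk : (k : ℝ) ≤ (M + 1) * lg q) :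
    (q.totient : ℝ) * (Real.exp (-(P * lg q * (linnikB / 2))) * 2 ^ (k + 1) * momC) ≤
      Real.exp (-(N * lg q)) := by
  have hL := four_le_lg q
  have hφ : (q.totient : ℝ) ≤ Real.exp (lg q) :=
    (Nat.cast_le.2 (Nat.totient_le q)).trans (natCast_le_exp_lg q)
  have hmom : 0 ≤ momC := by linarith [one_le_momC]
  have h2 : (2 : ℝ) ^ (k + 1) ≤ Real.exp ((k : ℝ) + 1) := by
    rw [show ((k : ℝ) + 1) = ((k + 1 : ℕ) : ℝ) * 1 by push_cast; ring, Real.exp_nat_mul]
    exact pow_le_pow_left₀ zero_le_two (by linarith [Real.add_one_le_exp (1 : ℝ)]) _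
  calc (q.totient : ℝ) * (Real.exp (-(P * lg q * (linnikB / 2))) * 2 ^ (k + 1) * momC)
      ≤ Real.exp (lg q) * (Real.exp (-(P * lg q * (linnikB / 2))) * Real.exp ((k : ℝ) + 1) *
          Real.exp (momC * lg q)) := by
        refine mul_le_mul hφ (mul_le_mul (mul_le_mul_of_nonneg_left h2 (Real.exp_pos _).le)
          (le_exp_mul_lg q hmom) hmom (by positivity)) (by positivity) (Real.exp_pos _).le
    _ ≤ _ := by
        simp only [← Real.exp_add, Real.exp_le_exp]
        have h1 := mul_le_mul_of_nonneg_right hP (show 0 ≤ lg q by linarith)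
        linarith

/-- **Linnik's theorem**, with the bound `exp (P (log q + 4))`. -/
theorem exists_prime_le : ∃ P : ℝ, 0 < P ∧ ∀ (q : ℕ) [NeZero q] (a : ℕ), a.Coprime q →
    ∃ p : ℕ, p.Prime ∧ p ≡ a [MOD q] ∧ (p : ℝ) ≤ Real.exp (P * lg q) := by
  obtain ⟨Cd, hCd, hden⟩ := exists_density
  obtain ⟨Ar, hAr, hrep⟩ := exists_repulsion
  obtain ⟨G, hG, hfar⟩ := exists_one_sub_zero_ge
  have hb := linnikB_pos
  have hc := zoneC_pos
  obtain ⟨A, hA⟩ : ∃ A, A = Ar + (Ar + |Real.log zoneC|) / zoneC := ⟨_, rfl⟩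
  have hA0 : 0 ≤ A := by rw [hA]; positivity
  obtain ⟨N, hN⟩ : ∃ N, N = G + 6 := ⟨_, rfl⟩
  obtain ⟨M, hM⟩ : ∃ M, M = max 1 (max (4 * (N + 3 + 14 * rimC + FA.LMO.powC))
      (2 * linnikB * (A + 2 * (Cd + 1) + 2 * (Cd + 4) / zoneC))) := ⟨_, rfl⟩
  have hM1 : 1 ≤ M := hM ▸ le_max_left _ _
  have hM2 : 4 * (N + 3 + 14 * rimC + FA.LMO.powC) ≤ M :=
    hM ▸ (le_max_left _ _).trans (le_max_right _ _)
  have hM3 : A + 2 * (Cd + 1) + 2 * (Cd + 4) / zoneC ≤ M / (2 * linnikB) := by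
    rw [le_div_iff₀ (by positivity), mul_comm]
    exact hM ▸ (le_max_right _ _).trans (le_max_right _ _)
  obtain ⟨P, hP⟩ : ∃ P, P = (N + momC + M + 4) / (linnikB / 2) := ⟨_, rfl⟩
  have hP0 : 0 < P := hP ▸ div_pos (by linarith [one_le_momC]) (by linarith)
  refine ⟨P, hP0, fun q _ a ha => ?_⟩
  by_contra hno
  push Not at hno
  have hL := four_le_lg q
  obtain ⟨k, hk⟩ : ∃ k : ℕ, k = ⌈M * lg q⌉₊ := ⟨_, rfl⟩
  have hk1 : M * lg q ≤ k := hk ▸ Nat.le_ceil _
  have hk2 : (k : ℝ) ≤ (M + 1) * lg q := by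
    have h0 : 0 ≤ M * lg q := mul_nonneg (by linarith) (by linarith)
    have := Nat.ceil_lt_add_one h0
    rw [← hk] at this
    linarith
  have hunit : IsUnit (a : ZMod q) := (ZMod.isUnit_iff_coprime a q).2 ha
  have hkL : lg q ≤ k := le_trans (le_mul_of_one_le_left (by linarith) hM1) hk1
  obtain ⟨R, D, η, hR, hDlow, hη, hsum, hreps⟩ := exists_exception hAr hG (hrep q) (hfar q) hkL
  have hD0 : 0 ≤ D := (Real.exp_pos _).le.trans hDlow
  rw [← hA] at hreps
  have hdiv : 0 ≤ 2 * (Cd + 4) / zoneC := div_nonneg (by linarith) hc.le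
  have hrest := sum_rest_le (M := M) hCd (hden q) hR hD0 hc hreps (by linarith) (by linarith) hk1
  obtain ⟨hs1, hs2, hs3⟩ := small_terms q (show 0 ≤ N by linarith) hM2 hk1
  have hs4 := tail_term q (le_of_eq (by rw [hP, div_mul_cancel₀ _ (by positivity)]) :
    N + momC + M + 4 ≤ P * (linnikB / 2)) hk2
  have hlow := classMom_ge (q := q) hunit k
  have hup := mul_le_mul_of_nonneg_left (classMom_le_of_no_prime (q := q) (a := a) k hno)
    (Nat.cast_nonneg (α := ℝ) q.totient)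
  rw [mul_add, ← mul_assoc ((q.totient : ℕ) : ℝ) (classMom (a : ZMod q) k)] at hup
  have h24 : 16 * Real.exp (-(N * lg q)) ≤ Real.exp (-(G * lg q)) := by
    rw [hN, show -(G * lg q) = -((G + 6) * lg q) + 6 * lg q by ring, Real.exp_add, mul_comm]
    exact mul_le_mul_of_nonneg_left (by linarith [Real.add_one_le_exp (6 * lg q)]) (Real.exp_pos _).le
  have := Real.exp_pos (-(N * lg q))
  linarith

end FA.LinnikPrime

end
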