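import Fermat.Agent.LinnikPrime.Cleared

/-!
# The zeros near `1` of one L-function

One list for each character: all zeros within `1 / 4` of `9 / 8`. For `0 < b ≤ 1 / 8`, `|t| ≤ 1 / 8`
the smoothed sum is the pole less the `(k + 1)`-st inverse powers of `1 + b + it - ρ`, up to
`O (k lg q 32 ^ k)`, and `∑ b ^ 2 / |1 + b + it - ρ| ^ 2 ≤ 2 + O (b lg q)`.
-/

set_option autoImplicit false
set_option linter.unusedSectionVars false

noncomputable section

open Complex Metric Filter Topology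
open FA.DeuringHeilbronn (Divides exists_divides)
open scoped Nat Real ArithmeticFunction.vonMangoldt

namespace FA.LinnikPrime

/-- The point `1 + b + i t`. -/
def line (b t : ℝ) : ℂ := ((1 + b : ℝ) : ℂ) + (t : ℂ) * I

theorem line_re (b t : ℝ) : (line b t).re = 1 + b := by simp [line]

theorem line_im (b t : ℝ) : (line b t).im = t := by simp [line]

/-- The zero-free factor off the centre. -/
theorem norm_iteratedDeriv_logDeriv_off_centre_le {g : ℂ → ℂ} (hg : Differentiable ℂ g) {M : ℝ} (hM : 0 < M)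
    (hne : ∀ z : ℂ, ‖z‖ ≤ 1 / 4 → g z ≠ 0)
    (hb : ∀ z : ℂ, ‖z‖ ≤ 1 / 4 → ‖g z‖ ≤ Real.exp M * ‖g 0‖) {u : ℂ} (hu : ‖u‖ ≤ 3 / 16) (k : ℕ) :
    ‖iteratedDeriv k (logDeriv g) u‖ ≤ (k + 1)! * (14 * M) * 32 ^ (k + 1) := by
  have hin : ∀ z ∈ ball (0 : ℂ) (1 / 4), ‖z‖ ≤ 1 / 4 := fun z hz => (mem_ball_zero_iff.1 hz).le
  obtain ⟨h, hder, hh⟩ := FA.DLVP.norm_log_le (by norm_num : (0 : ℝ) < 1 / 4) hg.differentiableOn
    (fun z hz => hne z (hin z hz)) (Real.one_lt_exp_iff.2 hM) (fun z hz => hb z (hin z hz))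
  rw [Real.log_exp] at hh
  have hu1 : u ∈ ball (0 : ℂ) (1 / 4) := mem_ball_zero_iff.2 (by linarith)
  have hev : deriv h =ᶠ[𝓝 u] logDeriv g := by
    filter_upwards [isOpen_ball.mem_nhds hu1] with z hz
    rw [(hder z hz).deriv, logDeriv_apply]
  rw [← hev.iteratedDeriv_eq k, ← congrFun (iteratedDeriv_succ' (n := k) (f := h)) u]
  have hnorm : ∀ z ∈ closedBall u (1 / 32), ‖z‖ ≤ 7 / 32 := fun z hz => by
    rw [mem_closedBall, dist_eq_norm] at hz
    linarith [norm_le_norm_add_norm_sub' z u]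
  have hsub : closedBall u (1 / 32) ⊆ ball (0 : ℂ) (1 / 4) := fun z hz =>
    mem_ball_zero_iff.2 (by linarith [hnorm z hz])
  refine (norm_iteratedDeriv_le_of_forall_mem_sphere_norm_le (k + 1) (show (0 : ℝ) < 1 / 32 by norm_num)
    ?_ (C := 14 * M) fun z hz => ?_).trans (le_of_eq ?_)
  · refine DifferentiableOn.diffContOnCl ?_
    rw [closure_ball _ (by norm_num : (1 / 32 : ℝ) ≠ 0)]
    exact fun w hw => (hder w (hsub hw)).differentiableAt.differentiableWithinAt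
  · have h3 := hnorm z (sphere_subset_closedBall hz)
    refine (hh z (hsub (sphere_subset_closedBall hz))).trans ?_
    rw [div_le_iff₀ (by linarith)]
    nlinarith
  · rw [one_div, inv_pow, div_inv_eq_mul]

theorem sq_le_of_abs_le {γ a : ℝ} (h : |γ| ≤ a) : γ * γ ≤ a * a := by
  nlinarith [abs_nonneg γ, abs_mul_abs_self γ]

variable {q : ℕ} [NeZero q] (χ : DirichletCharacter ℂ q)

theorem exists_nearList : ∃ S : Multiset ℂ,
    (∀ ρ ∈ S, clear χ ρ = 0 ∧ ‖ρ - 9 / 8‖ ≤ 1 / 4) ∧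
    (∀ ρ, ‖ρ - 9 / 8‖ ≤ 1 / 4 → clear χ ρ = 0 → ρ ∈ S) ∧
    (Multiset.card S : ℝ) ≤ 2 * (rimC * lg q) ∧
    ∀ (k : ℕ) (s : ℂ), ‖s - 9 / 8‖ ≤ 3 / 16 → 1 < s.re →
      ‖iteratedDeriv k (logDeriv (clear χ)) s -
          (-1) ^ k * k ! * (S.map fun ρ => ((s - ρ) ^ (k + 1))⁻¹).sum‖ ≤
        (k + 1)! * (14 * (rimC * lg q)) * 32 ^ (k + 1) := by
  obtain ⟨M, hM⟩ : ∃ M, M = rimC * lg q := ⟨_, rfl⟩
  have hM0 : 0 < M := hM ▸ mul_pos (by linarith [one_le_rimC]) (lg_pos q)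
  have hrim := rim_le χ
  rw [← hM] at hrim ⊢
  have hd : Differentiable ℂ fun z => clear χ (9 / 8 + z) :=
    (differentiable_clear χ).comp (differentiable_id.const_add _)
  have h0 : clear χ (9 / 8 + 0) ≠ 0 := by rw [add_zero]; exact clear_ne_zero χ (by norm_num)
  obtain ⟨T, g, hdv, hT, hg⟩ := exists_divides (f := fun z => clear χ (9 / 8 + z)) hd h0
    (by norm_num : (0 : ℝ) < 1 / 4) hrim
  have hzero : ∀ w ∈ T, clear χ (9 / 8 + w) = 0 := fun w hw => hdv.mem_zero hw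
  refine ⟨T.map fun w => 9 / 8 + w, fun ρ hρ => ?_, fun ρ hρ h => ?_, ?_, fun k s hs hsre => ?_⟩
  · obtain ⟨w, hw, rfl⟩ := Multiset.mem_map.1 hρ
    exact ⟨hzero w hw, by rw [add_sub_cancel_left]; exact hT w hw⟩
  · refine Multiset.mem_map.2 ⟨ρ - 9 / 8, ?_, by ring⟩
    have h1 := hdv.eq (ρ - 9 / 8)
    simp only [add_sub_cancel] at h1
    rw [h] at h1
    obtain ⟨x, hx, he⟩ := Multiset.mem_map.1 (Multiset.prod_eq_zero_iff.1
      ((mul_eq_zero.1 h1.symm).resolve_right (hg _ hρ)))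
    rwa [sub_eq_zero.1 he]
  · rw [Multiset.card_map]
    exact hdv.card_le (by norm_num) hT hrim
  obtain ⟨u, hu⟩ : ∃ u : ℂ, u = s - 9 / 8 := ⟨_, rfl⟩
  have hsu : s = 9 / 8 + u := by rw [hu]; ring
  rw [← hu] at hs
  have hgu : g u ≠ 0 := hg u (by linarith)
  have htr := FA.LMO.divides_translate hdv hgu
  have hne0 : ∀ x ∈ T.map (fun w => w - u), x ≠ 0 := fun x hx h0 => by
    obtain ⟨w, hw, rfl⟩ := Multiset.mem_map.1 hx
    have h1 := re_lt_one_of_clear (hzero w hw)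
    rw [sub_eq_zero.1 h0, ← hsu] at h1
    linarith
  have hi := htr.iteratedDeriv_logDeriv k hne0
  have e1 : (logDeriv fun z => clear χ (9 / 8 + (u + z))) =
      fun z => logDeriv (clear χ) (s + z) := funext fun z => by
    rw [logDeriv_apply, logDeriv_apply, show (fun z => clear χ (9 / 8 + (u + z))) =
      fun z => clear χ (s + z) from funext fun z => by rw [hsu, add_assoc],
      deriv_comp_const_add, hsu, add_assoc]
  have e2 : (logDeriv fun z => g (u + z)) = fun z => logDeriv g (u + z) := funext fun z => by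
    rw [logDeriv_apply, logDeriv_apply, deriv_comp_const_add]
  rw [e1, e2, iteratedDeriv_comp_const_add, iteratedDeriv_comp_const_add] at hi
  simp only [add_zero] at hi
  have hgb := norm_iteratedDeriv_logDeriv_off_centre_le hdv.diff hM0 hg (fun z hz =>
    (le_mul_of_one_le_left (norm_nonneg _) (one_le_pow₀ one_le_two)).trans
      (hdv.two_pow_mul_le (by norm_num) hT hrim (mem_closedBall_zero_iff.2 (by linarith)))) hs k
  have e3 : (T.map fun w => 9 / 8 + w).map (fun ρ => ((s - ρ) ^ (k + 1))⁻¹) =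
      (T.map fun w => w - u).map fun x => ((-x) ^ (k + 1))⁻¹ := by
    rw [Multiset.map_map, Multiset.map_map]
    refine Multiset.map_congr rfl fun w _ => ?_
    simp only [Function.comp_apply, hsu]
    ring_nf
  rw [hi, e3, add_sub_cancel_left]
  exact hgb

/-- The zeros within `1 / 4` of `9 / 8`, with multiplicity. -/
def nearList : Multiset ℂ := (exists_nearList χ).choose

variable {χ}

theorem clear_eq_zero_of_mem {ρ : ℂ} (h : ρ ∈ nearList χ) : clear χ ρ = 0 :=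
  ((exists_nearList χ).choose_spec.1 ρ h).1

theorem norm_sub_le_of_mem {ρ : ℂ} (h : ρ ∈ nearList χ) : ‖ρ - 9 / 8‖ ≤ 1 / 4 :=
  ((exists_nearList χ).choose_spec.1 ρ h).2

theorem re_lt_one_of_mem {ρ : ℂ} (h : ρ ∈ nearList χ) : ρ.re < 1 :=
  re_lt_one_of_clear (clear_eq_zero_of_mem h)

theorem mem_nearList {ρ : ℂ} (h : clear χ ρ = 0) (hre : 15 / 16 ≤ ρ.re) (him : |ρ.im| ≤ 1 / 8) :
    ρ ∈ nearList χ := by
  refine (exists_nearList χ).choose_spec.2.1 ρ ?_ h
  have h1 := re_lt_one_of_clear h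
  have h2 := sq_le_sq.2 (him.trans_eq (abs_of_nonneg (by norm_num : (0 : ℝ) ≤ 1 / 8)).symm)
  rw [Complex.norm_def, Real.sqrt_le_left (by norm_num), normSq_apply, sub_re, sub_im,
    show ((9 : ℂ) / 8).re = 9 / 8 by norm_num, show ((9 : ℂ) / 8).im = 0 by norm_num]
  nlinarith

theorem le_re_line_sub {ρ : ℂ} (h : ρ ∈ nearList χ) (b t : ℝ) : b ≤ (line b t - ρ).re := by
  rw [sub_re, line_re]; linarith [re_lt_one_of_mem h]

theorem le_norm_line_sub {ρ : ℂ} (h : ρ ∈ nearList χ) (b t : ℝ) : b ≤ ‖line b t - ρ‖ :=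
  (le_re_line_sub h b t).trans (re_le_norm _)

variable (χ)

theorem card_nearList_le : (Multiset.card (nearList χ) : ℝ) ≤ 2 * (rimC * lg q) :=
  (exists_nearList χ).choose_spec.2.2.1

/-- The inverse powers over the near zeros. -/
def zsum (k : ℕ) (b t : ℝ) : ℂ := ((nearList χ).map fun ρ => ((line b t - ρ) ^ (k + 1))⁻¹).sum

/-- The error of the formula. -/
def errTerm (q k : ℕ) : ℝ := (k + 1) * (14 * (rimC * lg q)) * 32 ^ (k + 1)

theorem errTerm_nonneg (q k : ℕ) : 0 ≤ errTerm q k := by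
  have := one_le_rimC
  have := lg_pos q
  rw [errTerm]; positivity

/-- **The explicit formula.** -/
theorem mom_formula (k : ℕ) {b : ℝ} (hb : 0 < b) (hb8 : b ≤ 1 / 8) {t : ℝ} (ht : |t| ≤ 1 / 8) :
    ‖mom χ k b t - (pol χ * (((b : ℂ) + (t : ℂ) * I) ^ (k + 1))⁻¹ - zsum χ k b t)‖ ≤ errTerm q k := by
  have hs : ‖line b t - 9 / 8‖ ≤ 3 / 16 := by
    have h2 := sq_le_sq.2 (ht.trans_eq (abs_of_nonneg (by norm_num : (0 : ℝ) ≤ 1 / 8)).symm)
    rw [Complex.norm_def, Real.sqrt_le_left (by norm_num), normSq_apply, sub_re, sub_im, line_re,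
      line_im, show ((9 : ℂ) / 8).re = 9 / 8 by norm_num, show ((9 : ℂ) / 8).im = 0 by norm_num]
    nlinarith
  have h := (exists_nearList χ).choose_spec.2.2.2 k (line b t) hs (by rw [line_re]; linarith)
  change ‖iteratedDeriv k (logDeriv (clear χ)) (line b t) - (-1) ^ k * k ! * zsum χ k b t‖ ≤ _ at h
  rw [line, iteratedDeriv_logDeriv_clear χ k hb t, ← mul_sub, norm_mul, norm_mul, norm_pow, norm_neg,
    norm_one, one_pow, one_mul, RCLike.norm_natCast, Nat.factorial_succ, Nat.cast_mul] at h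
  rw [norm_sub_rev, show zsum χ k b t - (pol χ * (((b : ℂ) + (t : ℂ) * I) ^ (k + 1))⁻¹ - mom χ k b t) =
    mom χ k b t - (pol χ * (((b : ℂ) + (t : ℂ) * I) ^ (k + 1))⁻¹ - zsum χ k b t) by ring] at h
  refine le_of_mul_le_mul_left (h.trans (le_of_eq ?_)) (Nat.cast_pos.2 k.factorial_pos)
  rw [errTerm]
  push_cast
  ring

/-- The real part of the sum of the inverses, over part of the list. -/
theorem re_mom_zero_le {b : ℝ} (hb : 0 < b) (hb8 : b ≤ 1 / 8) {t : ℝ} (ht : |t| ≤ 1 / 8)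
    {T : Multiset ℂ} (hT : T ≤ nearList χ) :
    (mom χ 0 b t).re ≤ (pol χ * ((b : ℂ) + (t : ℂ) * I)⁻¹).re -
      (T.map fun ρ => (line b t - ρ)⁻¹.re).sum + errTerm q 0 := by
  have h := (le_abs_self _).trans ((abs_re_le_norm _).trans (mom_formula χ 0 hb hb8 ht))
  rw [sub_re, sub_re, zero_add, pow_one, zsum] at h
  simp only [zero_add, pow_one] at h
  have hre : ((nearList χ).map fun ρ => (line b t - ρ)⁻¹).sum.re =
      ((nearList χ).map fun ρ => (line b t - ρ)⁻¹.re).sum := by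
    rw [← Complex.reLm_coe, map_multiset_sum, Multiset.map_map]
    rfl
  obtain ⟨U, hU⟩ := Multiset.le_iff_exists_add.1 hT
  have hU0 : 0 ≤ (U.map fun ρ => (line b t - ρ)⁻¹.re).sum := Multiset.sum_nonneg fun x hx => by
    obtain ⟨ρ, hρ, rfl⟩ := Multiset.mem_map.1 hx
    rw [inv_re]
    exact div_nonneg (hb.le.trans (le_re_line_sub (hU ▸ Multiset.mem_add.2 (Or.inr hρ)) b t))
      (normSq_nonneg _)
  rw [hre, hU, Multiset.map_add, Multiset.sum_add] at h
  linarith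

/-- `errTerm` at `k = 0` and modulus `1`. -/
def zetaErr : ℝ := errTerm 1 0

theorem re_inv_nonneg {b : ℝ} (hb : 0 ≤ b) (t : ℝ) : 0 ≤ ((b : ℂ) + (t : ℂ) * I)⁻¹.re := by
  rw [inv_re]; exact div_nonneg (by simpa using hb) (normSq_nonneg _)

theorem re_inv_le {b : ℝ} (hb : 0 < b) (t : ℝ) : ((b : ℂ) + (t : ℂ) * I)⁻¹.re ≤ 1 / b := by
  rw [inv_re, normSq_apply, div_le_div_iff₀ (by simp; nlinarith) hb]
  simp
  nlinarith

theorem re_pol_le {b : ℝ} (hb : 0 < b) (t : ℝ) : (pol χ * ((b : ℂ) + (t : ℂ) * I)⁻¹).re ≤ 1 / b := by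
  by_cases hχ : χ = 1
  · subst hχ; rw [pol_one, one_mul]; exact re_inv_le hb t
  · rw [pol_of_ne_one hχ, zero_mul, zero_re]; positivity

/-- `- ζ' / ζ (1 + b) ≤ 1 / b + O (1)`. -/
theorem zmom_zero_le {b : ℝ} (hb : 0 < b) (hb8 : b ≤ 1 / 8) : zmom 0 b ≤ 1 / b + zetaErr := by
  have h := re_mom_zero_le (1 : DirichletCharacter ℂ 1) hb hb8 (t := 0) (by norm_num) (Multiset.zero_le _)
  rw [mom_one_level, ofReal_re, Multiset.map_zero, Multiset.sum_zero, sub_zero] at h
  exact h.trans (add_le_add (re_pol_le _ hb 0) le_rfl)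

/-- The constant of Landau's bound. -/
def landC : ℝ := 896 * rimC

theorem landC_pos : 0 < landC := by rw [landC]; linarith [one_le_rimC]

theorem errTerm_zero (q : ℕ) : errTerm q 0 = landC / 2 * lg q := by
  rw [errTerm, landC]; push_cast; ring

theorem zetaErr_le (q : ℕ) : zetaErr ≤ landC / 2 * lg q := by
  rw [zetaErr, errTerm_zero, lg, lg, Nat.cast_one, Real.log_one]
  exact mul_le_mul_of_nonneg_left (by linarith [Real.log_natCast_nonneg q]) (by linarith [landC_pos])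

theorem re_mom_ge {b : ℝ} (hb : 0 < b) (hb8 : b ≤ 1 / 8) (t : ℝ) :
    -(1 / b + zetaErr) ≤ (mom χ 0 b t).re := by
  have h := (abs_le.1 ((abs_re_le_norm _).trans (norm_mom_le χ 0 hb t))).1
  linarith [zmom_zero_le hb hb8]

/-- **Landau's bound.** -/
theorem sum_sq_le {b : ℝ} (hb : 0 < b) (hb8 : b ≤ 1 / 8) {t : ℝ} (ht : |t| ≤ 1 / 8) :
    ((nearList χ).map fun ρ => (b / ‖line b t - ρ‖) ^ 2).sum ≤ 2 + landC * lg q * b := by
  have h1 := re_mom_zero_le χ hb hb8 ht le_rfl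
  have h2 := re_mom_ge χ hb hb8 t
  have h3 := re_pol_le χ hb t
  have h4 : ((nearList χ).map fun ρ => (b / ‖line b t - ρ‖) ^ 2).sum ≤
      b * ((nearList χ).map fun ρ => (line b t - ρ)⁻¹.re).sum := by
    rw [← Multiset.sum_map_mul_left]
    refine Multiset.sum_map_le_sum_map _ _ fun ρ hρ => ?_
    rw [inv_re, normSq_eq_norm_sq, div_pow, sq b, mul_div_assoc]
    exact mul_le_mul_of_nonneg_left
      (div_le_div_of_nonneg_right (le_re_line_sub hρ b t) (sq_nonneg _)) hb.le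
  have h5 : b * (1 / b) = 1 := by field_simp
  have h6 : b * ((nearList χ).map fun ρ => (line b t - ρ)⁻¹.re).sum ≤
      b * (1 / b + (1 / b + zetaErr) + errTerm q 0) :=
    mul_le_mul_of_nonneg_left (by linarith) hb.le
  have h7 := mul_le_mul_of_nonneg_left (zetaErr_le q) hb.le
  rw [mul_add, mul_add, mul_add, h5, errTerm_zero] at h6
  linarith

theorem norm_zsum_mul_le (k : ℕ) {b : ℝ} (hb : 0 < b) (t : ℝ) :
    ‖zsum χ k b t‖ * b ^ (k + 1) ≤
      ((nearList χ).map fun ρ => (b / ‖line b t - ρ‖) ^ (k + 1)).sum := by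
  refine (mul_le_mul_of_nonneg_right (norm_multiset_sum_le _) (by positivity)).trans (le_of_eq ?_)
  rw [Multiset.map_map, ← Multiset.sum_map_mul_right]
  refine congrArg Multiset.sum (Multiset.map_congr rfl fun ρ _ => ?_)
  simp only [Function.comp_apply, norm_inv, norm_pow, div_pow]
  ring

theorem sum_pow_le_sum_sq {b : ℝ} (hb : 0 < b) {k : ℕ} (hk : 1 ≤ k) (t : ℝ) :
    ((nearList χ).map fun ρ => (b / ‖line b t - ρ‖) ^ (k + 1)).sum ≤
      ((nearList χ).map fun ρ => (b / ‖line b t - ρ‖) ^ 2).sum :=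
  Multiset.sum_map_le_sum_map _ _ fun ρ hρ =>
    pow_le_pow_of_le_one (div_nonneg hb.le (norm_nonneg _))
      ((div_le_one (hb.trans_le (le_norm_line_sub hρ b t))).2 (le_norm_line_sub hρ b t)) (by omega)

theorem errTerm_mul_le (k : ℕ) {b : ℝ} (hb : 0 ≤ b) (hb' : b ≤ 1 / 128) :
    errTerm q k * b ^ (k + 1) ≤ 14 * (rimC * lg q) := by
  rw [errTerm, mul_assoc, ← mul_pow, mul_comm ((k : ℝ) + 1), mul_assoc]
  have h0 : 0 ≤ 14 * (rimC * lg q) := by
    have := one_le_rimC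
    have := lg_pos q
    positivity
  refine mul_le_of_le_one_right h0 ?_
  have h1 : (32 * b) ^ (k + 1) ≤ (1 / 2 : ℝ) ^ (k + 1) :=
    pow_le_pow_left₀ (by positivity) (by linarith) _
  refine (mul_le_mul_of_nonneg_left h1 (by positivity)).trans ?_
  have h2 : ((k + 1 : ℕ) : ℝ) ≤ (2 : ℝ) ^ (k + 1) := by exact_mod_cast (Nat.lt_two_pow_self).le
  rw [one_div, inv_pow, mul_inv_le_iff₀ (by positivity), one_mul]
  exact_mod_cast h2

/-- The constant of `zmom_le`. -/
def momC : ℝ := 4 + 4 * landC + 56 * rimC + zetaErr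

theorem one_le_momC : 1 ≤ momC := by
  have := errTerm_nonneg 1 0
  rw [momC, zetaErr]
  linarith [landC_pos, one_le_rimC]

/-- **The smoothed sum of `Λ` near `1`.** -/
theorem zmom_le (k : ℕ) {b : ℝ} (hb : 0 < b) (hb' : b ≤ 1 / 128) : zmom k b * b ^ (k + 1) ≤ momC := by
  have hze : 0 ≤ zetaErr := errTerm_nonneg 1 0
  have := landC_pos
  have := one_le_rimC
  rcases Nat.eq_zero_or_pos k with rfl | hk
  · rw [zero_add, pow_one]
    refine (mul_le_mul_of_nonneg_right (zmom_zero_le hb (by linarith)) hb.le).trans ?_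
    rw [add_mul, momC, div_mul_cancel₀ _ hb.ne']
    nlinarith
  have h := mom_formula (1 : DirichletCharacter ℂ 1) k hb (by linarith) (t := 0) (by norm_num)
  rw [mom_one_level, pol_one, one_mul, ofReal_zero, zero_mul, add_zero] at h
  have h1 : zmom k b ≤ (b ^ (k + 1))⁻¹ + ‖zsum (1 : DirichletCharacter ℂ 1) k b 0‖ + errTerm 1 k := by
    have h2 := (le_abs_self _).trans ((abs_re_le_norm _).trans h)
    rw [sub_re, sub_re, ofReal_re, ← ofReal_pow, ← ofReal_inv, ofReal_re] at h2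
    linarith [abs_le.1 (abs_re_le_norm (zsum (1 : DirichletCharacter ℂ 1) k b 0))]
  refine (mul_le_mul_of_nonneg_right h1 (by positivity)).trans ?_
  rw [add_mul, add_mul, inv_mul_cancel₀ (by positivity)]
  have h3 := (norm_zsum_mul_le (1 : DirichletCharacter ℂ 1) k hb 0).trans
    ((sum_pow_le_sum_sq _ hb hk 0).trans (sum_sq_le _ hb (by linarith) (by norm_num)))
  have h4 := errTerm_mul_le (q := 1) k hb.le hb'
  rw [momC]
  simp only [lg, Nat.cast_one, Real.log_one, zero_add] at h3 h4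
  nlinarith

end FA.LinnikPrime

end
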