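import Mathlib.Algebra.Group.ForwardDiff
import Mathlib.Analysis.Complex.CauchyIntegral
import Mathlib.Analysis.Complex.ExponentialBounds
import Mathlib.Algebra.Polynomial.BigOperators

/-!
# The second main theorem of Turán, in a cheap form

If `n` complex numbers have largest absolute value `|a|`, then among any `n` consecutive exponents
`j ≥ m` one has `|∑ z ^ j| ≥ |a| ^ j / (2 ^ m 88 ^ n)`. Proof: on a circle `|u| = ρ`, `1 ≤ ρ ≤ 2`,
where `∏ |1 - z u| ≥ 22 ^ (- n)`, the series `∑ z ^ m / (1 - z u)` is small, while the integral of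
it times `u ^ (m - 1)` counts the `z` outside the radius `1 / ρ`.
-/

set_option autoImplicit false
set_option linter.unusedSectionVars false

noncomputable section

open Complex Finset Metric
open scoped Real Nat fwdDiff

namespace FA.LinnikPrime

/-- Somewhere on `[1, 2]` a monic polynomial of degree `n` with real roots is at least `22 ^ (- n)`. -/
theorem exists_radius (S : Multiset ℂ) :
    ∃ ρ : ℝ, 1 ≤ ρ ∧ ρ ≤ 2 ∧
      ((22 : ℝ) ^ Multiset.card S)⁻¹ ≤ (S.map fun z => |1 - ‖z‖ * ρ|).prod := by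
  obtain ⟨n, hn⟩ : ∃ n, n = Multiset.card S := ⟨_, rfl⟩
  rw [← hn]
  rcases Nat.eq_zero_or_pos n with h0 | hpos
  · refine ⟨1, le_rfl, one_le_two, ?_⟩
    rw [h0] at hn
    rw [Multiset.card_eq_zero.1 hn.symm, h0]
    simp
  obtain ⟨w, hw⟩ : ∃ w : ℂ → ℝ, w = fun z => if 1 / 4 ≤ ‖z‖ then ‖z‖⁻¹ else 0 := ⟨_, rfl⟩
  obtain ⟨P, hP⟩ : ∃ P : Polynomial ℝ,
      P = ((S.map fun z => (n : ℝ) * w z - n).map fun r => Polynomial.X - Polynomial.C r).prod :=
    ⟨_, rfl⟩
  have hdeg : P.natDegree = n := by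
    rw [hP, Polynomial.natDegree_multiset_prod_X_sub_C_eq_card, Multiset.card_map, hn]
  have hlead : P.leadingCoeff = 1 := by
    rw [hP]
    exact (Polynomial.monic_multiset_prod_of_monic _ _ fun r _ => Polynomial.monic_X_sub_C r).leadingCoeff
  have hfd := congrFun P.fwdDiff_iter_degree_eq_factorial 0
  rw [hdeg, hlead, fwdDiff_iter_eq_sum_shift, one_smul, Pi.natCast_apply] at hfd
  obtain ⟨k, hk, hkmax⟩ := Finset.exists_max_image (range (n + 1)) (fun k => |P.eval (k : ℝ)|)
    ⟨0, by simp⟩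
  have hbig : (n ! : ℝ) ≤ 2 ^ n * |P.eval (k : ℝ)| := by
    rw [← hfd]
    refine (le_abs_self _).trans ((Finset.abs_sum_le_sum_abs _ _).trans ?_)
    refine (Finset.sum_le_sum (g := fun i => (n.choose i : ℝ) * |P.eval (k : ℝ)|) fun i hi => ?_).trans
      (le_of_eq ?_)
    · rw [zero_add, nsmul_eq_mul, mul_one, zsmul_eq_mul, abs_mul]
      push_cast
      rw [abs_mul, abs_pow, abs_neg, abs_one, one_pow, one_mul, Nat.abs_cast]
      exact mul_le_mul_of_nonneg_left (hkmax i hi) (Nat.cast_nonneg _)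
    · rw [← Finset.sum_mul, ← Nat.cast_sum, Nat.sum_range_choose]
      push_cast
      ring
  have hn0 : (0 : ℝ) < n := Nat.cast_pos.2 hpos
  have hkn : (k : ℝ) ≤ n := Nat.cast_le.2 (Nat.lt_succ_iff.1 (Finset.mem_range.1 hk))
  obtain ⟨ρ, hρ⟩ : ∃ ρ : ℝ, ρ = 1 + k / n := ⟨_, rfl⟩
  have hρ1 : 1 ≤ ρ := by rw [hρ]; exact le_add_of_nonneg_right (by positivity)
  have hρ2 : ρ ≤ 2 := by
    have := (div_le_one hn0).2 hkn
    rw [hρ]; linarith
  refine ⟨ρ, hρ1, hρ2, ?_⟩
  have hfac : ∀ z ∈ S, |(k : ℝ) - ((n : ℝ) * w z - n)| ≤ 4 * n * |1 - ‖z‖ * ρ| := fun z hz => by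
    have e : (k : ℝ) - ((n : ℝ) * w z - n) = n * (ρ - w z) := by rw [hρ]; field_simp; ring
    rw [e, abs_mul, Nat.abs_cast, show 4 * (n : ℝ) * |1 - ‖z‖ * ρ| = n * (4 * |1 - ‖z‖ * ρ|) by ring]
    refine mul_le_mul_of_nonneg_left ?_ (Nat.cast_nonneg n)
    simp only [hw]
    split_ifs with h4
    · have hz0 : 0 < ‖z‖ := by linarith
      rw [show ρ - ‖z‖⁻¹ = -(1 - ‖z‖ * ρ) / ‖z‖ by field_simp; ring, abs_div, abs_neg, abs_norm,
        div_le_iff₀ hz0]
      nlinarith [abs_nonneg (1 - ‖z‖ * ρ)]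
    · have h1 : ‖z‖ * ρ ≤ 1 / 2 := by nlinarith [norm_nonneg z]
      rw [sub_zero, abs_of_nonneg (by linarith : 0 ≤ ρ), abs_of_nonneg (by linarith)]
      linarith
  have heval : |P.eval (k : ℝ)| ≤ (4 * n) ^ n * (S.map fun z => |1 - ‖z‖ * ρ|).prod := by
    have habs : ∀ T : Multiset ℂ, (∀ z ∈ T, z ∈ S) →
        |(T.map fun z => (k : ℝ) - ((n : ℝ) * w z - n)).prod| ≤
          (4 * (n : ℝ)) ^ Multiset.card T * (T.map fun z => |1 - ‖z‖ * ρ|).prod := fun T => by
      induction T using Multiset.induction_on with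
      | empty => simp
      | cons z T ih =>
        intro hT
        rw [Multiset.map_cons, Multiset.map_cons, Multiset.prod_cons, Multiset.prod_cons,
          Multiset.card_cons, abs_mul, pow_succ]
        refine (mul_le_mul (hfac z (hT z (Multiset.mem_cons_self z T)))
          (ih fun y hy => hT y (Multiset.mem_cons_of_mem hy)) (abs_nonneg _) (by positivity)).trans
          (le_of_eq ?_)
        ring
    have h := habs S fun z hz => hz
    rw [← hn] at h
    refine le_trans (le_of_eq ?_) h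
    rw [hP, Polynomial.eval_multiset_prod, Multiset.map_map, Multiset.map_map]
    congr 2
    exact Multiset.map_congr rfl fun z _ => by simp
  have hstir : (n : ℝ) ^ n ≤ Real.exp n * n ! := by
    have := Real.pow_div_factorial_le_exp (x := (n : ℝ)) hn0.le n
    rwa [div_le_iff₀ (Nat.cast_pos.2 n.factorial_pos)] at this
  have h22 : Real.exp n * 8 ^ n ≤ (22 : ℝ) ^ n := by
    rw [show Real.exp n = Real.exp 1 ^ n by rw [← Real.exp_nat_mul, mul_one], ← mul_pow]
    exact pow_le_pow_left₀ (by positivity) (by linarith [Real.exp_one_lt_d9]) n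
  rw [inv_le_iff_one_le_mul₀ (by positivity)]
  obtain ⟨prodB, hprodB⟩ : ∃ p, p = (S.map fun z => |1 - ‖z‖ * ρ|).prod := ⟨_, rfl⟩
  rw [← hprodB] at heval ⊢
  have hp0 : 0 ≤ prodB := hprodB ▸ Multiset.prod_nonneg fun x hx => by
    obtain ⟨z, -, rfl⟩ := Multiset.mem_map.1 hx
    exact abs_nonneg _
  have hfacpos : (0 : ℝ) < n ! := Nat.cast_pos.2 n.factorial_pos
  refine le_of_mul_le_mul_left ?_ hfacpos
  calc (n ! : ℝ) * 1 ≤ 2 ^ n * ((4 * n) ^ n * prodB) := by
        rw [mul_one]; exact hbig.trans (mul_le_mul_of_nonneg_left heval (by positivity))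
    _ = (8 : ℝ) ^ n * ((n : ℝ) ^ n * prodB) := by
        rw [mul_pow, show (8 : ℝ) ^ n = 2 ^ n * 4 ^ n by rw [← mul_pow]; norm_num]; ring
    _ ≤ 8 ^ n * (Real.exp n * n ! * prodB) := by gcongr
    _ = (n ! : ℝ) * (prodB * (Real.exp n * 8 ^ n)) := by ring
    _ ≤ _ := by gcongr

/-- `∏ (1 - z X)`. -/
def revProd (S : Multiset ℂ) : Polynomial ℂ :=
  (S.map fun z => 1 - Polynomial.C z * Polynomial.X).prod

theorem revProd_cons (z : ℂ) (S : Multiset ℂ) :
    revProd (z ::ₘ S) = revProd S - Polynomial.C z * (Polynomial.X * revProd S) := by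
  rw [revProd, Multiset.map_cons, Multiset.prod_cons, ← revProd]
  ring

theorem eval_revProd (S : Multiset ℂ) (u : ℂ) :
    (revProd S).eval u = (S.map fun z => 1 - z * u).prod := by
  rw [revProd, Polynomial.eval_multiset_prod, Multiset.map_map]
  simp

theorem natDegree_revProd_le (S : Multiset ℂ) : (revProd S).natDegree ≤ Multiset.card S := by
  induction S using Multiset.induction_on with
  | empty => simp [revProd]
  | cons z S ih =>
    rw [revProd_cons, Multiset.card_cons]
    refine (Polynomial.natDegree_sub_le _ _).trans (max_le (ih.trans (Nat.le_succ _)) ?_)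
    refine Polynomial.natDegree_C_mul_le _ _ |>.trans ?_
    exact Polynomial.natDegree_mul_le.trans (by rw [Polynomial.natDegree_X]; omega)

theorem coeff_revProd_cons (z : ℂ) (S : Multiset ℂ) (j : ℕ) :
    ∑ l ∈ range (j + 1), (revProd (z ::ₘ S)).coeff l * z ^ (j - l) = (revProd S).coeff j := by
  induction j with
  | zero => simp [revProd_cons]
  | succ j ih =>
    rw [Finset.sum_range_succ, Nat.sub_self, pow_zero, mul_one,
      Finset.sum_congr rfl fun l hl => show (revProd (z ::ₘ S)).coeff l * z ^ (j + 1 - l) =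
        (revProd (z ::ₘ S)).coeff l * z ^ (j - l) * z by
          rw [show j + 1 - l = j - l + 1 by have := Finset.mem_range.1 hl; omega, pow_succ, mul_assoc],
      ← Finset.sum_mul, ih, revProd_cons, Polynomial.coeff_sub, Polynomial.coeff_C_mul,
      Polynomial.coeff_X_mul]
    ring

theorem sum_norm_coeff_revProd_le (S : Multiset ℂ) (hmax : ∀ z ∈ S, ‖z‖ ≤ 1) :
    ∀ N : ℕ, ∑ l ∈ range N, ‖(revProd S).coeff l‖ ≤ 2 ^ Multiset.card S := by
  induction S using Multiset.induction_on with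
  | empty =>
    intro N
    simp only [revProd, Multiset.map_zero, Multiset.prod_zero, Multiset.card_zero, pow_zero,
      Polynomial.coeff_one, apply_ite norm, norm_one, norm_zero, Finset.sum_ite_eq']
    split_ifs <;> norm_num
  | cons z S ih =>
    intro N
    have hS := ih fun y hy => hmax y (Multiset.mem_cons_of_mem hy)
    have h1 : ∑ l ∈ range N, ‖(Polynomial.X * revProd S).coeff l‖ ≤ 2 ^ Multiset.card S := by
      rcases N with _ | M
      · simp
      rw [Finset.sum_range_succ']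
      simpa [Polynomial.coeff_X_mul] using hS M
    rw [Multiset.card_cons, pow_succ', two_mul]
    refine le_trans (Finset.sum_le_sum fun l _ => ?_) (le_trans (le_of_eq Finset.sum_add_distrib)
      (add_le_add (hS N) h1))
    rw [revProd_cons, Polynomial.coeff_sub, Polynomial.coeff_C_mul]
    refine (norm_sub_le _ _).trans (add_le_add le_rfl ?_)
    rw [norm_mul]
    exact mul_le_of_le_one_left (norm_nonneg _) (hmax z (Multiset.mem_cons_self z S))

/-- The series `∑ z ^ m / (1 - z u)`. -/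
def shiftSeries (S : Multiset ℂ) (m : ℕ) (u : ℂ) : ℂ := (S.map fun z => z ^ m / (1 - z * u)).sum

theorem shiftSeries_mul_eq (S : Multiset ℂ) (m : ℕ) {u : ℂ} (hne : ∀ z ∈ S, 1 - z * u ≠ 0) :
    shiftSeries S m u * (revProd S).eval u = ∑ j ∈ range (Multiset.card S),
      u ^ j * ∑ l ∈ range (j + 1), (revProd S).coeff l * (S.map fun z => z ^ (m + (j - l))).sum := by
  have key : ∀ z ∈ S, z ^ m / (1 - z * u) * (revProd S).eval u = ∑ j ∈ range (Multiset.card S),
      u ^ j * ∑ l ∈ range (j + 1), (revProd S).coeff l * z ^ (m + (j - l)) := fun z hz => by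
    obtain ⟨S', rfl⟩ := Multiset.exists_cons_of_mem hz
    rw [eval_revProd, Multiset.map_cons, Multiset.prod_cons, ← eval_revProd, ← mul_assoc,
      div_mul_cancel₀ _ (hne z hz),
      Polynomial.eval_eq_sum_range' (Nat.lt_succ_iff.2 (natDegree_revProd_le S')), Multiset.card_cons,
      Finset.mul_sum]
    refine Finset.sum_congr rfl fun j _ => ?_
    rw [← coeff_revProd_cons z S' j, Finset.sum_mul, Finset.mul_sum, Finset.mul_sum]
    refine Finset.sum_congr rfl fun l _ => ?_
    rw [pow_add]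
    ring
  rw [shiftSeries, ← Multiset.sum_map_mul_right, Multiset.map_congr rfl key]
  have hswap : ∀ T : Multiset ℂ, (T.map fun z => ∑ j ∈ range (Multiset.card S),
      u ^ j * ∑ l ∈ range (j + 1), (revProd S).coeff l * z ^ (m + (j - l))).sum =
    ∑ j ∈ range (Multiset.card S), u ^ j * ∑ l ∈ range (j + 1),
      (revProd S).coeff l * (T.map fun z => z ^ (m + (j - l))).sum := fun T => by
    induction T using Multiset.induction_on with
    | empty => simp
    | cons z T ih =>
      simp only [Multiset.map_cons, Multiset.sum_cons, ih, mul_add, Finset.sum_add_distrib]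
  exact hswap S

theorem circleIntegral_term {z : ℂ} (m : ℕ) {ρ : ℝ} (hρ : 0 < ρ) :
    (1 < ‖z‖ * ρ → (∮ u in C(0, ρ), u ^ m * (z ^ (m + 1) / (1 - z * u))) = -(2 * π * I)) ∧
    (‖z‖ * ρ < 1 → (∮ u in C(0, ρ), u ^ m * (z ^ (m + 1) / (1 - z * u))) = 0) := by
  refine ⟨fun h => ?_, fun h => ?_⟩
  · have hz : z ≠ 0 := fun h0 => by rw [h0, norm_zero, zero_mul] at h; linarith
    have hin : z⁻¹ ∈ ball (0 : ℂ) ρ := by
      rw [mem_ball_zero_iff, norm_inv, inv_lt_iff_one_lt_mul₀ (norm_pos_iff.2 hz)]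
      linarith
    have hd : DiffContOnCl ℂ (fun u : ℂ => -(z ^ m * u ^ m)) (ball (0 : ℂ) ρ) :=
      (by fun_prop : Differentiable ℂ fun u : ℂ => -(z ^ m * u ^ m)).diffContOnCl
    have hc := hd.circleIntegral_sub_inv_smul hin
    rw [smul_eq_mul, ← mul_pow, mul_inv_cancel₀ hz, one_pow, mul_neg, mul_one] at hc
    rw [← hc]
    refine circleIntegral.integral_congr hρ.le fun u hu => ?_
    have hune : u ≠ z⁻¹ := fun he => by
      rw [mem_sphere_zero_iff_norm, he] at hu
      rw [mem_ball_zero_iff, hu] at hin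
      exact lt_irrefl _ hin
    have h2 : 1 - z * u = -z * (u - z⁻¹) := by field_simp; ring
    have h3 := sub_ne_zero.2 hune
    show _ = (u - z⁻¹)⁻¹ • _
    rw [smul_eq_mul, h2]
    field_simp
    ring
  · refine DiffContOnCl.circleIntegral_eq_zero hρ.le ?_
    refine DifferentiableOn.diffContOnCl fun u hu => ?_
    rw [closure_ball _ hρ.ne', mem_closedBall_zero_iff] at hu
    have hne : 1 - z * u ≠ 0 := fun he => by
      have := congrArg norm (sub_eq_zero.1 he)
      rw [norm_one, norm_mul] at this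
      nlinarith [mul_le_mul_of_nonneg_left hu (norm_nonneg z)]
    have hd1 : DifferentiableAt ℂ (fun v : ℂ => v ^ m * (z ^ (m + 1) / (1 - z * v))) u := by
      fun_prop (disch := exact hne)
    exact hd1.differentiableWithinAt

/-- **The second main theorem, normalised.** -/
theorem exists_norm_powSum_ge_shift_one (S : Multiset ℂ) {a : ℂ} (ha : a ∈ S) (ha1 : ‖a‖ = 1)
    (hmax : ∀ z ∈ S, ‖z‖ ≤ 1) (m : ℕ) :
    ∃ j : ℕ, m + 1 ≤ j ∧ j ≤ m + Multiset.card S ∧
      ((2 : ℝ) ^ (m + 1) * 88 ^ Multiset.card S)⁻¹ ≤ ‖(S.map fun z => z ^ j).sum‖ := by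
  obtain ⟨n, hn⟩ : ∃ n, n = Multiset.card S := ⟨_, rfl⟩
  rw [← hn]
  have hn1 : 1 ≤ n := hn ▸ Multiset.card_pos.2 fun h => by rw [h] at ha; exact absurd ha (Multiset.notMem_zero a)
  obtain ⟨ρ, hρ1, hρ2, hρ⟩ := exists_radius S
  rw [← hn] at hρ
  have hpos : 0 < (S.map fun z => |1 - ‖z‖ * ρ|).prod := lt_of_lt_of_le (by positivity) hρ
  have hne : ∀ z ∈ S, ‖z‖ * ρ ≠ 1 := fun z hz h =>
    hpos.ne' (Multiset.prod_eq_zero (Multiset.mem_map.2 ⟨z, hz, by rw [h, sub_self, abs_zero]⟩))
  have haρ : 1 < ‖a‖ * ρ := lt_of_le_of_ne (by rwa [ha1, one_mul]) (hne a ha).symm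
  have hden : ∀ z ∈ S, ∀ u : ℂ, ‖u‖ = ρ → |1 - ‖z‖ * ρ| ≤ ‖1 - z * u‖ := fun z _ u hu => by
    have := abs_norm_sub_norm_le (1 : ℂ) (z * u)
    rwa [norm_one, norm_mul, hu] at this
  have hden0 : ∀ u : ℂ, ‖u‖ = ρ → ∀ z ∈ S, 1 - z * u ≠ 0 := fun u hu z hz he => by
    have := hden z hz u hu
    rw [he, norm_zero] at this
    exact hne z hz (by linarith [abs_eq_zero.1 (le_antisymm this (abs_nonneg _))])
  obtain ⟨j, hj, hjmax⟩ := Finset.exists_max_image (Finset.Icc (m + 1) (m + n))
    (fun j => ‖(S.map fun z => z ^ j).sum‖) ⟨m + 1, Finset.mem_Icc.2 ⟨le_rfl, by omega⟩⟩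
  refine ⟨j, (Finset.mem_Icc.1 hj).1, (Finset.mem_Icc.1 hj).2, ?_⟩
  obtain ⟨V, hV⟩ : ∃ V, V = ‖(S.map fun z => z ^ j).sum‖ := ⟨_, rfl⟩
  rw [← hV] at hjmax ⊢
  have hV0 : 0 ≤ V := hV ▸ norm_nonneg _
  have hρ0 : 0 < ρ := by linarith
  -- the series is small on the circle
  have hsmall : ∀ u ∈ sphere (0 : ℂ) ρ, ‖u ^ m * shiftSeries S (m + 1) u‖ ≤ ρ ^ m * (88 ^ n * V) := by
    intro u hu
    rw [mem_sphere_zero_iff_norm] at hu
    rw [norm_mul, norm_pow, hu]
    refine mul_le_mul_of_nonneg_left ?_ (by positivity)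
    have hQ : ((22 : ℝ) ^ n)⁻¹ ≤ ‖(revProd S).eval u‖ := by
      refine hρ.trans ?_
      rw [eval_revProd]
      have : ∀ T : Multiset ℂ, (∀ z ∈ T, z ∈ S) → (T.map fun z => |1 - ‖z‖ * ρ|).prod ≤
          ‖(T.map fun z => 1 - z * u).prod‖ := fun T => by
        induction T using Multiset.induction_on with
        | empty => simp
        | cons z T ih =>
          intro hT
          rw [Multiset.map_cons, Multiset.map_cons, Multiset.prod_cons, Multiset.prod_cons, norm_mul]
          refine mul_le_mul (hden z (hT z (Multiset.mem_cons_self z T)) u hu)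
            (ih fun y hy => hT y (Multiset.mem_cons_of_mem hy))
            (Multiset.prod_nonneg fun x hx => ?_) (norm_nonneg _)
          obtain ⟨w, -, rfl⟩ := Multiset.mem_map.1 hx
          exact abs_nonneg _
      exact this S fun z hz => hz
    have hR : ‖shiftSeries S (m + 1) u * (revProd S).eval u‖ ≤ 4 ^ n * V := by
      rw [shiftSeries_mul_eq S (m + 1) (hden0 u hu), ← hn]
      refine (norm_sum_le _ _).trans ((Finset.sum_le_sum (g := fun i => (2 : ℝ) ^ i * (2 ^ n * V))
        fun i hi => ?_).trans ?_)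
      · rw [norm_mul, norm_pow, hu]
        refine mul_le_mul (pow_le_pow_left₀ hρ0.le hρ2 i) ?_ (norm_nonneg _) (by positivity)
        refine (norm_sum_le _ _).trans ((Finset.sum_le_sum
          (g := fun l => ‖(revProd S).coeff l‖ * V) fun l hl => ?_).trans ?_)
        · rw [norm_mul]
          refine mul_le_mul_of_nonneg_left (hjmax _ (Finset.mem_Icc.2 ?_)) (norm_nonneg _)
          have := Finset.mem_range.1 hi
          omega
        · rw [← Finset.sum_mul]
          refine mul_le_mul_of_nonneg_right ?_ hV0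
          rw [hn]
          exact sum_norm_coeff_revProd_le S hmax _
      · rw [← Finset.sum_mul, show (4 : ℝ) ^ n = 2 ^ n * 2 ^ n by rw [← mul_pow]; norm_num, mul_assoc]
        refine mul_le_mul_of_nonneg_right ?_ (by positivity)
        have hg := geom_sum_mul (2 : ℝ) n
        norm_num at hg
        linarith
    rw [norm_mul] at hR
    have h1 := mul_le_mul_of_nonneg_left hQ (norm_nonneg (shiftSeries S (m + 1) u))
    have h2 := h1.trans hR
    rw [mul_inv_le_iff₀ (by positivity)] at h2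
    refine h2.trans (le_of_eq ?_)
    rw [show (88 : ℝ) ^ n = 4 ^ n * 22 ^ n by rw [← mul_pow]; norm_num]
    ring
  -- the integral counts
  have hint : ∀ T : Multiset ℂ, (∀ z ∈ T, z ∈ S) →
      CircleIntegrable (fun u => u ^ m * shiftSeries T (m + 1) u) 0 ρ ∧
      (∮ u in C(0, ρ), u ^ m * shiftSeries T (m + 1) u) =
        -(2 * π * I) * (Multiset.card (T.filter fun z => 1 < ‖z‖ * ρ) : ℂ) := fun T => by
    induction T using Multiset.induction_on with
    | empty =>
      intro _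
      simp only [shiftSeries, Multiset.map_zero, Multiset.sum_zero, mul_zero]
      refine ⟨circleIntegrable_const _ _ _, ?_⟩
      simp [circleIntegral]
    | cons z T ih =>
      intro hT
      obtain ⟨hi, he⟩ := ih fun y hy => hT y (Multiset.mem_cons_of_mem hy)
      have hzS := hT z (Multiset.mem_cons_self z T)
      have hz : CircleIntegrable (fun u => u ^ m * (z ^ (m + 1) / (1 - z * u))) 0 ρ := by
        refine ContinuousOn.circleIntegrable hρ0.le ?_
        refine (continuous_pow m).continuousOn.mul (continuousOn_const.div (by fun_prop) fun u hu => ?_)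
        exact hden0 u (mem_sphere_zero_iff_norm.1 hu) z hzS
      have e : (fun u => u ^ m * shiftSeries (z ::ₘ T) (m + 1) u) =
          fun u => u ^ m * (z ^ (m + 1) / (1 - z * u)) + u ^ m * shiftSeries T (m + 1) u :=
        funext fun u => by rw [shiftSeries, Multiset.map_cons, Multiset.sum_cons, mul_add]; rfl
      refine ⟨e ▸ hz.add hi, ?_⟩
      rw [e, circleIntegral.integral_add hz hi, he]
      obtain ⟨c1, c2⟩ := circleIntegral_term (z := z) m hρ0
      rcases lt_or_gt_of_ne (hne z hzS) with h | h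
      · rw [c2 h, Multiset.filter_cons_of_neg (p := fun z : ℂ => 1 < ‖z‖ * ρ) _ (not_lt.2 h.le), zero_add]
      · rw [c1 h, Multiset.filter_cons_of_pos (p := fun z : ℂ => 1 < ‖z‖ * ρ) _ h, Multiset.card_cons]
        push_cast
        ring
  have hI := (hint S fun z hz => hz).2
  have hcard : (1 : ℝ) ≤ Multiset.card (S.filter fun z => 1 < ‖z‖ * ρ) := by
    rw [Nat.one_le_cast]
    exact Multiset.card_pos_iff_exists_mem.2 ⟨a, Multiset.mem_filter.2 ⟨ha, haρ⟩⟩
  have hle := circleIntegral.norm_integral_le_of_norm_le_const hρ0.le hsmall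
  rw [hI, norm_mul, norm_neg, norm_mul, norm_mul, RCLike.norm_ofNat, norm_real,
    Real.norm_of_nonneg Real.pi_pos.le, Complex.norm_I, mul_one, Complex.norm_natCast] at hle
  have h1 : 1 ≤ ρ ^ (m + 1) * (88 ^ n * V) := by
    refine le_of_mul_le_mul_left ?_ Real.two_pi_pos
    rw [pow_succ']
    refine le_trans (mul_le_mul_of_nonneg_left hcard Real.two_pi_pos.le) (hle.trans (le_of_eq ?_))
    ring
  have h2 : 1 ≤ V * ((2 : ℝ) ^ (m + 1) * 88 ^ n) := by
    refine h1.trans (le_trans (mul_le_mul_of_nonneg_right (pow_le_pow_left₀ hρ0.le hρ2 _) (by positivity))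
      (le_of_eq ?_))
    ring
  rwa [inv_le_iff_one_le_mul₀ (by positivity)]

/-- **The second main theorem of Turán.** -/
theorem exists_norm_powSum_ge_shift (S : Multiset ℂ) {a : ℂ} (ha : a ∈ S) (ha0 : a ≠ 0)
    (hmax : ∀ z ∈ S, ‖z‖ ≤ ‖a‖) (m : ℕ) :
    ∃ j : ℕ, m + 1 ≤ j ∧ j ≤ m + Multiset.card S ∧
      ‖a‖ ^ j / (2 ^ (m + 1) * 88 ^ Multiset.card S) ≤ ‖(S.map fun z => z ^ j).sum‖ := by
  have hr : 0 < ‖a‖ := norm_pos_iff.2 ha0
  have hn : ∀ z : ℂ, ‖z / (‖a‖ : ℂ)‖ = ‖z‖ / ‖a‖ := fun z => by rw [norm_div, norm_real, norm_norm]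
  obtain ⟨j, hj1, hj2, hj⟩ := exists_norm_powSum_ge_shift_one (S.map fun z => z / (‖a‖ : ℂ))
    (a := a / (‖a‖ : ℂ)) (Multiset.mem_map_of_mem _ ha) (by rw [hn, div_self hr.ne']) (fun z hz => by
      obtain ⟨y, hy, rfl⟩ := Multiset.mem_map.1 hz
      rw [hn, div_le_one hr]
      exact hmax y hy) m
  rw [Multiset.card_map] at hj2 hj
  refine ⟨j, hj1, hj2, ?_⟩
  rw [Multiset.map_map] at hj
  simp only [Function.comp_def, div_pow, ← ofReal_pow] at hj
  simp only [div_eq_mul_inv, Multiset.sum_map_mul_right, ← ofReal_inv, norm_mul, norm_real,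
    Real.norm_of_nonneg (inv_nonneg.2 (pow_nonneg hr.le j))] at hj
  rw [le_mul_inv_iff₀ (by positivity)] at hj
  refine le_trans (le_of_eq ?_) hj
  rw [div_eq_mul_inv, mul_comm]

end FA.LinnikPrime

end
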